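import Fermat.Agent.Curve.Lift.Disc
import Fermat.Agent.Curve.Inequality
import Mathlib.FieldTheory.IsAlgClosed.Basic

/-!
# Residual ramification over `j` at level `M` divides twelve

In the Hauptmodul `t` of level `m`, `j - a` is `F(t)/s(t)^e` with `s` vanishing at the cusps, and
the residual `F` has `6` (`m = 2`) or `12` (`m = 3`) roots elsewhere (`RedDatum.exists_fibre_poly`).
Over the residual value of `j` at a good point all points of level `m` are conjugate, so their
common multiplicity divides that degree (`RedDatum.order_jB_dvd_twelve`).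
-/

set_option autoImplicit false

open UpperHalfPlane CongruenceSubgroup Polynomial
open scoped MatrixGroups
open ModularCurve (qExpand jqModC)

noncomputable section

namespace FermatAgent.Curve.Red

open FermatAgent.ES

variable {M m : ℕ} [NeZero M] {k : Type*} [Field k] (D : RedDatum M k) (haux : AuxLevel M m)

include haux in
/-- The residual order at `τ` of a translate is at least that at the translated point. -/
theorem RedDatum.dvd_resDisc_actB (hint : D.IntClosed) {τ : ℍ} (hτ : jFun τ ∈ D.R)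
    (δ : SL(2, ℤ)) (hg : GoodPoint haux D.R τ) (hg' : GoodPoint haux D.R (δ • τ)) (r : ℕ) :
    ∀ x : BRing M D.R, PowerSeries.X ^ r ∣ D.resDisc haux hg' x →
      PowerSeries.X ^ r ∣ D.resDisc haux hg (D.actB δ x) := by
  induction r with
  | zero => intro x _; simp
  | succ r ih =>
    intro x hx
    have hτ' : jFun (δ • τ) ∈ D.R := by rwa [jFun_smul]
    set e : BRing M D.R := ⟨fibIdem haux (δ • τ) 1, fibIdem_mem haux D.good hg' 1⟩
    have he : (e : ℍ → ℂ) (δ • τ) = 1 := by
      rw [← apply_orbPt_one e.2.1 (δ • τ)]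
      show fibIdem haux (δ • τ) 1 _ = 1
      rw [fibIdem_orbPt haux, if_pos rfl]
    set c : D.R := ⟨_, D.apply_mem haux hint hτ' x⟩
    have hc : D.π c = 0 := by
      rw [← D.constantCoeff_resDisc haux hg' x c.2]
      exact PowerSeries.X_dvd_iff.1 ((dvd_pow_self _ r.succ_ne_zero).trans hx)
    obtain ⟨y, hy, heq⟩ := exists_eq_mul_of_fibre_zero haux D.good hg'
      (e * (x - D.constB c)).2 (fun g => by
        rw [Subring.coe_mul, AddSubgroupClass.coe_sub, Pi.mul_apply, Pi.sub_apply]
        by_cases hg1 : (1 : GalGrp M m) = g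
        · subst hg1
          rw [apply_orbPt_one x.2.1]
          show _ * ((x : ℍ → ℂ) (δ • τ) - (x : ℍ → ℂ) (δ • τ)) = 0
          rw [sub_self, mul_zero]
        · show fibIdem haux (δ • τ) 1 _ * _ = 0
          rw [fibIdem_orbPt haux, if_neg hg1, zero_mul])
    set T : BRing M D.R := D.tB haux - D.constB ⟨_, hg'.val.mem⟩
    have heq' : e * (x - D.constB c) = T * ⟨y, hy⟩ := Subtype.ext heq
    have hT : D.resDisc haux hg' T = PowerSeries.X := by
      rw [map_sub, D.resDisc_tB, D.resDisc_constB]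
      exact add_sub_cancel_left _ _
    have hTd : PowerSeries.X ∣ D.resDisc haux hg (D.actB δ T) := by
      rw [PowerSeries.X_dvd_iff,
        D.constantCoeff_resDisc haux hg _ (D.apply_mem haux hint hτ _), D.pi_eq_zero_iff]
      show ¬ UnitIn D.R (haupt haux.dvd (δ • τ) - haupt haux.dvd (δ • τ))
      rw [sub_self]
      exact D.not_unitIn_zero
    have hy' : PowerSeries.X ^ r ∣ D.resDisc haux hg' ⟨y, hy⟩ := by
      have h1 := congrArg (D.resDisc haux hg') heq'
      rw [map_mul, map_mul, hT, map_sub, D.resDisc_constB, hc, map_zero, sub_zero] at h1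
      have h2 : PowerSeries.X * PowerSeries.X ^ r ∣
          PowerSeries.X * D.resDisc haux hg' ⟨y, hy⟩ := by
        rw [← h1, ← pow_succ']
        exact hx.mul_left _
      exact (mul_dvd_mul_iff_left PowerSeries.X_ne_zero).1 h2
    have h3 := congrArg (fun z => D.resDisc haux hg (D.actB δ z)) heq'
    simp only [map_mul, map_sub, D.actB_constB, D.resDisc_constB, hc, map_zero, sub_zero] at h3
    have hu : IsUnit (D.resDisc haux hg (D.actB δ e)) := by
      rw [PowerSeries.isUnit_iff_constantCoeff,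
        D.constantCoeff_resDisc haux hg _ (D.apply_mem haux hint hτ _)]
      have h1 : (⟨_, D.apply_mem haux hint hτ (D.actB δ e)⟩ : D.R) = 1 := Subtype.ext he
      rw [h1, map_one]
      exact isUnit_one
    rw [← hu.dvd_mul_left, h3, pow_succ']
    exact mul_dvd_mul hTd (ih _ hy')

include haux in
/-- The residual order of a translate is the residual order at the translated point. -/
theorem RedDatum.X_pow_dvd_resDisc_iff (hint : D.IntClosed) {τ : ℍ} (hτ : jFun τ ∈ D.R)
    (δ : SL(2, ℤ)) (hg : GoodPoint haux D.R τ) (hg' : GoodPoint haux D.R (δ • τ))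
    (x : BRing M D.R) (r : ℕ) :
    PowerSeries.X ^ r ∣ D.resDisc haux hg (D.actB δ x) ↔
      PowerSeries.X ^ r ∣ D.resDisc haux hg' x := by
  refine ⟨fun h => ?_, D.dvd_resDisc_actB haux hint hτ δ hg hg' r x⟩
  have hg'' : GoodPoint haux D.R (δ⁻¹ • δ • τ) := by rwa [inv_smul_smul]
  have key : ∀ (σ : ℍ) (hσ : GoodPoint haux D.R σ), σ = τ →
      PowerSeries.X ^ r ∣ D.resDisc haux hσ (D.actB δ x) := by
    rintro σ hσ rfl; exact h
  have h1 := D.dvd_resDisc_actB haux hint (τ := δ • τ) (by rwa [jFun_smul]) δ⁻¹ hg' hg'' r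
    (D.actB δ x) (key _ hg'' (inv_smul_smul _ _))
  rwa [← D.actB_mul, mul_inv_cancel, D.actB_one] at h1

include haux in
/-- The residual order of a translate at `τ` is the residual order at the translated point. -/
theorem RedDatum.order_resDisc_actB (hint : D.IntClosed) {τ : ℍ} (hτ : jFun τ ∈ D.R)
    (δ : SL(2, ℤ)) (hg : GoodPoint haux D.R τ) (hg' : GoodPoint haux D.R (δ • τ))
    (x : BRing M D.R) :
    (D.resDisc haux hg (D.actB δ x)).order = (D.resDisc haux hg' x).order := by
  have key : ∀ {p q : PowerSeries k}, (∀ r : ℕ, PowerSeries.X ^ r ∣ p → PowerSeries.X ^ r ∣ q) →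
      p.order ≤ q.order := fun {p q} h => by
    refine ENat.forall_natCast_le_iff_le.1 fun r hr => ?_
    exact PowerSeries.nat_le_order q r (PowerSeries.X_pow_dvd_iff.1 (h r
      (PowerSeries.X_pow_dvd_iff.2 fun i hi => PowerSeries.coeff_of_lt_order i
        (lt_of_lt_of_le (by exact_mod_cast hi) hr))))
  exact le_antisymm (key fun r => (D.X_pow_dvd_resDisc_iff haux hint hτ δ hg hg' x r).1)
    (key fun r => (D.X_pow_dvd_resDisc_iff haux hint hτ δ hg hg' x r).2)

section

omit [NeZero M]

theorem order_polynomial (p : k[X]) (hp : p ≠ 0) :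
    (p : PowerSeries k).order = p.natTrailingDegree := by
  refine PowerSeries.order_eq_nat.2 ⟨?_, fun i hi => ?_⟩
  · rw [Polynomial.coeff_coe]
    exact coeff_natTrailingDegree_ne_zero.2 hp
  · rw [Polynomial.coeff_coe]
    exact coeff_eq_zero_of_lt_natTrailingDegree hi

/-- `q ↦ q ^ n` multiplies orders by `n`. -/
theorem order_qExpand (n : ℕ) [NeZero n] (x : LaurentSeries k) (hx : x ≠ 0) :
    (qExpand k n x).order = n * x.order := by
  refine le_antisymm (HahnSeries.order_le_of_coeff_ne_zero ?_) ?_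
  · rw [ModularCurve.qExpand_coeff_mul, Ne, HahnSeries.coeff_order_eq_zero]
    exact hx
  · refine (HahnSeries.le_order_iff_forall
      ((map_ne_zero_iff _ (ModularCurve.qExpand_injective n)).2 hx)).2 fun j hj => ?_
    by_cases hd : (n : ℤ) ∣ j
    · obtain ⟨i, rfl⟩ := hd
      rw [ModularCurve.qExpand_coeff_mul]
      refine HahnSeries.coeff_eq_zero_of_lt_order ?_
      exact Int.lt_of_mul_lt_mul_left hj (Int.natCast_nonneg n)
    · exact ModularCurve.qExpand_coeff_of_not_dvd _ _ hd

open Classical in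
/-- The order of a nonconstant series less a constant. -/
theorem order_sub_C {x : LaurentSeries k} (hx : x.order ≠ 0) (r : k) :
    x - HahnSeries.C r ≠ 0 ∧ (x - HahnSeries.C r).order =
      if r = 0 then x.order else min x.order 0 := by
  have hx0 : x ≠ 0 := fun h => hx (by rw [h, HahnSeries.order_zero])
  have hne : x - HahnSeries.C r ≠ 0 := fun h => by
    rw [sub_eq_zero] at h
    rw [h, HahnSeries.order_C] at hx
    exact hx rfl
  refine ⟨hne, ?_⟩
  rcases eq_or_ne r 0 with rfl | hr
  · rw [map_zero, sub_zero, if_pos rfl]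
  rw [if_neg hr]
  refine le_antisymm (HahnSeries.order_le_of_coeff_ne_zero ?_)
    ((HahnSeries.le_order_iff_forall hne).2 fun j hj => ?_)
  · rcases le_or_gt x.order 0 with h | h
    · rw [min_eq_left h, HahnSeries.coeff_sub, HahnSeries.C_apply,
        HahnSeries.coeff_single_of_ne hx, sub_zero, Ne, HahnSeries.coeff_order_eq_zero]
      exact hx0
    · rw [min_eq_right h.le, HahnSeries.coeff_sub, HahnSeries.C_apply,
        HahnSeries.coeff_single_same, HahnSeries.coeff_eq_zero_of_lt_order h, zero_sub]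
      exact neg_ne_zero.2 hr
  · rw [HahnSeries.coeff_sub, HahnSeries.C_apply, HahnSeries.coeff_single_of_ne
      (ne_of_lt (lt_of_lt_of_le hj (min_le_right _ _))),
      HahnSeries.coeff_eq_zero_of_lt_order (lt_of_lt_of_le hj (min_le_left _ _)), sub_zero]

/-- The order of a polynomial in a nonconstant series, through its roots. -/
theorem order_eval₂_roots [IsAlgClosed k] {p : k[X]} (hp : p ≠ 0) {x : LaurentSeries k}
    (hx : ∀ r : k, x - HahnSeries.C r ≠ 0) :
    (p.eval₂ HahnSeries.C x).order =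
      (p.roots.map fun r => (x - HahnSeries.C r).order).sum := by
  have key : ∀ S : Multiset k, (S.map fun r => x - HahnSeries.C r).prod ≠ 0 ∧
      ((S.map fun r => x - HahnSeries.C r).prod).order =
        (S.map fun r => (x - HahnSeries.C r).order).sum := fun S => by
    induction S using Multiset.induction with
    | empty => exact ⟨by simp, by simp⟩
    | cons a S ih =>
      simp only [Multiset.map_cons, Multiset.prod_cons, Multiset.sum_cons]
      exact ⟨mul_ne_zero (hx a) ih.1, by rw [HahnSeries.order_mul (hx a) ih.1, ih.2]⟩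
  conv_lhs => rw [(IsAlgClosed.splits p).eq_prod_roots]
  rw [eval₂_mul, eval₂_C, Polynomial.eval₂_multiset_prod, Multiset.map_map,
    HahnSeries.order_mul ((_root_.map_ne_zero _).2 (leadingCoeff_ne_zero.2 hp))
      (by simpa [Function.comp_def] using (key p.roots).1), HahnSeries.order_C, zero_add]
  simpa [Function.comp_def] using (key p.roots).2

omit [Field k] in
open Classical in
theorem sum_map_ite_eq (w : ℤ) (S : Multiset k) (s : k) :
    (S.map fun r => if r = s then w else 0).sum = w * (S.count s : ℤ) := by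
  induction S using Multiset.induction with
  | empty => simp
  | cons b S ih =>
    rw [Multiset.map_cons, Multiset.sum_cons, ih, Multiset.count_cons]
    rcases eq_or_ne b s with rfl | hb
    · simp; ring
    · rw [if_neg hb, if_neg (Ne.symm hb)]; simp

omit [Field k] in
open Classical in
theorem card_filter_ne_add_count (S : Multiset k) (b : k) :
    (S.filter (fun r => r ≠ b)).card + S.count b = S.card := by
  induction S using Multiset.induction with
  | empty => simp
  | cons c S ih =>
    rcases eq_or_ne c b with rfl | hc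
    · rw [Multiset.filter_cons_of_neg _ (by simp), Multiset.count_cons_self, Multiset.card_cons]
      omega
    · rw [Multiset.filter_cons_of_pos (p := fun r => r ≠ b) _ hc,
        Multiset.count_cons_of_ne (Ne.symm hc), Multiset.card_cons, Multiset.card_cons]
      omega

open Classical in
/-- Counting the roots of the fibre equation away from the values `0, 1, ρ` at the cusps: `6` of
them at level `2`, `12` at level `3`. -/
theorem card_filter_dvd_twelve {R : Multiset k} {ρ : k} {m e : ℕ}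
    (hcases : (m = 2 ∧ ρ = 0) ∨ (m = 3 ∧ ρ ≠ 0 ∧ ρ ≠ 1))
    (htot : (R.card : ℤ) = (m : ℤ) + 3 * (e : ℤ))
    (e1 : (R.count 1 : ℤ) = -(m : ℤ) + (e : ℤ) * (({0, 1, ρ} : Multiset k).count 1 : ℤ))
    (e0 : (R.count 0 : ℤ) = -(m : ℤ) + (e : ℤ) * (({0, 1, ρ} : Multiset k).count 0 : ℤ))
    (e2 : m = 3 →
      (R.count ρ : ℤ) = -(m : ℤ) + (e : ℤ) * (({0, 1, ρ} : Multiset k).count ρ : ℤ)) :
    (R.filter fun r => r ≠ 0 ∧ r ≠ 1 ∧ r ≠ ρ).card ∣ 12 := by
  classical
  rcases hcases with ⟨hm, hρ⟩ | ⟨hm, hρ0, hρ1⟩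
  · rw [hρ] at e1 e0
    simp at e1 e0
    have hf : R.filter (fun r => r ≠ 0 ∧ r ≠ 1 ∧ r ≠ ρ) =
        (R.filter (fun r => r ≠ 0)).filter (fun r => r ≠ 1) := by
      rw [Multiset.filter_filter]
      exact Multiset.filter_congr fun r _ => by rw [hρ]; tauto
    have h1 := card_filter_ne_add_count R 0
    have h2 := card_filter_ne_add_count (R.filter (fun r => r ≠ 0)) 1
    rw [Multiset.count_filter_of_pos (p := fun r : k => r ≠ 0) one_ne_zero] at h2
    rw [hf]
    have : (((R.filter (fun r => r ≠ 0)).filter (fun r => r ≠ 1)).card : ℤ) = 6 := by omega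
    rw [show ((R.filter (fun r => r ≠ 0)).filter (fun r => r ≠ 1)).card = 6 by exact_mod_cast this]
    norm_num
  · have eρ := e2 hm
    simp [hρ0, hρ1, Ne.symm hρ0, Ne.symm hρ1] at e1 e0 eρ
    have hf : R.filter (fun r => r ≠ 0 ∧ r ≠ 1 ∧ r ≠ ρ) =
        ((R.filter (fun r => r ≠ 0)).filter (fun r => r ≠ 1)).filter
          (fun r => r ≠ ρ) := by
      rw [Multiset.filter_filter, Multiset.filter_filter]
      exact Multiset.filter_congr fun r _ => by tauto
    have h1 := card_filter_ne_add_count R 0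
    have h2 := card_filter_ne_add_count (R.filter (fun r => r ≠ 0)) 1
    have h3 := card_filter_ne_add_count ((R.filter (fun r => r ≠ 0)).filter (fun r => r ≠ 1)) ρ
    rw [Multiset.count_filter_of_pos (p := fun r : k => r ≠ 0) one_ne_zero] at h2
    rw [Multiset.count_filter_of_pos (p := fun r : k => r ≠ 1) hρ1,
      Multiset.count_filter_of_pos (p := fun r : k => r ≠ 0) hρ0] at h3
    rw [hf]
    have h4 : ((((R.filter (fun r => r ≠ 0)).filter (fun r => r ≠ 1)).filter
        (fun r => r ≠ ρ)).card : ℤ) = 12 := by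
      have e3 : (m : ℤ) = 3 := by exact_mod_cast hm
      omega
    rw [show (((R.filter (fun r => r ≠ 0)).filter (fun r => r ≠ 1)).filter
      (fun r => r ≠ ρ)).card = 12 by exact_mod_cast h4]

end

theorem RedDatum.order_redHom_of_leadUnit {f : BRing M D.R} {γ : SL(2, ℤ)} {d : ℤ}
    (h : LeadUnit D.R (lexp M γ (f : ℍ → ℂ)) d) : (D.redHom γ f).order = d := by
  have hc : (D.redHom γ f).coeff d ≠ 0 := by
    rw [D.coeff_redHom, D.unit_iff]
    exact h.unitIn_coeff
  refine le_antisymm (HahnSeries.order_le_of_coeff_ne_zero hc)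
    ((HahnSeries.le_order_iff_forall fun h0 => hc (by rw [h0]; rfl)).2 fun n hn => ?_)
  rw [D.coeff_redHom, ← map_zero D.π]
  exact congrArg _ (Subtype.ext (h.coeff_of_lt hn))

theorem RedDatum.order_redHom_polFun {l : ℕ} (hl : l ≤ m) :
    (D.redHom (cuspRep l) ⟨_, polFun_mem_BRing haux D.good hl⟩).order = -((M / m : ℕ) : ℤ) := by
  have h := leadUnit_polFun haux D.good l l hl
  rw [(polOrd_table haux.small l hl l hl).1 rfl, mul_neg, mul_one] at h
  exact D.order_redHom_of_leadUnit h

/-- The reduction of the third finite cusp value. -/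
def RedDatum.rootRes : k := D.π (D.rootR haux)

theorem RedDatum.rootRes_cases :
    (m = 2 ∧ D.rootRes haux = 0) ∨
      (m = 3 ∧ D.rootRes haux ≠ 0 ∧ D.rootRes haux ≠ 1) := by
  rcases haux.small with hm | hm
  · refine Or.inl ⟨hm, ?_⟩
    rw [RedDatum.rootRes, ← map_zero D.π]
    exact congrArg D.π (Subtype.ext (by
      show hauptRoot haux = 0
      simp [hauptRoot, hm]))
  · obtain ⟨hr, h0, h1, -⟩ := polFun_three haux hm D.good
    refine Or.inr ⟨hm, (D.unit_iff _).2 h0, fun h => ?_⟩
    have : D.π (D.rootR haux - 1) ≠ 0 := (D.unit_iff _).2 h1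
    rw [map_sub, map_one] at this
    exact this (sub_eq_zero.2 h)

open Classical in
/-- The order of the Hauptmodul less a constant at the four cusps. -/
theorem RedDatum.order_tB_sub (r : k) :
    (∀ s : k, ∀ l, (l = 0 ∧ s = 1) ∨ (l = 2 ∧ s = 0) ∨ (l = 3 ∧ m = 3 ∧ s = D.rootRes haux) →
      D.redHom (cuspRep l) (D.tB haux) - HahnSeries.C r ≠ 0 ∧
        (D.redHom (cuspRep l) (D.tB haux) - HahnSeries.C r).order =
          if r = s then ((M / m : ℕ) : ℤ) else 0) ∧
    D.redHom (cuspRep 1) (D.tB haux) - HahnSeries.C r ≠ 0 ∧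
      (D.redHom (cuspRep 1) (D.tB haux) - HahnSeries.C r).order = -((M / m : ℕ) : ℤ) := by
  have hw : (0 : ℤ) < ((M / m : ℕ) : ℤ) := by
    exact_mod_cast Nat.div_pos (Nat.le_of_dvd (Nat.pos_of_ne_zero (NeZero.ne M)) haux.dvd)
      (by rcases haux.small with rfl | rfl <;> norm_num)
  have hpole : ∀ l (hl : l ≤ m) (b : D.R) (α : ℂ), UnitIn D.R α →
      (∀ τ, polFun haux.dvd l τ * (haupt haux.dvd τ - (b : ℂ)) = α) →
      (D.redHom (cuspRep l) (D.tB haux) - HahnSeries.C (D.π b)).order = ((M / m : ℕ) : ℤ) := by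
    intro l hl b α hα he
    have hrel : (⟨_, polFun_mem_BRing haux D.good hl⟩ : BRing M D.R) *
        (D.tB haux - D.constB b) = D.constB ⟨α, hα.2.1⟩ :=
      Subtype.ext (funext fun τ => he τ)
    have h1 := congrArg (D.redHom (cuspRep l)) hrel
    rw [map_mul, map_sub, D.redHom_constB, D.redHom_constB] at h1
    have ha : (HahnSeries.C (D.π ⟨α, hα.2.1⟩) : LaurentSeries k) ≠ 0 :=
      (_root_.map_ne_zero _).2 ((D.unit_iff _).2 hα)
    rw [← h1] at ha
    have h2 := congrArg HahnSeries.order h1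
    rw [HahnSeries.order_mul (left_ne_zero_of_mul ha) (right_ne_zero_of_mul ha),
      D.order_redHom_polFun haux hl, HahnSeries.order_C] at h2
    omega
  constructor
  · intro s l hcase
    have hs : (D.redHom (cuspRep l) (D.tB haux) - HahnSeries.C s).order = ((M / m : ℕ) : ℤ) := by
      rcases hcase with ⟨rfl, rfl⟩ | ⟨rfl, rfl⟩ | ⟨rfl, hm, rfl⟩
      · have := hpole 0 (Nat.zero_le _) 1 1 ⟨one_ne_zero, D.R.one_mem, by simp [D.R.one_mem]⟩
          fun τ => congrFun (polFun_zero_mul haux) τ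
        rwa [map_one] at this
      · have := hpole 2 (two_le haux) 0 1 ⟨one_ne_zero, D.R.one_mem, by simp [D.R.one_mem]⟩
          fun τ => by simpa using congrFun (polFun_two_mul_haupt haux) τ
        rwa [map_zero] at this
      · obtain ⟨-, -, -, α, hα, h⟩ := polFun_three haux hm D.good
        exact hpole 3 (le_of_eq hm.symm) (D.rootR haux) α hα h
    obtain ⟨h1, h2⟩ := order_sub_C (by rw [hs]; exact hw.ne') (r - s)
    rw [show D.redHom (cuspRep l) (D.tB haux) - HahnSeries.C s - HahnSeries.C (r - s) =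
      D.redHom (cuspRep l) (D.tB haux) - HahnSeries.C r by rw [map_sub]; ring] at h1 h2
    refine ⟨h1, ?_⟩
    rw [h2, hs]
    by_cases h : r = s
    · rw [if_pos (sub_eq_zero.2 h), if_pos h]
    · rw [if_neg (sub_ne_zero.2 h), if_neg h]
      exact min_eq_right hw.le
  · have h := D.order_redHom_polFun haux (one_le haux)
    change (D.redHom (cuspRep 1) (D.tB haux)).order = _ at h
    obtain ⟨h1, h2⟩ := order_sub_C (by rw [h]; omega) r
    refine ⟨h1, ?_⟩
    rw [h2, h]
    split_ifs <;> omega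

/-- The reduced expansions of `j - a` have order `-M`. -/
theorem RedDatum.order_redHom_jB_sub (γ : SL(2, ℤ)) (a : D.R) :
    D.redHom γ (D.jB (M := M) - D.constB a) ≠ 0 ∧
      (D.redHom γ (D.jB (M := M) - D.constB a)).order = -(M : ℤ) := by
  have hjo : (jqModC k - HahnSeries.C (D.π a) : LaurentSeries k).order = -1 ∧
      jqModC k - HahnSeries.C (D.π a) ≠ 0 := by
    have ho : (jqModC k).order = -1 := le_antisymm (HahnSeries.order_le_of_coeff_ne_zero (by
        rw [ModularCurve.coeff_jqModC_neg_one]; exact one_ne_zero))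
      ((HahnSeries.le_order_iff_forall (ModularCurve.jqModC_ne_zero_of_nontrivial k)).2
        fun j hj => ModularCurve.coeff_jqModC_of_lt k hj)
    obtain ⟨h1, h2⟩ := order_sub_C (x := jqModC k) (by omega) (D.π a)
    rw [ho] at h2
    refine ⟨h2.trans ?_, h1⟩
    split_ifs <;> rfl
  have hJ : ∀ γ : SL(2, ℤ), D.redHom γ (D.jB - D.constB a) =
      qExpand k M (jqModC k - HahnSeries.C (D.π a)) := fun γ => by
    rw [map_sub, map_sub, D.redHom_jB, D.redHom_constB, HahnSeries.C_apply,
      ModularCurve.qExpand_single, mul_zero]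
  rw [hJ]
  exact ⟨(map_ne_zero_iff _ (ModularCurve.qExpand_injective M)).2 hjo.2,
    by rw [order_qExpand M _ hjo.2, hjo.1]; ring⟩

include haux in
open Classical in
/-- The fibre equation of `j` at level `m`: `(j - a) s(t) ^ e = F(t)`, with `F` residually nonzero
and `6` or `12` residual roots away from the cusps. -/
theorem RedDatum.exists_fibre_poly [IsAlgClosed k] (a : D.R) :
    ∃ (e : ℕ) (F : D.R[X]),
      (D.jB - D.constB a) * D.evT haux (D.sPol haux) ^ e = D.evT (M := M) haux F ∧
      F.map D.π ≠ 0 ∧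
      (((F.map D.π).roots.filter fun r => r ≠ 0 ∧ r ≠ 1 ∧ r ≠ D.rootRes haux).card ∣ 12) := by
  classical
  obtain ⟨e, F, hF⟩ := D.exists_evT_of_mem haux (a := D.jB - D.constB a)
    (invariant_mem_polRing haux D.good (D.jB - D.constB a).2 fun δ _ => by
      funext τ
      exact congrArg (fun z => z - (a : ℂ)) (jFun_smul δ τ))
  set p := F.map D.π
  set s := (D.sPol haux).map D.π
  set w : ℤ := ((M / m : ℕ) : ℤ)
  have hMw : (M : ℤ) = (m : ℤ) * w := by
    show (M : ℤ) = (m : ℤ) * ((M / m : ℕ) : ℤ)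
    exact_mod_cast (Nat.mul_div_cancel' haux.dvd).symm
  have hJ := fun γ => D.order_redHom_jB_sub (M := M) γ a
  have hJne := fun γ => (hJ γ).1
  have hJo := fun γ => (hJ γ).2
  have hp0 : p ≠ 0 := fun h0 => by
    have := congrArg (D.redHom 1) hF
    rw [map_mul, map_pow, D.redHom_evT, D.redHom_evT, show F.map D.π = 0 from h0, map_zero] at this
    exact mul_ne_zero (hJne 1) (pow_ne_zero _ (D.redEv_sPol_ne_zero haux 1)) this
  have hs0 : s ≠ 0 := fun h => D.redEv_sPol_ne_zero haux 1 (by
    rw [show (D.sPol haux).map D.π = 0 from h, map_zero])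
  have hsr : s.roots = {0, 1, D.rootRes haux} := by
    have e1 : s = ((Multiset.map (fun r => Polynomial.X - Polynomial.C r)
        ({0, 1, D.rootRes haux} : Multiset k))).prod := by
      simp [s, RedDatum.sPol, RedDatum.rootRes, Polynomial.map_mul, mul_assoc]
    rw [e1, roots_multiset_prod_X_sub_C]
  have hkey : ∀ γ : SL(2, ℤ), (∀ r : k, D.redHom γ (D.tB haux) - HahnSeries.C r ≠ 0) →
      (p.roots.map fun r => (D.redHom γ (D.tB haux) - HahnSeries.C r).order).sum =
        -(M : ℤ) + (e : ℤ) *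
          (s.roots.map fun r => (D.redHom γ (D.tB haux) - HahnSeries.C r).order).sum := by
    intro γ hne
    have h1 := congrArg (D.redHom γ) hF
    rw [map_mul, map_pow, D.redHom_evT, D.redHom_evT] at h1
    have h2 := congrArg HahnSeries.order h1
    rw [HahnSeries.order_mul (hJne γ) (pow_ne_zero _ (D.redEv_sPol_ne_zero haux γ)),
      HahnSeries.order_pow, nsmul_eq_mul, hJo] at h2
    simp only [RedDatum.redEv, coe_eval₂RingHom] at h2
    rw [order_eval₂_roots hs0 hne, order_eval₂_roots hp0 hne] at h2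
    exact h2.symm
  have hw : w ≠ 0 := fun h => NeZero.ne M (by
    have := hMw
    rw [h, mul_zero] at this
    exact_mod_cast this)
  have hat : ∀ s0 : k, ∀ l, (l = 0 ∧ s0 = 1) ∨ (l = 2 ∧ s0 = 0) ∨
      (l = 3 ∧ m = 3 ∧ s0 = D.rootRes haux) →
      (p.roots.count s0 : ℤ) = -(m : ℤ) + (e : ℤ) * (s.roots.count s0 : ℤ) := by
    intro s0 l hcase
    have h1 := hkey (cuspRep l) fun r => ((D.order_tB_sub haux r).1 s0 l hcase).1
    rw [Multiset.map_congr rfl (fun r _ => ((D.order_tB_sub haux r).1 s0 l hcase).2),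
      Multiset.map_congr (s := s.roots) rfl
        (fun r _ => ((D.order_tB_sub haux r).1 s0 l hcase).2), sum_map_ite_eq, sum_map_ite_eq,
      hMw] at h1
    refine mul_left_cancel₀ hw ?_
    linear_combination h1
  have htot : (p.roots.card : ℤ) = (m : ℤ) + 3 * (e : ℤ) := by
    have h1 := hkey (cuspRep 1) fun r => (D.order_tB_sub haux r).2.1
    rw [Multiset.map_congr rfl (fun r _ => (D.order_tB_sub haux r).2.2),
      Multiset.map_congr (s := s.roots) rfl (fun r _ => (D.order_tB_sub haux r).2.2),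
      Multiset.map_const', Multiset.sum_replicate, Multiset.map_const', Multiset.sum_replicate,
      hsr, hMw] at h1
    rw [show ({0, 1, D.rootRes haux} : Multiset k).card = 3 from rfl] at h1
    simp only [nsmul_eq_mul, Nat.cast_ofNat] at h1
    refine mul_left_cancel₀ hw ?_
    linear_combination -h1
  refine ⟨e, F, hF, hp0, ?_⟩
  have e1 := hat 1 0 (Or.inl ⟨rfl, rfl⟩)
  have e0 := hat 0 2 (Or.inr (Or.inl ⟨rfl, rfl⟩))
  rw [hsr] at e1 e0
  refine card_filter_dvd_twelve (D.rootRes_cases haux) htot e1 e0 fun hm => ?_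
  have h3 := hat (D.rootRes haux) 3 (Or.inr (Or.inr ⟨rfl, hm, rfl⟩))
  rwa [hsr] at h3

include haux in
/-- Every residual point over the value of `j` at `τ` is the reduction of a conjugate of `τ`. -/
theorem RedDatum.exists_tVal_eq (hint : D.IntClosed) {τ : ℍ} (hτ : jFun τ ∈ D.R) {e : ℕ}
    {F : D.R[X]}
    (hF : (D.jB - D.constB ⟨_, hτ⟩) * D.evT haux (D.sPol haux) ^ e = D.evT (M := M) haux F)
    {u : k} (hu : (F.map D.π).eval u = 0) (hs : ((D.sPol haux).map D.π).eval u ≠ 0) :
    ∃ γ : SL(2, ℤ), ∃ hg : GoodPoint haux D.R (γ • τ), D.tVal haux hg = u := by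
  classical
  by_contra hne
  push Not at hne
  obtain ⟨b, rfl⟩ := D.surj u
  set G := D.resGroup haux (⊤ : Subgroup SL(2, ℤ))
  let : DecidableEq G := Classical.decEq _
  set φ : G → BRing M D.R := fun g => D.constB b - D.actB (D.resRep haux g)⁻¹ (D.tB haux)
  set Pr : BRing M D.R := ∏ g : G, φ g
  have hPr : Pr = (D.symPoly haux ⊤ (D.tB haux)).eval (D.constB b) := by
    simp [Pr, φ, RedDatum.symPoly, eval_prod]
    rfl
  have hinv : ∀ γ, D.actB γ Pr = Pr := fun γ => by
    rw [hPr, ← eval_map_apply (f := D.actB γ), D.actB_constB]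
    congr 1
    ext i : 1
    rw [coeff_map]
    exact D.coeff_symPoly_mem haux ⊤ _ i γ (Subgroup.mem_top γ)
  obtain ⟨P, hP⟩ := D.exists_eq_evJB hinv
  have hv : D.π (P.eval ⟨_, hτ⟩) ≠ 0 := by
    have hval : ∀ g : G, haupt haux.dvd ((D.resRep haux g)⁻¹ • τ) ∈ D.R := fun g =>
      D.apply_mem haux hint hτ (D.actB (D.resRep haux g)⁻¹ (D.tB haux))
    have e : P.eval ⟨_, hτ⟩ = ∏ g : G, (b - ⟨_, hval g⟩) := by
      refine Subtype.ext ?_
      rw [SubmonoidClass.coe_finsetProd]
      have h1 := congrFun (congrArg Subtype.val hP) τ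
      rw [D.coe_evJB] at h1
      refine (eval_map_apply (f := D.R.subtype) (p := P) (⟨_, hτ⟩ : D.R)).symm.trans
        (h1.symm.trans ?_)
      simp [Pr, φ, SubmonoidClass.coe_finsetProd, Finset.prod_apply, RedDatum.tB]
    rw [e, map_prod, Finset.prod_ne_zero_iff]
    intro g _
    rw [map_sub, sub_ne_zero]
    exact (hne (D.resRep haux g)⁻¹ (D.goodPoint haux hint (by rwa [jFun_smul]))).symm
  obtain ⟨Q, hQ⟩ : (Polynomial.X - Polynomial.C (⟨_, hτ⟩ : D.R)) ∣
      P - Polynomial.C (P.eval ⟨_, hτ⟩) := dvd_iff_isRoot.2 (by simp)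
  have hPdec : Pr = (D.jB - D.constB ⟨_, hτ⟩) * D.evJB Q + D.constB (P.eval ⟨_, hτ⟩) := by
    rw [hP]
    conv_lhs => rw [← sub_add_cancel P (Polynomial.C (P.eval ⟨_, hτ⟩)), hQ]
    simp [RedDatum.evJB]
  have hφ1 : φ 1 = D.constB b - D.tB haux := by
    show _ - D.actB _ _ = _
    rw [D.actB_inv_eq_of_resAut_eq haux (b := 1) (by rw [D.resAut_resRep, map_one]; rfl), inv_one,
      D.actB_one]
  set rest := ∏ g ∈ (Finset.univ : Finset G).erase 1, φ g
  have hrest : (rest : ℍ → ℂ) ∈ polRing haux D.R := by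
    refine invariant_mem_polRing haux D.good rest.2 fun δ hδ => ?_
    have h1 : D.actB δ rest = rest := by
      rw [map_prod]
      refine Finset.prod_congr rfl fun g _ => ?_
      rw [map_sub, D.actB_constB]
      congr 1
      refine Subtype.ext ?_
      simp only [coe_actB, RedDatum.tB]
      set ρ := (D.resRep haux g)⁻¹
      rw [← act_mul, show ρ * δ = (ρ * δ * ρ⁻¹) * ρ by group, act_mul]
      exact congrArg (act ρ) (act_polFun haux ((Gamma_normal m).conj_mem δ hδ ρ) 1)
    exact congrArg Subtype.val h1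
  obtain ⟨e1, H, hH⟩ := D.exists_evT_of_mem haux hrest
  obtain ⟨e2, Qt, hQt⟩ := D.exists_evT_of_mem haux (a := D.evJB (M := M) Q)
    (invariant_mem_polRing haux D.good (D.evJB Q).2 fun δ _ =>
      congrArg Subtype.val (D.actB_evJB δ Q))
  have hsplit : Pr = (D.constB b - D.tB haux) * rest := by
    rw [← hφ1]; exact (Finset.mul_prod_erase _ _ (Finset.mem_univ 1)).symm
  set S := D.evT (M := M) haux (D.sPol haux)
  have hid : D.evT (M := M) haux ((Polynomial.C b - Polynomial.X) * H * D.sPol haux ^ (e + e2)) =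
      D.evT haux (F * Qt * D.sPol haux ^ e1 +
        Polynomial.C (P.eval ⟨_, hτ⟩) * D.sPol haux ^ (e + e1 + e2)) := by
    have hX : D.evT (M := M) haux (Polynomial.C b - Polynomial.X) = D.constB b - D.tB haux := by
      simp [RedDatum.evT]
    have hC : D.evT (M := M) haux (Polynomial.C (P.eval ⟨_, hτ⟩)) =
        D.constB (P.eval ⟨_, hτ⟩) := by
      simp [RedDatum.evT]
    rw [map_add, map_mul, map_mul, map_mul, map_mul, map_mul, map_pow, map_pow, map_pow, hX, hC,
      ← hH, ← hQt, ← hF]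
    have := congrArg (fun z => z * S ^ (e + e1 + e2)) (hsplit.symm.trans hPdec)
    linear_combination this
  have hpoly := congrArg (D.redHom 1) hid
  rw [D.redHom_evT, D.redHom_evT] at hpoly
  have h1 := congrArg (Polynomial.eval (D.π b)) (D.redEv_injective haux 1 hpoly)
  simp only [Polynomial.map_mul, Polynomial.map_sub, Polynomial.map_add, Polynomial.map_C,
    Polynomial.map_X, Polynomial.map_pow, eval_mul, eval_sub, eval_add, eval_C, eval_X, eval_pow,
    sub_self, zero_mul, hu, zero_add] at h1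
  exact mul_ne_zero hv (pow_ne_zero _ hs) h1.symm

theorem RedDatum.eval_sPol_map (u : k) :
    ((D.sPol haux).map D.π).eval u = u * (u - 1) * (u - D.rootRes haux) := by
  simp [RedDatum.sPol, RedDatum.rootRes]

/-- A good point avoids the cusp values. -/
theorem RedDatum.eval_sPol_tVal_ne_zero {σ : ℍ} (hσ : GoodPoint haux D.R σ) :
    ((D.sPol haux).map D.π).eval (D.tVal haux hσ) ≠ 0 := by
  rw [D.eval_sPol_map]
  refine mul_ne_zero (mul_ne_zero ((D.unit_iff _).2 hσ.val.unit) ?_) ?_
  · rw [RedDatum.tVal, ← map_one D.π, ← map_sub]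
    exact (D.unit_iff _).2 hσ.val.unit_one
  · rw [RedDatum.tVal, RedDatum.rootRes, ← map_sub]
    exact (D.unit_iff _).2 hσ.val.unit_root

/-- The residual order of `j - a` at a good point is the multiplicity of its Hauptmodul as a root
of the fibre equation. -/
theorem RedDatum.order_resDisc_eq_rootMultiplicity {a : D.R} {e : ℕ} {F : D.R[X]}
    (hF : (D.jB - D.constB a) * D.evT haux (D.sPol haux) ^ e = D.evT (M := M) haux F)
    (hp0 : F.map D.π ≠ 0) {σ : ℍ} (hσ : GoodPoint haux D.R σ) :
    (D.resDisc haux hσ (D.jB - D.constB a)).order =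
      ((F.map D.π).rootMultiplicity (D.tVal haux hσ) : ℕ∞) := by
  classical
  set p := F.map D.π with hp
  set s := (D.sPol haux).map D.π with hs
  set u := D.tVal haux hσ with hu
  have h1 := congrArg (D.resDisc haux hσ) hF
  rw [map_mul, map_pow, D.resDisc_evT, D.resDisc_evT, ← hp, ← hs, ← hu] at h1
  have h2 : IsUnit ((taylor u s : k[X]) : PowerSeries k) := by
    rw [PowerSeries.isUnit_iff_constantCoeff, Polynomial.constantCoeff_coe, taylor_coeff_zero]
    exact (D.eval_sPol_tVal_ne_zero haux hσ).isUnit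
  have h3 : taylor u p ≠ 0 := fun h => hp0 (taylor_injective u (h.trans (map_zero _).symm))
  have h4 := congrArg PowerSeries.order h1
  rw [PowerSeries.order_mul, order_polynomial _ h3,
    PowerSeries.order_zero_of_unit (h2.pow e), add_zero] at h4
  rw [h4, rootMultiplicity_eq_natTrailingDegree, taylor_apply]

include haux in
/-- **The fibre of `j` at level `m` is one orbit.** -/
theorem RedDatum.exists_fibre_orbit [IsAlgClosed k] (hint : D.IntClosed) {τ : ℍ}
    (hτ : jFun τ ∈ D.R) (hg : GoodPoint haux D.R τ) :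
    ∃ (S : Finset k) (E : ℕ), S.card * E ∣ 12 ∧
      (D.resDisc haux hg (D.jB - D.constB ⟨_, hτ⟩)).order = (E : ℕ∞) ∧
      (∀ u ∈ S, ∃ γ : SL(2, ℤ), ∃ hg' : GoodPoint haux D.R (γ • τ), D.tVal haux hg' = u) ∧
      (∀ (σ : ℍ) (hσ : jFun σ ∈ D.R) (hgσ : GoodPoint haux D.R σ),
        D.tVal haux hgσ ∈ S ↔ D.π ⟨_, hσ⟩ = D.π ⟨_, hτ⟩) := by
  classical
  obtain ⟨e, F, hF, hp0, hcard⟩ := D.exists_fibre_poly haux (⟨_, hτ⟩ : D.R)
  set p := F.map D.π with hp
  set s := (D.sPol haux).map D.π with hs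
  have hseval := fun u => D.eval_sPol_map haux u
  rw [← hs] at hseval
  have hsu := fun σ hσ => D.eval_sPol_tVal_ne_zero haux (σ := σ) hσ
  rw [← hs] at hsu
  have hord := fun σ hσ => D.order_resDisc_eq_rootMultiplicity haux hF hp0 (σ := σ) hσ
  rw [← hp] at hord
  set E := p.rootMultiplicity (D.tVal haux hg)
  refine ⟨(p.roots.filter fun r => r ≠ 0 ∧ r ≠ 1 ∧ r ≠ D.rootRes haux).toFinset, E, ?_,
    hord τ hg, fun u hu => ?_, fun σ hσ hgσ => ?_⟩
  · have hmult : ∀ r ∈ (p.roots.filter fun r => r ≠ 0 ∧ r ≠ 1 ∧ r ≠ D.rootRes haux).toFinset,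
        (p.roots.filter fun r => r ≠ 0 ∧ r ≠ 1 ∧ r ≠ D.rootRes haux).count r = E := by
      intro r hr
      rw [Multiset.mem_toFinset, Multiset.mem_filter, mem_roots hp0] at hr
      obtain ⟨hr0, h0, h1, h2⟩ := hr
      obtain ⟨γ, hg', hγ⟩ := D.exists_tVal_eq haux hint hτ hF (u := r) hr0 (by
        rw [← hs, hseval]
        exact mul_ne_zero (mul_ne_zero h0 (sub_ne_zero.2 h1)) (sub_ne_zero.2 h2))
      rw [Multiset.count_filter_of_pos ⟨h0, h1, h2⟩, count_roots, ← hγ]
      have h3 := D.order_resDisc_actB haux hint hτ γ hg hg' (D.jB - D.constB ⟨_, hτ⟩)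
      rw [map_sub, D.actB_constB, show D.actB γ D.jB = D.jB (M := M) from
        Subtype.ext (funext fun σ => jFun_smul γ σ), hord, hord] at h3
      exact_mod_cast h3.symm
    refine (dvd_of_eq ?_).trans hcard
    rw [← Multiset.toFinset_sum_count_eq, Finset.sum_congr rfl hmult, Finset.sum_const,
      smul_eq_mul]
  · rw [Multiset.mem_toFinset, Multiset.mem_filter, mem_roots hp0] at hu
    refine D.exists_tVal_eq haux hint hτ hF hu.1 ?_
    rw [← hs, hseval]
    exact mul_ne_zero (mul_ne_zero hu.2.1 (sub_ne_zero.2 hu.2.2.1)) (sub_ne_zero.2 hu.2.2.2)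
  · have h1 := congrArg (fun z => PowerSeries.constantCoeff (D.resDisc haux hgσ z)) hF
    simp only [map_mul, map_sub, map_pow, D.resDisc_constB, PowerSeries.constantCoeff_C,
      D.resDisc_evT, Polynomial.constantCoeff_coe, taylor_coeff_zero,
      D.constantCoeff_resDisc haux hgσ D.jB hσ, ← hp, ← hs] at h1
    have h2 := hsu σ hgσ
    rw [hseval] at h2
    simp only [mul_ne_zero_iff, sub_ne_zero] at h2
    rw [Multiset.mem_toFinset, Multiset.mem_filter, mem_roots hp0, IsRoot.def, ← h1, mul_eq_zero,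
      or_iff_left (pow_ne_zero _ (hsu σ hgσ)), sub_eq_zero]
    exact and_iff_left ⟨h2.1.1, h2.1.2, h2.2⟩

include haux in
/-- Residual ramification divisible by three lies over the value `0` of `j`, given a transformation
of order three of the residual Hauptmodul with one fixed value, attained over `j = 0`. -/
theorem RedDatum.pi_eq_zero_of_order_three [IsAlgClosed k] (hint : D.IntClosed) {τ : ℍ}
    (hτ : jFun τ ∈ D.R) (hg : GoodPoint haux D.R τ) {E : ℕ}
    (hE : (D.resDisc haux hg (D.jB - D.constB ⟨_, hτ⟩)).order = (E : ℕ∞)) (h3 : 3 ∣ E)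
    (U : SL(2, ℤ)) (Rl : k → k → Prop)
    (hmap : ∀ (σ : ℍ) (hσ : GoodPoint haux D.R σ) (hσ' : GoodPoint haux D.R (U • σ)),
      Rl (D.tVal haux hσ) (D.tVal haux hσ'))
    (hcube : ∀ a b c d, Rl a b → Rl b c → Rl c d → d = a)
    (huniq : ∀ a b, Rl a a → Rl b b → a = b) {τ₁ : ℍ} (hU : U • τ₁ = τ₁) (hτ₁ : jFun τ₁ = 0) :
    D.π ⟨_, hτ⟩ = 0 := by
  classical
  obtain ⟨S, E', hSE, hE', horb, hmem⟩ := D.exists_fibre_orbit haux hint hτ hg
  obtain rfl : E' = E := by exact_mod_cast hE'.symm.trans hE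
  have hS : ¬ 3 ∣ S.card := fun h => by
    have := (mul_dvd_mul h h3).trans hSE
    norm_num at this
  have hclosed : ∀ u ∈ S, ∃ v ∈ S, Rl u v := fun u hu' => by
    obtain ⟨γ, hg', rfl⟩ := horb u hu'
    have hj : jFun (U • γ • τ) ∈ D.R := by rwa [jFun_smul, jFun_smul]
    refine ⟨_, ?_, hmap _ hg' (D.goodPoint haux hint hj)⟩
    rw [hmem _ hj]
    exact congrArg D.π (Subtype.ext ((jFun_smul _ _).trans (jFun_smul _ _)))
  choose g hgS hg1 using hclosed
  set h : S → S := fun u => ⟨g u u.2, hgS u u.2⟩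
  have hh : ∀ u, h (h (h u)) = u := fun u =>
    Subtype.ext (hcube _ _ _ _ (hg1 _ u.2) (hg1 _ (h u).2) (hg1 _ (h (h u)).2))
  obtain ⟨u, hfix⟩ := Equiv.Perm.exists_fixed_point_of_prime (p := 3) (n := 1)
    (α := S) (by rwa [Fintype.card_coe])
    (σ := ⟨h, fun u => h (h u), fun u => hh u, fun u => hh u⟩) (Equiv.ext fun u => by
      simpa [pow_succ] using hh u)
  have hτ₁R : jFun τ₁ ∈ D.R := hτ₁ ▸ D.R.zero_mem
  have hg₁ := D.goodPoint haux hint hτ₁R
  have hg₁' : GoodPoint haux D.R (U • τ₁) := hU.symm ▸ hg₁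
  have hu : D.tVal haux hg₁ = (u : k) := huniq _ _
    (by
      have := hmap _ hg₁ hg₁'
      rwa [show D.tVal haux hg₁' = D.tVal haux hg₁ from
        congrArg D.π (Subtype.ext (congrArg (haupt haux.dvd) hU))] at this)
    (by
      have := hg1 _ u.2
      rwa [show g u u.2 = u from congrArg Subtype.val hfix] at this)
  rw [← (hmem τ₁ hτ₁R hg₁).1 (hu ▸ u.2), ← map_zero D.π]
  exact congrArg D.π (Subtype.ext hτ₁)

include haux in
/-- **The residual ramification over `j` divides twelve.** -/
theorem RedDatum.order_jB_dvd_twelve [IsAlgClosed k] (hint : D.IntClosed) {τ : ℍ}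
    (hτ : jFun τ ∈ D.R) (hg : GoodPoint haux D.R τ) :
    ∃ E : ℕ, E ∣ 12 ∧
      (D.resDisc haux hg (D.jB - D.constB ⟨_, hτ⟩)).order = (E : ℕ∞) := by
  obtain ⟨S, E, hSE, hE, -, -⟩ := D.exists_fibre_orbit haux hint hτ hg
  exact ⟨E, (dvd_mul_left E _).trans hSE, hE⟩

end FermatAgent.Curve.Red
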