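import Fermat.Agent.Curve.Lift.Rotate
import Fermat.Agent.Curve.Embeddings
import Fermat.Agent.Curve.Lift.Twelve

/-!
# Residual divisors from orders at cusps and in discs of level `M`

The embeddings of the reduced field attached to the cosets of `Γ₀(N)` at a cusp, or in a disc of
level `M`, exhaust the places over that point of the `j`-line.  So a function whose orders there
are divisible by `n` has divisor divisible by `n`, up to a factor 12 at the elliptic points:
`RedDatum.dvd_twelve_ord`.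
-/

set_option autoImplicit false

open UpperHalfPlane CongruenceSubgroup AlgebraicCurve IntermediateField
open scoped MatrixGroups
open ModularCurve (qExpand jqModC modularFunctionFieldFullC)

attribute [-instance] IsScalarTower.of_algHom RingHom.Finite.instFinite

noncomputable section

namespace FermatAgent.Curve.Red

open FermatAgent.ES

variable {M m N : ℕ} [NeZero M] [NeZero N] {k : Type*} [Field k] (D : RedDatum M k)
  (haux : AuxLevel M m)

omit [NeZero M] [NeZero N] in
/-- The order of a power series as Laurent series. -/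
theorem order_ofPowerSeries {p : PowerSeries k} {i : ℕ} (h : p.order = (i : ℕ∞)) :
    (HahnSeries.ofPowerSeries ℤ k p).order = (i : ℤ) := by
  obtain ⟨h1, h2⟩ := PowerSeries.order_eq_nat.1 h
  have hc : (HahnSeries.ofPowerSeries ℤ k p).coeff (i : ℤ) ≠ 0 := by
    rwa [HahnSeries.ofPowerSeries_apply_coeff]
  refine le_antisymm (HahnSeries.order_le_of_coeff_ne_zero hc)
    ((HahnSeries.le_order_iff_forall fun h0 => hc (by rw [h0]; rfl)).2 fun j hj => ?_)
  rcases lt_or_ge j 0 with hneg | hnn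
  · rw [PowerSeries.coeff_coe, if_pos hneg]
  · obtain ⟨l, rfl⟩ := Int.eq_ofNat_of_zero_le hnn
    rw [HahnSeries.ofPowerSeries_apply_coeff]
    exact h2 l (by exact_mod_cast hj)

/-- The residual `j`. -/
def jFullC (k : Type*) [Field k] (N : ℕ) [NeZero N] : modularFunctionFieldFullC k N :=
  ⟨jqModC k, ModularCurve.jqModC_mem_full k N⟩

omit [NeZero M] in
theorem transcendental_jFullC : Transcendental k (jFullC k N) := fun h =>
  transcendental_jqModC k (h.algHom (modularFunctionFieldFullC k N).val)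

theorem RedDatum.redHom_jB_sub (γ : SL(2, ℤ)) (a : D.R) :
    D.redHom γ (D.jB (M := M) - D.constB a) =
      qExpand k M ((jFullC k N - algebraMap k _ (D.π a) : modularFunctionFieldFullC k N) :
        LaurentSeries k) := by
  rw [map_sub, D.redHom_jB, D.redHom_constB, AddSubgroupClass.coe_sub, map_sub,
    IntermediateField.coe_algebraMap_apply, ModularCurve.algebraMap_laurentSeries_eq_single,
    ModularCurve.qExpand_single, mul_zero, HahnSeries.C_apply]
  rfl

include haux in
/-- The expansion along the disc of `τ` of a translate. -/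
def RedDatum.discEmb (hNM : N ∣ M) {τ : ℍ} (hg : GoodPoint haux D.R τ) (δ : SL(2, ℤ)) :
    modularFunctionFieldFullC k N →ₐ[k] LaurentSeries k :=
  D.pullHom ((HahnSeries.ofPowerSeries ℤ k).comp ((D.resDisc haux hg).comp (D.actB δ)))
    (fun a => by
      rw [RingHom.comp_apply, RingHom.comp_apply, D.actB_constB, D.resDisc_constB,
        HahnSeries.ofPowerSeries_C, HahnSeries.C_apply,
        ModularCurve.algebraMap_laurentSeries_eq_single])
    (fun f => by
      rw [RingHom.comp_apply, RingHom.comp_apply,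
        map_eq_zero_iff _ HahnSeries.ofPowerSeries_injective, D.resDisc_eq_zero_iff haux hg,
        D.redHom_actB, mul_one]
      exact D.redHom_eq_zero_iff haux δ 1) hNM

/-- The disc embedding on the reduction of an integral function. -/
theorem RedDatum.discEmb_eq (hNM : N ∣ M) {τ : ℍ} (hg : GoodPoint haux D.R τ) (δ : SL(2, ℤ))
    {z : modularFunctionFieldFullC k N} {f : BRing M D.R}
    (h : D.redHom 1 f = qExpand k M (z : LaurentSeries k)) :
    D.discEmb haux hNM hg δ z =
      HahnSeries.ofPowerSeries ℤ k (D.resDisc haux hg (D.actB δ f)) :=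
  D.pullHom_eq _ _ _ hNM h

include D haux in
theorem RedDatum.coset_eq_of_redHom (hNM : N ∣ M) {x y : SL(2, ℤ) ⧸ Gamma0 N}
    (h : D.redHom x.out⁻¹ (D.jGenB hNM (JIdx.top N)) =
      D.redHom y.out⁻¹ (D.jGenB hNM (JIdx.top N))) : x = y := by
  set J := D.jGenB hNM (JIdx.top N)
  have h2 : D.redHom y.out⁻¹ (D.actB (x.out⁻¹ * y.out) J - J) = 0 := by
    simp only [map_sub, D.redHom_actB, mul_inv_cancel_right]
    exact sub_eq_zero.mpr h
  have h3 := (D.redHom_eq_zero_iff haux y.out⁻¹ 1).mp h2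
  rw [map_sub, D.redHom_actB, mul_one, sub_eq_zero] at h3
  have := D.mem_gamma0_of_redHom_eq hNM h3
  rw [← Quotient.out_eq x, ← Quotient.out_eq y]
  exact QuotientGroup.eq.mpr this

include haux in
theorem RedDatum.pos_of_order_resDisc {τ : ℍ} (hg : GoodPoint haux D.R τ) {a : D.R}
    (hτa : jFun τ = a) {E : ℕ}
    (hE : (D.resDisc haux hg (D.jB - D.constB a)).order = (E : ℕ∞)) : 0 < E := by
  rcases Nat.eq_zero_or_pos E with h0 | h0
  · exfalso
    have hτ : jFun τ ∈ D.R := hτa ▸ a.2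
    rw [h0] at hE
    refine (PowerSeries.order_eq_nat.1 hE).1 ?_
    rw [PowerSeries.coeff_zero_eq_constantCoeff_apply, map_sub, D.resDisc_constB,
      map_sub, PowerSeries.constantCoeff_C, D.constantCoeff_resDisc haux hg D.jB hτ,
      sub_eq_zero]
    exact congrArg D.π (Subtype.ext hτa)
  · exact h0

include haux in
/-- The embeddings at the cosets are different. -/
theorem RedDatum.discEmb_coset_injective (hNM : N ∣ M) {τ : ℍ} (hg : GoodPoint haux D.R τ) :
    Function.Injective fun i : SL(2, ℤ) ⧸ Gamma0 N => D.discEmb haux hNM hg i.out⁻¹ :=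
  fun i i' h => by
  have h1 := congrArg (fun σ : modularFunctionFieldFullC k N →ₐ[k] LaurentSeries k =>
    σ (genFullC k (JIdx.top N))) h
  simp only [D.discEmb_eq haux hNM hg _ (z := genFullC k (JIdx.top N))
    (D.redHom_one_jGenB hNM _)] at h1
  have h2 := HahnSeries.ofPowerSeries_injective h1
  rw [← sub_eq_zero, ← map_sub, D.resDisc_eq_zero_iff haux hg, map_sub, sub_eq_zero,
    D.redHom_actB, D.redHom_actB, mul_one, mul_one] at h2
  exact D.coset_eq_of_redHom haux hNM h2

include haux in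
/-- The embeddings at the cosets are different. -/
theorem RedDatum.cuspHom_coset_injective (hNM : N ∣ M) :
    Function.Injective fun i : SL(2, ℤ) ⧸ Gamma0 N => D.cuspHom haux hNM i.out⁻¹ :=
  fun i i' h => by
  have h1 := congrArg (fun σ : modularFunctionFieldFullC k N →ₐ[k] LaurentSeries k =>
    σ (genFullC k (JIdx.top N))) h
  simp only [D.cuspHom_gen haux hNM] at h1
  exact D.coset_eq_of_redHom haux hNM h1

include haux in
/-- If `γ T ^ w γ⁻¹ ∈ Γ₀(N)`, the expansion at `γ∞` is invariant under `q ↦ ζ ^ w q`, so its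
order is a multiple of `M / w`. -/
theorem RedDatum.dvd_mul_order_cuspHom (hNM : N ∣ M) {γ : SL(2, ℤ)} {w : ℕ}
    (hwmem : γ * ModularGroup.T ^ w * γ⁻¹ ∈ Gamma0 N) {z : modularFunctionFieldFullC k N}
    (hz : z ≠ 0) : (M : ℤ) ∣ (w : ℤ) * (D.cuspHom haux hNM γ z).order := by
  have h1 := D.cuspHom_mul_T_pow haux hNM γ w z
  rw [show γ * ModularGroup.T ^ w = (γ * ModularGroup.T ^ w * γ⁻¹) * γ by group,
    D.cuspHom_mul_left haux hNM hwmem] at h1
  have h2 := congrArg (fun s : LaurentSeries k => s.coeff (D.cuspHom haux hNM γ z).order) h1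
  simp only [coeff_rotate] at h2
  have hne : (D.cuspHom haux hNM γ z).coeff (D.cuspHom haux hNM γ z).order ≠ 0 := by
    rw [Ne, HahnSeries.coeff_order_eq_zero]
    exact (_root_.map_ne_zero _).2 hz
  have h3 : (D.zetaRes ^ w) ^ (D.cuspHom haux hNM γ z).order = 1 :=
    mul_right_cancel₀ hne (by rw [← h2, one_mul])
  rw [← zpow_natCast, ← zpow_mul] at h3
  exact (D.isPrimitiveRoot_zetaRes.zpow_eq_one_iff_dvd _).1 h3

include haux in
open Classical in
/-- At least `w` embeddings have the same centre as a given one, `w` the width of its cusp: the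
translates by `T ^ l`, `l < w`, are rotations of it. -/
theorem RedDatum.width_le_card_centre [IsFF k (modularFunctionFieldFullC k N)]
    [Fintype (SL(2, ℤ) ⧸ Gamma0 N)] (hNM : N ∣ M) {x : modularFunctionFieldFullC k N}
    (hpos : ∀ i : SL(2, ℤ) ⧸ Gamma0 N, 0 < (D.cuspHom haux hNM i.out⁻¹ x).order)
    (i : SL(2, ℤ) ⧸ Gamma0 N) {w : ℕ}
    (hmin : ∀ d < w, 0 < d → i.out⁻¹ * ModularGroup.T ^ d * (i.out⁻¹)⁻¹ ∉ Gamma0 N) :
    w ≤ (Finset.univ.filter fun j : SL(2, ℤ) ⧸ Gamma0 N =>
      centre (D.cuspHom haux hNM j.out⁻¹) (hpos j) =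
        centre (D.cuspHom haux hNM i.out⁻¹) (hpos i)).card := by
  refine le_of_eq_of_le (Finset.card_range w).symm (Finset.card_le_card_of_injOn
    (fun l => (QuotientGroup.mk (i.out⁻¹ * ModularGroup.T ^ l)⁻¹ : SL(2, ℤ) ⧸ Gamma0 N)) ?_ ?_)
  · intro l _
    rw [Finset.mem_coe, Finset.mem_filter]
    refine ⟨Finset.mem_univ _, ?_⟩
    refine centre_eq_of_forall _ _ _ fun z => ?_
    obtain ⟨h, hh⟩ := QuotientGroup.mk_out_eq_mul (Gamma0 N) (i.out⁻¹ * ModularGroup.T ^ l)⁻¹
    rw [hh, mul_inv_rev, inv_inv, D.cuspHom_mul_left haux hNM (inv_mem h.2),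
      D.cuspHom_mul_T_pow haux hNM, order_rotate]
  · have key : ∀ a b, a ≤ b → b < w →
        (QuotientGroup.mk (i.out⁻¹ * ModularGroup.T ^ a)⁻¹ : SL(2, ℤ) ⧸ Gamma0 N) =
          QuotientGroup.mk (i.out⁻¹ * ModularGroup.T ^ b)⁻¹ → a = b := by
      intro a b hab hb heq
      rw [QuotientGroup.eq, inv_inv] at heq
      obtain ⟨d, rfl⟩ := Nat.exists_eq_add_of_le hab
      by_contra hne
      refine hmin d (by omega) (by omega) ?_
      have h2 := inv_mem heq
      rw [mul_inv_rev, inv_inv, pow_add, mul_inv_rev] at h2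
      convert h2 using 1
      group
    intro a ha b hb hab
    rw [Finset.mem_coe, Finset.mem_range] at ha hb
    rcases le_total a b with h | h
    · exact key a b h hb hab
    · exact (key b a h ha hab.symm).symm

variable [IsAlgClosed k] [IsFF k (modularFunctionFieldFullC k N)]
  (hidx : Module.finrank k⟮jFullC k N⟯ (modularFunctionFieldFullC k N) ≤ (Gamma0 N).index)
  {gb : modularFunctionFieldFullC k N} {f : BRing M D.R}

open Classical in
include haux hidx in
/-- The ramification at the zeros of `j - a`, and the orders of `gb` there. -/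
theorem RedDatum.exists_ramification [Fintype (SL(2, ℤ) ⧸ Gamma0 N)] (hint : D.IntClosed)
    (hNM : N ∣ M) {n : ℕ} (hgb : gb ≠ 0) (hf : D.redHom 1 f = qExpand k M (gb : LaurentSeries k))
    (hdisc : ∀ (τ : ℍ) (_ : jFun τ ∈ D.R) (hg : GoodPoint haux D.R τ) (i : ℕ),
      (D.resDisc haux hg f).order = (i : ℕ∞) → n ∣ i)
    {a : D.R} {τ : ℍ} (hτa : jFun τ = a) {Q : Place k (modularFunctionFieldFullC k N)}
    (hc : OrdGE Q 1 (jFullC k N - algebraMap k _ (D.π a))) :
    ∃ (E : ℕ) (hg : GoodPoint haux D.R τ)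
      (hpos : ∀ i : SL(2, ℤ) ⧸ Gamma0 N, 0 < (D.discEmb haux hNM hg i.out⁻¹
        (jFullC k N - algebraMap k _ (D.π a))).order) (k0 : ℤ),
      E ∣ 12 ∧ (D.resDisc haux hg (D.jB - D.constB a)).order = (E : ℕ∞) ∧
      (E : ℤ) = k0 * Q.ord (jFullC k N - algebraMap k _ (D.π a)) ∧
      ((Finset.univ.filter fun i : SL(2, ℤ) ⧸ Gamma0 N =>
          centre (D.discEmb haux hNM hg i.out⁻¹) (hpos i) = Q).card : ℤ) =
        Q.ord (jFullC k N - algebraMap k _ (D.π a)) ∧
      ∀ d : ℤ, k0 ∣ d → (n : ℤ) ∣ d * Q.ord gb := by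
  set x := jFullC k N - algebraMap k _ (D.π a) with hxdef
  have hτ : jFun τ ∈ D.R := hτa ▸ a.2
  have ha : (⟨_, hτ⟩ : D.R) = a := Subtype.ext hτa
  have hg := D.goodPoint haux hint hτ
  obtain ⟨E, hE12, hE⟩ := D.order_jB_dvd_twelve haux hint hτ hg
  rw [ha] at hE
  have hxtr : Transcendental k x := fun h => transcendental_jFullC (k := k) (N := N) (by
    have := h.add (isAlgebraic_algebraMap (R := k) (A := modularFunctionFieldFullC k N) (D.π a))
    rwa [hxdef, sub_add_cancel] at this)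
  have hxQ : 0 < Q.ord x := by
    have := (ordGE_iff_le (fun h => hxtr (h ▸ isAlgebraic_zero) : x ≠ 0)).1 hc
    omega
  have hσx : ∀ δ, D.discEmb haux hNM hg δ x =
      HahnSeries.ofPowerSeries ℤ k (D.resDisc haux hg (D.jB - D.constB a)) := fun δ => by
    rw [D.discEmb_eq haux hNM hg δ (D.redHom_jB_sub 1 a), map_sub, D.actB_constB,
      show D.actB δ D.jB = D.jB (M := M) from Subtype.ext (funext fun σ => jFun_smul δ σ)]
  have hord : ∀ δ, (D.discEmb haux hNM hg δ x).order = (E : ℤ) := fun δ => by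
    rw [hσx, order_ofPowerSeries hE]
  have hpos : ∀ i : SL(2, ℤ) ⧸ Gamma0 N, 0 < (D.discEmb haux hNM hg i.out⁻¹ x).order := fun i => by
    rw [hord]; exact_mod_cast D.pos_of_order_resDisc haux hg hτa hE
  have hinj := D.discEmb_coset_injective haux hNM hg
  have hcard : Module.finrank k⟮x⟯ (modularFunctionFieldFullC k N) ≤
      Fintype.card (SL(2, ℤ) ⧸ Gamma0 N) := by
    rw [hxdef, adjoin_sub_algebraMap, Fintype.card_eq_nat_card]
    exact hidx
  have heq := card_centre_eq (σ := fun i : SL(2, ℤ) ⧸ Gamma0 N =>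
      D.discEmb haux hNM hg i.out⁻¹) hinj (fun i => hσx _) hpos hxtr hcard hxQ
  obtain ⟨i, hi⟩ := exists_centre_eq (σ := fun i : SL(2, ℤ) ⧸ Gamma0 N =>
      D.discEmb haux hNM hg i.out⁻¹) hinj (fun i => hσx _) hpos hxtr hcard (P := Q) hxQ
  set σ := D.discEmb haux hNM hg i.out⁻¹ with hσ
  obtain ⟨t, -, ht⟩ := exists_ord_eq_one Q
  have ht' : (centre σ (hpos i)).ord t = 1 := by
    rw [show centre σ (hpos i) = Q from hi]; exact ht
  set k0 := (σ t).order
  have hEk : (E : ℤ) = k0 * Q.ord x := by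
    have h1 := order_apply σ (hpos i) ht' x
    rwa [hord, show centre σ (hpos i) = Q from hi] at h1
  refine ⟨E, hg, hpos, k0, hE12, hE, hEk, heq, fun d hd => ?_⟩
  have hg' : GoodPoint haux D.R ((i.out)⁻¹ • τ) := D.goodPoint haux hint (by rwa [jFun_smul])
  have hne : D.resDisc haux hg' f ≠ 0 := fun h0 => hgb (by
    rw [D.resDisc_eq_zero_iff haux hg', hf] at h0
    exact Subtype.ext (ModularCurve.qExpand_injective M (h0.trans (map_zero _).symm)))
  obtain ⟨o, ho⟩ := ENat.ne_top_iff_exists.1 (PowerSeries.order_eq_top.not.2 hne)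
  have hno := hdisc _ (by rwa [jFun_smul]) hg' o ho.symm
  have h1 : (σ gb).order = (o : ℤ) := by
    rw [hσ, D.discEmb_eq haux hNM hg _ hf]
    refine order_ofPowerSeries ?_
    rw [D.order_resDisc_actB haux hint hτ _ hg hg']
    exact ho.symm
  have h2 := order_apply σ (hpos i) ht' gb
  rw [h1, show (centre σ (hpos i)) = Q from hi] at h2
  obtain ⟨q, rfl⟩ := hd
  rw [show k0 * q * Q.ord gb = q * (k0 * Q.ord gb) by ring, ← h2]
  exact Dvd.dvd.mul_left (Int.natCast_dvd_natCast.2 hno) _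

include haux hidx in
/-- At a finite point the ramification over the `j`-line divides twelve, so `n ∣ 12 ord gb`. -/
theorem RedDatum.dvd_twelve_ord_finite (hint : D.IntClosed) (hNM : N ∣ M) {n : ℕ}
    (hgb : gb ≠ 0) (hf : D.redHom 1 f = qExpand k M (gb : LaurentSeries k))
    (hdisc : ∀ (τ : ℍ) (_ : jFun τ ∈ D.R) (hg : GoodPoint haux D.R τ) (i : ℕ),
      (D.resDisc haux hg f).order = (i : ℕ∞) → n ∣ i)
    {Q : Place k (modularFunctionFieldFullC k N)} (hQ : 0 ≤ Q.ord (jFullC k N)) :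
    (n : ℤ) ∣ 12 * Q.ord gb := by
  obtain ⟨c, hc⟩ := exists_sub_algebraMap (v := Q) (f := jFullC k N) (Or.inr hQ)
  obtain ⟨a, rfl⟩ := D.surj c
  obtain ⟨τ, hτa⟩ := exists_jFun_eq (a : ℂ)
  have : Fintype (SL(2, ℤ) ⧸ Gamma0 N) := Fintype.ofFinite _
  obtain ⟨E, -, -, k0, hE12, -, hEk, -, hdvd⟩ :=
    D.exists_ramification haux hidx hint hNM hgb hf hdisc hτa hc
  exact hdvd 12 ((Dvd.intro _ hEk.symm).trans (by exact_mod_cast hE12))

include haux hidx in
/-- At a pole of `j`, the width of the cusp times the order of a uniformiser along the expansion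
is `M`, so the order of `gb` there is divisible by `n`. -/
theorem RedDatum.dvd_ord_cusp (hNM : N ∣ M) {n : ℕ}
    (hf : D.redHom 1 f = qExpand k M (gb : LaurentSeries k))
    (hcusp : ∀ (γ : SL(2, ℤ)) (w : ℕ), γ * ModularGroup.T ^ w * γ⁻¹ ∈ Gamma0 N →
      ((n * M : ℕ) : ℤ) ∣ (w : ℤ) * (D.redHom γ f).order)
    {Q : Place k (modularFunctionFieldFullC k N)} (hQ : Q.ord (jFullC k N) < 0) :
    (n : ℤ) ∣ Q.ord gb := by
  classical
  set x := (jFullC k N)⁻¹ with hxdef
  have hj0 : jFullC k N ≠ 0 := fun h => transcendental_jFullC (k := k) (N := N)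
    (h ▸ isAlgebraic_zero)
  have hxtr : Transcendental k x := fun h => transcendental_jFullC (k := k) (N := N) (by
    simpa [hxdef] using h.inv)
  have hxQ : 0 < Q.ord x := by rw [hxdef, Place.ord_inv]; omega
  have hjo : (jqModC k).order = -1 := le_antisymm (HahnSeries.order_le_of_coeff_ne_zero (by
      rw [ModularCurve.coeff_jqModC_neg_one]; exact one_ne_zero))
    ((HahnSeries.le_order_iff_forall (ModularCurve.jqModC_ne_zero_of_nontrivial k)).2
      fun j hj => ModularCurve.coeff_jqModC_of_lt k hj)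
  have hσx : ∀ δ, D.cuspHom haux hNM δ x = (qExpand k M (jqModC k))⁻¹ := fun δ => by
    rw [hxdef, map_inv₀, D.cuspHom_eq haux hNM δ (z := jFullC k N) (f := D.jB)
      (by rw [D.redHom_jB]; rfl), D.redHom_jB]
  have hord : ∀ δ, (D.cuspHom haux hNM δ x).order = (M : ℤ) := fun δ => by
    have hne : qExpand k M (jqModC k) ≠ 0 := (map_ne_zero_iff _
      (ModularCurve.qExpand_injective M)).2 (ModularCurve.jqModC_ne_zero_of_nontrivial k)
    rw [hσx, order_inv hne, order_qExpand M _ (ModularCurve.jqModC_ne_zero_of_nontrivial k), hjo]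
    ring
  have hMpos : (0 : ℤ) < M := by exact_mod_cast Nat.pos_of_ne_zero (NeZero.ne M)
  have hpos : ∀ i : SL(2, ℤ) ⧸ Gamma0 N, 0 < (D.cuspHom haux hNM i.out⁻¹ x).order := fun i => by
    rw [hord]; exact hMpos
  have hinj := D.cuspHom_coset_injective haux hNM
  have : Fintype (SL(2, ℤ) ⧸ Gamma0 N) := Fintype.ofFinite _
  have hfield : k⟮x⟯ = k⟮jFullC k N⟯ := by
    refine le_antisymm (adjoin_simple_le_iff.2 (inv_mem (mem_adjoin_simple_self k _)))
      (adjoin_simple_le_iff.2 ?_)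
    have := inv_mem (mem_adjoin_simple_self k x)
    rwa [hxdef, inv_inv] at this
  have hcard : Module.finrank k⟮x⟯ (modularFunctionFieldFullC k N) ≤
      Fintype.card (SL(2, ℤ) ⧸ Gamma0 N) := by
    rw [hfield, Fintype.card_eq_nat_card]
    exact hidx
  obtain ⟨i, hi⟩ := exists_centre_eq (σ := fun i : SL(2, ℤ) ⧸ Gamma0 N =>
      D.cuspHom haux hNM i.out⁻¹) hinj (fun i => hσx _) hpos hxtr hcard hxQ
  set γ := i.out⁻¹ with hγ
  set σ := D.cuspHom haux hNM γ with hσ
  have hσpos : 0 < (σ x).order := hpos i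
  obtain ⟨t, ht0, ht⟩ := exists_ord_eq_one Q
  have ht' : (centre σ hσpos).ord t = 1 := by
    rw [show centre σ hσpos = Q from hi]; exact ht
  set k0 := (σ t).order with hk0def
  have hk0 : 0 < k0 := order_uniformizer_pos σ hσpos ht'
  have hMk : (M : ℤ) = k0 * Q.ord x := by
    have h1 := order_apply σ hσpos ht' x
    rwa [hord, show centre σ hσpos = Q from hi] at h1
  -- the width
  have hex : ∃ w : ℕ, 0 < w ∧ γ * ModularGroup.T ^ w * γ⁻¹ ∈ Gamma0 N := by
    refine ⟨M, Nat.pos_of_ne_zero (NeZero.ne M), ?_⟩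
    have hT : ModularGroup.T ^ M ∈ Gamma M := by rw [Gamma_mem, T_pow_coe]; simp
    have h1 := (Gamma_normal M).conj_mem _ hT γ
    rw [Gamma_mem] at h1
    rw [Gamma0_mem, ZMod.intCast_zmod_eq_zero_iff_dvd]
    exact (Int.natCast_dvd_natCast.mpr hNM).trans
      ((ZMod.intCast_zmod_eq_zero_iff_dvd _ _).mp h1.2.2.1)
  set w0 := Nat.find hex with hw0
  obtain ⟨hw0pos, hw0mem⟩ := Nat.find_spec hex
  rw [← hw0] at hw0pos hw0mem
  have hMdvd : (M : ℤ) ∣ (w0 : ℤ) * k0 := D.dvd_mul_order_cuspHom haux hNM hw0mem ht0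
  have hw0e : (w0 : ℤ) ≤ Q.ord x := by
    have h1 := card_centre_le (σ := fun i : SL(2, ℤ) ⧸ Gamma0 N =>
      D.cuspHom haux hNM i.out⁻¹) hinj (fun i => hσx _) hpos Q
    rw [max_eq_left hxQ.le] at h1
    refine le_trans ?_ h1
    rw [Nat.cast_le, ← hi]
    exact D.width_le_card_centre haux hNM hpos i
      fun d hd hd0 hmem => Nat.find_min hex hd ⟨hd0, hmem⟩
  have hw0k : (w0 : ℤ) * k0 = M := by
    refine le_antisymm ?_ (Int.le_of_dvd (by positivity) hMdvd)
    rw [hMk, mul_comm k0]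
    exact mul_le_mul_of_nonneg_right hw0e hk0.le
  have h1 := hcusp γ w0 hw0mem
  rw [← D.cuspHom_eq haux hNM γ hf, ← hσ, order_apply σ hσpos ht' gb,
    show centre σ hσpos = Q from hi, ← mul_assoc, hw0k, Nat.cast_mul, mul_comm (n : ℤ)] at h1
  exact Int.dvd_of_mul_dvd_mul_left hMpos.ne' h1

include haux hidx in
/-- **Residual divisors are divisible up to twelve.** -/
theorem RedDatum.dvd_twelve_ord (hint : D.IntClosed) (hNM : N ∣ M) {n : ℕ}
    (hgb : gb ≠ 0) (hf : D.redHom 1 f = qExpand k M (gb : LaurentSeries k))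
    (hcusp : ∀ (γ : SL(2, ℤ)) (w : ℕ), γ * ModularGroup.T ^ w * γ⁻¹ ∈ Gamma0 N →
      ((n * M : ℕ) : ℤ) ∣ (w : ℤ) * (D.redHom γ f).order)
    (hdisc : ∀ (τ : ℍ) (_ : jFun τ ∈ D.R) (hg : GoodPoint haux D.R τ) (i : ℕ),
      (D.resDisc haux hg f).order = (i : ℕ∞) → n ∣ i)
    (Q : Place k (modularFunctionFieldFullC k N)) : (n : ℤ) ∣ 12 * Q.ord gb := by
  rcases le_or_gt 0 (Q.ord (jFullC k N)) with h | h
  · exact D.dvd_twelve_ord_finite haux hidx hint hNM hgb hf hdisc h
  · exact Dvd.dvd.mul_left (D.dvd_ord_cusp haux hidx hNM hf hcusp h) 12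

end FermatAgent.Curve.Red
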