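import Fermat.Agent.Curve.Lift.Series
import Fermat.Agent.Flat.ModularRed

/-!
# Residual modular functions with divisible divisor lift

For `A` over `ℓ ∤ N` and `n` prime to `ℓ`, a function on the reduction of `X₀(N)` with divisor
divisible by `n` is the reduction of an integral series with unit lowest coefficient that is a
function on `X₀(N)` with divisor divisible by `n` (`exists_lift_modular`).
-/

set_option autoImplicit false

open AlgebraicCurve Module
open ModularCurve (coeffMap jqModC modularFunctionFieldFullC)

noncomputable section

namespace FermatAgent.Curve.Red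

local notation "Qb" => AlgebraicClosure ℚ

variable {ℓ : ℕ} [hℓ : Fact ℓ.Prime] {A : ValuationSubring Qb} {N : ℕ} [NeZero N]

/-- The series of `j` has a simple pole. -/
theorem order_jqModC (K : Type*) [Field K] : (jqModC K).order = -1 := by
  refine le_antisymm (HahnSeries.order_le_of_coeff_ne_zero (by
    rw [ModularCurve.coeff_jqModC_neg_one]; exact one_ne_zero)) ?_
  by_contra h
  push Not at h
  exact (HahnSeries.coeff_order_eq_zero.not.mpr (ModularCurve.jqModC_ne_zero_of_nontrivial K))
    (ModularCurve.coeff_jqModC_of_lt K h)

/-- **Lifting residual torsion data on `X₀(N)`.** A residual modular function whose divisor is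
divisible by `n` (prime to the residue characteristic) is the reduction of a modular function
whose expansion at infinity is an invertible integral series of the same order and whose divisor
is divisible by `n`. -/
theorem exists_lift_modular (hA : A.LiesOverPrime ℓ) (hN : ¬ ℓ ∣ N)
    (E : IntermediateField Qb (LaurentSeries Qb)) (hE : E = jField Qb N) [IsFF Qb E]
    [IsFF (IsLocalRing.ResidueField A) (modularFunctionFieldFullC (IsLocalRing.ResidueField A) N)]
    {n : ℕ} (hn : (n : IsLocalRing.ResidueField A) ≠ 0)
    {gb : modularFunctionFieldFullC (IsLocalRing.ResidueField A) N} (hgb : gb ≠ 0)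
    (hdiv : ∀ Q : Place (IsLocalRing.ResidueField A)
      (modularFunctionFieldFullC (IsLocalRing.ResidueField A) N), (n : ℤ) ∣ Q.ord gb) :
    ∃ (s : LaurentSeries A) (g : E), coeffMap A.subtype s = (g : LaurentSeries Qb) ∧
      coeffMap (IsLocalRing.residue A) s = (gb : LaurentSeries (IsLocalRing.ResidueField A)) ∧
      IsUnit s ∧
      (g : LaurentSeries Qb).order = (gb : LaurentSeries (IsLocalRing.ResidueField A)).order ∧
      ∀ P : Place Qb E, (n : ℤ) ∣ P.ord g := by
  have := isAlgClosed_residueField A
  obtain ⟨S, x, hx, hxb, hdeg, -, hser, hgen⟩ := exists_constRed_series hA hN E hE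
  have hxo : ((x : E) : LaurentSeries Qb).order = -1 := by rw [hx, order_jqModC]
  have hxbo : (S.red x : LaurentSeries (IsLocalRing.ResidueField A)).order = -1 := by
    rw [hxb, order_jqModC]
  have hx0 : S.red x ≠ 0 := fun h => by
    rw [h, ZeroMemClass.coe_zero, HahnSeries.order_zero] at hxbo; norm_num at hxbo
  obtain ⟨P0, hP0⟩ := exists_place_order (E := E) (x := (x : E)) hxo
  obtain ⟨Q0, hQ0⟩ := exists_place_order
    (E := modularFunctionFieldFullC (IsLocalRing.ResidueField A) N) (x := S.red x) hxbo
  exact S.exists_lift_series hgen (S.mapDomain_poleDivisor hx0 hdeg) hser hP0 hQ0 hxo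
    (by rw [hx, ModularCurve.coeff_jqModC_neg_one]) hxbo hn hgb hdiv

end FermatAgent.Curve.Red
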