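import Fermat.Agent.Curve.ConstRed.Torsion

/-!
# Sums of Riemann–Roch spaces, and images of effective divisors

For divisors of large degree `L(X) + L(Y) = L(max X Y)`, by counting dimensions; an effective
divisor vanishes at every place over a zero of its image.
-/

set_option autoImplicit false

noncomputable section

open AlgebraicCurve Module

namespace FermatAgent.Curve

section Sum

variable {K F : Type*} [Field K] [Field F] [Algebra K F] [IsFF K F]

/-- In large degree `L(X) + L(Y) = L(max X Y)`. -/
theorem riemannRochSpace_sup_eq {c : ℤ}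
    (hc : ∀ D : Divisor K F, c ≤ Divisor.degree D →
      (rrDim D : ℤ) = Divisor.degree D + 1 - rGenus K F)
    {X Y I U : Divisor K F} (hI : ∀ v, I v = min (X v) (Y v)) (hU : ∀ v, U v = max (X v) (Y v))
    (hd : c ≤ Divisor.degree I) :
    riemannRochSpace X ⊔ riemannRochSpace Y = riemannRochSpace U := by
  have hIX : I ≤ X := fun v => by rw [hI]; exact min_le_left _ _
  have hIY : I ≤ Y := fun v => by rw [hI]; exact min_le_right _ _
  have hXU : X ≤ U := fun v => by rw [hU]; exact le_max_left _ _
  have hYU : Y ≤ U := fun v => by rw [hU]; exact le_max_right _ _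
  have hle : riemannRochSpace X ⊔ riemannRochSpace Y ≤ riemannRochSpace U :=
    sup_le (riemannRochSpace_le_of_le hXU) (riemannRochSpace_le_of_le hYU)
  have : Module.Finite K ↥(riemannRochSpace X ⊔ riemannRochSpace Y) :=
    Submodule.finiteDimensional_of_le hle
  refine Submodule.eq_of_le_of_finrank_le hle ?_
  have hinf : riemannRochSpace X ⊓ riemannRochSpace Y = riemannRochSpace I := by
    refine le_antisymm (fun f hf => ?_)
      (le_inf (riemannRochSpace_le_of_le hIX) (riemannRochSpace_le_of_le hIY))
    obtain ⟨h1, h2⟩ := Submodule.mem_inf.1 hf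
    rw [mem_riemannRochSpace] at h1 h2 ⊢
    intro v
    rw [hI]
    rcases min_choice (X v) (Y v) with h | h <;> rw [h]
    · exact h1 v
    · exact h2 v
  have hsum := Submodule.finrank_sup_add_finrank_inf_eq (riemannRochSpace X) (riemannRochSpace Y)
  rw [hinf] at hsum
  have hXY : Divisor.degree X + Divisor.degree Y = Divisor.degree I + Divisor.degree U := by
    rw [← map_add, ← map_add]
    congr 1
    refine Finsupp.ext fun v => ?_
    rw [Finsupp.add_apply, Finsupp.add_apply, hI, hU, min_add_max]
  have h1 := hc I hd
  have h2 := hc X (hd.trans (degree_mono hIX))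
  have h3 := hc Y (hd.trans (degree_mono hIY))
  have h4 := hc U (hd.trans (degree_mono (hIX.trans hXU)))
  simp only [rrDim] at h1 h2 h3 h4
  omega

end Sum

namespace ConstRed

variable {K : Type*} [Field K] [IsAlgClosed K] {A : ValuationSubring K} {k : Type*} [Field k]
  [IsAlgClosed k] {ρ : A →+* k} {F Fb : Type*} [Field F] [Algebra K F] [Field Fb] [Algebra k Fb]
  [IsFF K F] [IsFF k Fb] (S : ConstRed A ρ F Fb)

/-- An effective divisor has multiplicity zero at points over which its image has multiplicity zero.
-/
theorem eq_zero_of_mapDomain_eq_zero {α β : Type*} (r : α → β) {D : α →₀ ℤ} (h : 0 ≤ D) (a : α)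
    (h0 : Finsupp.mapDomain r D (r a) = 0) : D a = 0 := by
  classical
  have hle : Finsupp.single a (D a) ≤ D := fun b => by
    rw [Finsupp.single_apply]
    split_ifs with hb
    · subst hb; exact le_rfl
    · exact h b
  have h1 := mapDomain_mono r hle (r a)
  rw [Finsupp.mapDomain_single, Finsupp.single_eq_same, h0] at h1
  exact le_antisymm h1 (h a)

end ConstRed

end FermatAgent.Curve
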