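import Fermat.Agent.Curve.Lift.Hensel
import Fermat.Agent.Curve.Lift.Span

/-!
# Lifting residual functions with divisible divisor

For a residual `ḡ` with `div ḡ = n D̄` we solve `g m = u ^ n` near `(ḡ, ḡ⁻¹, 1)` in Riemann–Roch
spaces of large degree, supported on a section of the map of places.  The residual differential
is onto as `n ≠ 0` in `k`, so Hensel's lemma in coordinates applies, and comparing divisors shows
that `div g` is divisible by `n` (`ConstRed.exists_lift_torsion_section`).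
-/

set_option autoImplicit false

noncomputable section

open AlgebraicCurve Module MvPolynomial

namespace FermatAgent.Curve

/-- The partial derivative at `0` is the linear coefficient. -/
theorem coeff_single_one {σ R : Type*} [CommRing R] (p : MvPolynomial σ R) (j : σ) :
    eval (0 : σ → R) (pderiv j p) = coeff (Finsupp.single j 1) p := by
  classical
  induction p using MvPolynomial.induction_on' with
  | monomial s a =>
    rw [pderiv_monomial, eval_monomial, coeff_monomial]
    by_cases hs : s = Finsupp.single j 1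
    · subst hs; simp
    · rw [if_neg hs]
      by_cases hj : s j = 0
      · simp [hj]
      · have hne : s - Finsupp.single j 1 ≠ 0 := fun h => hs (Finsupp.ext fun i => by
          have := DFunLike.congr_fun h i
          simp only [Finsupp.tsub_apply, Finsupp.single_apply, Finsupp.zero_apply] at this ⊢
          split_ifs at this ⊢ with hi
          · subst hi; omega
          · simpa using this)
        obtain ⟨i, hi⟩ := Finsupp.support_nonempty_iff.2 hne
        rw [Finsupp.prod, Finset.prod_eq_zero hi (by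
          rw [Pi.zero_apply, zero_pow (Finsupp.mem_support_iff.1 hi)]), mul_zero]
  | add p q hp hq => rw [map_add, map_add, hp, hq, coeff_add]

theorem mul_mem_riemannRochSpace_of_le {K F : Type*} [Field K] [Field F] [Algebra K F]
    {X Y : Divisor K F} {f g : F} (hg : g ∈ riemannRochSpace X)
    (h : ∀ Q, -Y Q ≤ Q.ord f + -X Q) : f * g ∈ riemannRochSpace Y := by
  rw [mem_riemannRochSpace] at hg ⊢
  exact fun Q => ((ordGE_self (v := Q) f).mul (hg Q)).mono (h Q)

/-- The three spaces in the image of the residual differential span everything. -/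
theorem riemannRochSpace_sup_three {K F : Type*} [Field K] [IsAlgClosed K] [Field F] [Algebra K F]
    [IsFF K F] {c : ℤ}
    (hc : ∀ D : Divisor K F, c ≤ Divisor.degree D →
      (rrDim D : ℤ) = Divisor.degree D + 1 - rGenus K F)
    {Q0 Q1 : Place K F} (hQ : Q0 ≠ Q1) {d e : ℤ} (hd : c ≤ d) (hd0 : 0 ≤ d) (hde : d ≤ e) :
    riemannRochSpace (Finsupp.single Q0 e) ⊔
        riemannRochSpace (Finsupp.single Q0 d + Finsupp.single Q1 d) ⊔
        riemannRochSpace (Finsupp.single Q1 e) =
      riemannRochSpace (Finsupp.single Q0 (max e 0) + Finsupp.single Q1 (max e 0)) := by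
  classical
  have key : ∀ (f : ℤ → ℤ → ℤ), f 0 0 = 0 → ∀ (a b a' b' : ℤ) (Q : Place K F),
      (Finsupp.single Q0 (f a a') + Finsupp.single Q1 (f b b') : Divisor K F) Q =
        f ((Finsupp.single Q0 a + Finsupp.single Q1 b : Divisor K F) Q)
          ((Finsupp.single Q0 a' + Finsupp.single Q1 b' : Divisor K F) Q) := by
    intro f hf a b a' b' Q
    simp only [Finsupp.add_apply, Finsupp.single_apply]
    split_ifs with h0 h1
    · exact absurd (h0.trans h1.symm) hQ
    · simp
    · simp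
    · simp [hf]
  have hmin := key min (min_self 0)
  have hmax := key max (max_self 0)
  have e0 : ∀ x : ℤ, (Finsupp.single Q0 x : Divisor K F) =
      Finsupp.single Q0 x + Finsupp.single Q1 0 := fun x => by simp
  have e1 : ∀ x : ℤ, (Finsupp.single Q1 x : Divisor K F) =
      Finsupp.single Q0 0 + Finsupp.single Q1 x := fun x => by simp
  rw [e0 e, riemannRochSpace_sup_eq hc (hmin e 0 d d) (hmax e 0 d d), e1 e,
    riemannRochSpace_sup_eq hc (hmin (max e d) (max 0 d) 0 e) (hmax (max e d) (max 0 d) 0 e)]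
  · congr 3 <;> omega
  · simp only [map_add, Divisor.degree_single, deg_eq_one, Nat.cast_one, mul_one]
    omega
  · simp only [map_add, Divisor.degree_single, deg_eq_one, Nat.cast_one, mul_one]
    omega

/-- Every residual element of the target is in the image of the differential at `(g, g⁻¹, 1)`. -/
theorem exists_residual_decomp {K F : Type*} [Field K] [IsAlgClosed K] [Field F] [Algebra K F]
    [IsFF K F] {c : ℤ}
    (hc : ∀ D : Divisor K F, c ≤ Divisor.degree D →
      (rrDim D : ℤ) = Divisor.degree D + 1 - rGenus K F)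
    {n : ℕ} (hn : (n : K) ≠ 0) {gb : F} (hgb : gb ≠ 0) {Db : Divisor K F}
    (hDb : ∀ Q, (n : ℤ) * Db Q = Q.ord gb) {Q0 Q1 : Place K F} (hQ : Q0 ≠ Q1) {d : ℤ}
    (hd : c ≤ d) (hd0 : 0 ≤ d) {z : F}
    (hz : z ∈ riemannRochSpace (n • (Finsupp.single Q0 d + Finsupp.single Q1 d))) :
    ∃ a b u : F, a ∈ riemannRochSpace (n • (Finsupp.single Q0 d - Db)) ∧
      b ∈ riemannRochSpace (n • (Finsupp.single Q0 d + Finsupp.single Q1 d) -
        n • (Finsupp.single Q0 d - Db)) ∧
      u ∈ riemannRochSpace (Finsupp.single Q0 d + Finsupp.single Q1 d) ∧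
      a * gb⁻¹ + gb * b - (n : F) * u = z := by
  classical
  have hn1 : (1 : ℤ) ≤ n := by
    exact_mod_cast Nat.one_le_iff_ne_zero.2 fun h => hn (by rw [h, Nat.cast_zero])
  have hdn : d ≤ n * d := le_mul_of_one_le_left hd0 hn1
  have hnF : (n : F) ≠ 0 := by
    rw [← map_natCast (algebraMap K F)]; exact (_root_.map_ne_zero _).2 hn
  rw [smul_add, Finsupp.smul_single, Finsupp.smul_single, nsmul_eq_mul,
    ← max_eq_left (show (0 : ℤ) ≤ n * d by omega),
    ← riemannRochSpace_sup_three hc hQ hd hd0 hdn, Submodule.mem_sup] at hz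
  obtain ⟨x, hx, y, hy, hxy⟩ := hz
  obtain ⟨xa, hxa, xe, hxe, rfl⟩ := Submodule.mem_sup.1 hx
  refine ⟨gb * xa, gb⁻¹ * y, ((-(n : K))⁻¹) • xe, ?_, ?_, Submodule.smul_mem _ _ hxe, ?_⟩
  · refine mul_mem_riemannRochSpace_of_le hxa fun Q => ?_
    have := hDb Q
    rw [Finsupp.smul_apply, Finsupp.sub_apply, nsmul_eq_mul, Finsupp.single_apply,
      Finsupp.single_apply]
    split_ifs <;> linarith
  · refine mul_mem_riemannRochSpace_of_le hy fun Q => ?_
    have := hDb Q
    rw [Finsupp.sub_apply, Finsupp.smul_apply, Finsupp.smul_apply,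
      Finsupp.sub_apply, Finsupp.add_apply, nsmul_eq_mul, nsmul_eq_mul, Finsupp.single_apply,
      Finsupp.single_apply, Finsupp.single_apply, Place.ord_inv]
    split_ifs <;> linarith
  · rw [← hxy, Algebra.smul_def, map_inv₀, map_neg, map_natCast]
    field_simp
    ring

/-- If `div ḡ = n D̄`, then `ḡ`, `ḡ⁻¹` and `1` lie in the three spaces of the equation
`g m = u ^ n`. -/
theorem mem_riemannRochSpace_residual {K F : Type*} [Field K] [Field F] [Algebra K F] [IsFF K F]
    {n : ℕ} {gb : F} (hgb : gb ≠ 0) {Db : Divisor K F} (hDb : ∀ Q, (n : ℤ) * Db Q = Q.ord gb)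
    {Q0 Q1 : Place K F} {d : ℤ} (hd : 0 ≤ d) :
    gb ∈ riemannRochSpace (n • (Finsupp.single Q0 d - Db)) ∧
      gb⁻¹ ∈ riemannRochSpace
        (n • (Finsupp.single Q0 d + Finsupp.single Q1 d) - n • (Finsupp.single Q0 d - Db)) ∧
      (1 : F) ∈ riemannRochSpace (Finsupp.single Q0 d + Finsupp.single Q1 d) := by
  classical
  refine ⟨?_, ?_, ?_⟩
  · rw [mem_riemannRochSpace_iff_ne_zero hgb]
    intro Q
    have := hDb Q
    simp only [Finsupp.smul_apply, Finsupp.sub_apply, nsmul_eq_mul, Finsupp.single_apply]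
    split_ifs <;> nlinarith
  · rw [mem_riemannRochSpace_iff_ne_zero (inv_ne_zero hgb)]
    intro Q
    have := hDb Q
    simp only [Finsupp.smul_apply, Finsupp.sub_apply, Finsupp.add_apply,
      nsmul_eq_mul, Finsupp.single_apply, Place.ord_inv]
    split_ifs <;> nlinarith
  · rw [mem_riemannRochSpace_iff_ne_zero one_ne_zero]
    intro Q
    simp only [Finsupp.add_apply, Finsupp.single_apply, Place.ord_one]
    split_ifs <;> omega

namespace ConstRed

section Hensel

variable {K : Type} [Field K] {A : ValuationSubring K} {k : Type*} [Field k]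
  {ρ : A →+* k} {F Fb : Type*} [Field F] [Algebra K F] [Field Fb] [Algebra k Fb]
  [IsFF K F] [IsFF k Fb] (S : ConstRed A ρ F Fb)

/-- All coefficients lie in `L(E)`. -/
def CoeffIn {σ : Type*} (E : Divisor K F) (p : MvPolynomial σ S.O) : Prop :=
  ∀ s, ((coeff s p : S.O) : F) ∈ riemannRochSpace E

variable {σ : Type*} {S}

theorem coeffIn_C {E : Divisor K F} {g : S.O} (hg : (g : F) ∈ riemannRochSpace E) :
    CoeffIn S E (C g : MvPolynomial σ S.O) := fun s => by
  classical
  rw [coeff_C]
  split_ifs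
  · exact hg
  · rw [ZeroMemClass.coe_zero]; exact Submodule.zero_mem _

theorem coeffIn_C_mul_X {E : Divisor K F} {g : S.O} (hg : (g : F) ∈ riemannRochSpace E) (i : σ) :
    CoeffIn S E (C g * X i : MvPolynomial σ S.O) := fun s => by
  classical
  rw [C_mul_X_eq_monomial, coeff_monomial]
  split_ifs
  · exact hg
  · rw [ZeroMemClass.coe_zero]; exact Submodule.zero_mem _

/-- Sums keep the coefficient condition. -/
theorem CoeffIn.add {E : Divisor K F} {p q : MvPolynomial σ S.O} (hp : CoeffIn S E p)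
    (hq : CoeffIn S E q) : CoeffIn S E (p + q) := fun s => by
  rw [coeff_add, AddMemClass.coe_add]; exact Submodule.add_mem _ (hp s) (hq s)

/-- Differences keep the coefficient condition. -/
theorem CoeffIn.sub {E : Divisor K F} {p q : MvPolynomial σ S.O} (hp : CoeffIn S E p)
    (hq : CoeffIn S E q) : CoeffIn S E (p - q) := fun s => by
  rw [coeff_sub, AddSubgroupClass.coe_sub]; exact Submodule.sub_mem _ (hp s) (hq s)

/-- Finite sums keep the coefficient condition. -/
theorem CoeffIn.sum {E : Divisor K F} {ι : Type*} (t : Finset ι) {p : ι → MvPolynomial σ S.O}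
    (hp : ∀ i ∈ t, CoeffIn S E (p i)) : CoeffIn S E (∑ i ∈ t, p i) := fun s => by
  rw [coeff_sum, AddSubmonoidClass.coe_finsetSum]
  exact Submodule.sum_mem _ fun i hi => hp i hi s

/-- Products add the bounding divisors. -/
theorem CoeffIn.mul {E E' : Divisor K F} {p q : MvPolynomial σ S.O} (hp : CoeffIn S E p)
    (hq : CoeffIn S E' q) : CoeffIn S (E + E') (p * q) := fun s => by
  classical
  rw [coeff_mul, AddSubmonoidClass.coe_finsetSum]
  refine Submodule.sum_mem _ fun x _ => ?_
  rw [MulMemClass.coe_mul]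
  exact mul_mem_riemannRochSpace (hp _) (hq _)

/-- Powers multiply the bounding divisor. -/
theorem CoeffIn.pow {E : Divisor K F} {p : MvPolynomial σ S.O} (hp : CoeffIn S E p) (n : ℕ) :
    CoeffIn S (n • E) (p ^ n) := by
  induction n with
  | zero =>
    rw [pow_zero, zero_smul, ← C_1]
    refine coeffIn_C ?_
    rw [mem_riemannRochSpace]
    exact fun v => Or.inr (by simp)
  | succ n ih => rw [pow_succ, succ_nsmul]; exact ih.mul hp

theorem CoeffIn.eval_mem {E : Divisor K F} {p : MvPolynomial σ S.O} (hp : CoeffIn S E p)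
    (z : σ → A) : ((eval (fun i => S.cst (z i)) p : S.O) : F) ∈ riemannRochSpace E := by
  rw [eval_eq, AddSubmonoidClass.coe_finsetSum]
  refine Submodule.sum_mem _ fun s _ => ?_
  rw [mul_comm (coeff s p)]
  simp only [← map_pow, ← map_prod]
  rw [MulMemClass.coe_mul, coe_cst, ← Algebra.smul_def]
  exact Submodule.smul_mem _ _ (hp s)

variable (S) [IsAlgClosed K]

omit [IsAlgClosed K] in
/-- Coordinates on `L(T)` in a lattice basis are integral on integral elements and reduce to the
residual coordinates. -/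
theorem exists_coord {T : Divisor K F} {N : ℕ} {w : Fin N → S.O}
    (hw : ∀ i, (w i : F) ∈ riemannRochSpace T)
    (hwi : LinearIndependent k fun i => S.red (w i)) (hN : N = rrDim T) :
    ∃ π : F →ₗ[K] (Fin N → K),
      (∀ y : F, y ∈ riemannRochSpace T → ∑ i, π y i • (w i : F) = y) ∧
      ∃ hmemA : ∀ y : S.O, (y : F) ∈ riemannRochSpace T → ∀ i, π (y : F) i ∈ A,
        ∀ (y : S.O) (hy : (y : F) ∈ riemannRochSpace T),
          S.red y = ∑ i, ρ ⟨_, hmemA y hy i⟩ • S.red (w i) := by
  classical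
  obtain ⟨π, hπ⟩ := (Fintype.linearCombination K fun i => (w i : F)).exists_leftInverse_of_injective
    (LinearMap.ker_eq_bot.2 (linearIndependent_iff_injective_fintypeLinearCombination.1
      (S.linearIndependent_of_red hwi)))
  have hspan : ∀ y : F, y ∈ riemannRochSpace T → ∑ i, π y i • (w i : F) = y := fun y hy => by
    obtain ⟨c, hc⟩ := S.mem_span_of_card hwi hw (by rw [Fintype.card_fin, hN]; rfl) hy
    have h : π (∑ i, c i • (w i : F)) = c := by
      have := LinearMap.congr_fun hπ c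
      rwa [LinearMap.comp_apply, Fintype.linearCombination_apply] at this
    rw [hc] at h
    rw [h, hc]
  have hmemA : ∀ y : S.O, (y : F) ∈ riemannRochSpace T → ∀ i, π (y : F) i ∈ A := fun y hy i =>
    S.coeff_mem hwi (c := π (y : F)) (by rw [hspan _ hy]; exact y.2) i
  have hres : ∀ (y : S.O) (hy : (y : F) ∈ riemannRochSpace T),
      S.red y = ∑ i, ρ ⟨_, hmemA y hy i⟩ • S.red (w i) := fun y hy => by
    have e : y = ∑ i, S.cst ⟨_, hmemA y hy i⟩ * w i := Subtype.ext (by
      rw [AddSubmonoidClass.coe_finsetSum]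
      refine (hspan _ hy).symm.trans (Finset.sum_congr rfl fun i _ => ?_)
      rw [MulMemClass.coe_mul, coe_cst, Algebra.smul_def])
    conv_lhs => rw [e, map_sum]
    exact Finset.sum_congr rfl fun i _ => by rw [red_cst_mul]
  exact ⟨π, hspan, hmemA, hres⟩

/-- **Hensel on Riemann–Roch spaces.** A polynomial map into `L(T)` whose differential at a
residual zero is the identity on residues has an integral zero. -/
theorem exists_zero_polyMap {T : Divisor K F} {N : ℕ} {w : Fin N → S.O}
    (hw : ∀ i, (w i : F) ∈ riemannRochSpace T)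
    (hwi : LinearIndependent k fun i => S.red (w i)) (hN : N = rrDim T)
    {Φ : MvPolynomial (Fin N) S.O} (hΦ : CoeffIn S T Φ) (h0 : S.red (eval 0 Φ) = 0)
    (h1 : ∀ j, S.red (eval 0 (pderiv j Φ)) = S.red (w j)) :
    ∃ z : Fin N → A, (∀ i, ρ (z i) = 0) ∧ eval (fun i => S.cst (z i)) Φ = 0 := by
  classical
  obtain ⟨π, hspan, hmemA, hres⟩ := S.exists_coord hw hwi hN
  let f : Fin N → MvPolynomial (Fin N) A := fun i =>
    ∑ s ∈ Φ.support, monomial s ⟨π ((coeff s Φ : S.O) : F) i, hmemA _ (hΦ s) i⟩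
  have hcoeff : ∀ i s, ((coeff s (f i) : A) : K) = π ((coeff s Φ : S.O) : F) i := fun i s => by
    simp only [f, coeff_sum, coeff_monomial]
    rw [Finset.sum_ite_eq']
    split_ifs with h
    · rfl
    · rw [notMem_support_iff.1 h, ZeroMemClass.coe_zero, ZeroMemClass.coe_zero, map_zero]
      rfl
  have heval : ∀ (z : Fin N → A) i,
      ((eval z (f i) : A) : K) = π ((eval (fun j => S.cst (z j)) Φ : S.O) : F) i := fun z i => by
    have e : eval z (f i) = ∑ s ∈ Φ.support,
        (⟨π ((coeff s Φ : S.O) : F) i, hmemA _ (hΦ s) i⟩ : A) * ∏ j ∈ s.support, z j ^ s j := by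
      simp only [f, map_sum, eval_monomial]
      rfl
    rw [e, eval_eq, AddSubmonoidClass.coe_finsetSum, AddSubmonoidClass.coe_finsetSum, map_sum,
      Finset.sum_apply]
    refine Finset.sum_congr rfl fun s _ => ?_
    rw [mul_comm (coeff s Φ)]
    simp only [← map_pow, ← map_prod]
    rw [MulMemClass.coe_mul, MulMemClass.coe_mul, coe_cst, ← Algebra.smul_def, map_smul,
      Pi.smul_apply, smul_eq_mul, mul_comm]
  have hz0 : (fun j : Fin N => S.cst ((0 : Fin N → A) j)) = 0 :=
    funext fun j => map_zero S.cst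
  have hroot : ∀ i, IsLocalRing.residue A (eval 0 (f i)) = 0 := fun i => by
    have hy := hΦ.eval_mem (0 : Fin N → A)
    rw [hz0] at hy
    have h := hres _ hy
    rw [h0] at h
    have h2 := Fintype.linearIndependent_iff.1 hwi _ h.symm i
    rw [IsLocalRing.residue_eq_zero_iff, IsLocalRing.mem_maximalIdeal, mem_nonunits_iff,
      ← S.ker_iff]
    rw [← h2]
    refine congrArg ρ (Subtype.ext ?_)
    rw [heval, hz0]
  have hd : ∀ i j, ρ (eval 0 (pderiv j (f i))) = if j = i then 1 else 0 := fun i j => by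
    have hy : ((eval 0 (pderiv j Φ) : S.O) : F) ∈ riemannRochSpace T := by
      rw [coeff_single_one]; exact hΦ _
    have h := hres _ hy
    rw [h1] at h
    have h3 := Fintype.linearIndependent_iff.1 hwi
      (fun l => ρ ⟨_, hmemA _ hy l⟩ - if j = l then 1 else 0) (by
        simp only [sub_smul, Finset.sum_sub_distrib, ← h, ite_smul, one_smul, zero_smul,
          Finset.sum_ite_eq, Finset.mem_univ, if_true, sub_self]) i
    rw [sub_eq_zero] at h3
    rw [← h3]
    refine congrArg ρ (Subtype.ext ?_)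
    simp only [coeff_single_one, hcoeff]
  obtain ⟨z, hz, hzero⟩ := exists_zero_of_jacobian A f 0 hroot (by
    by_contra hu
    have h := (S.ker_iff _).2 hu
    rw [jacDet, RingHom.map_det, RingHom.map_det] at h
    have e : ρ.mapMatrix ((eval (0 : Fin N → A)).mapMatrix
        (Matrix.of fun i j => pderiv j (f i))) = 1 := by
      ext i j
      rw [RingHom.mapMatrix_apply, RingHom.mapMatrix_apply, Matrix.map_apply, Matrix.map_apply,
        Matrix.of_apply, hd, Matrix.one_apply]
      simp only [eq_comm]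
    rw [e, Matrix.det_one] at h
    exact one_ne_zero h)
  refine ⟨z, fun i => (S.ker_iff _).2 fun hu => ?_, ?_⟩
  · have := hz i
    rw [Pi.zero_apply, map_zero, IsLocalRing.residue_eq_zero_iff] at this
    exact this hu
  · have hy := hΦ.eval_mem z
    refine Subtype.ext ?_
    rw [ZeroMemClass.coe_zero, ← hspan _ hy]
    refine Finset.sum_eq_zero fun i _ => ?_
    rw [← heval, hzero, ZeroMemClass.coe_zero, zero_smul]

end Hensel

variable {K : Type} [Field K] [IsAlgClosed K] {A : ValuationSubring K} {k : Type*} [Field k]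
  [IsAlgClosed k] {ρ : A →+* k} {F Fb : Type*} [Field F] [Algebra K F] [Field Fb] [Algebra k Fb]
  [IsFF K F] [IsFF k Fb] (S : ConstRed A ρ F Fb)

omit [IsAlgClosed k] in
/-- The equation `g m = u ^ n` lifts when the residual differential at `(g₀, m₀, u₀)` is onto. -/
theorem exists_solution {n : ℕ} {H E : Divisor K F} {N : ℕ} {w : Fin N → S.O}
    (hw : ∀ i, (w i : F) ∈ riemannRochSpace (n • E))
    (hwi : LinearIndependent k fun i => S.red (w i)) (hN : N = rrDim (n • E))
    {g0 m0 u0 : S.O} (hg0 : (g0 : F) ∈ riemannRochSpace H)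
    (hm0 : (m0 : F) ∈ riemannRochSpace (n • E - H)) (hu0 : (u0 : F) ∈ riemannRochSpace E)
    (h0 : S.red g0 * S.red m0 = S.red u0 ^ n)
    (hdec : ∀ i, ∃ a b u : S.O, (a : F) ∈ riemannRochSpace H ∧
      (b : F) ∈ riemannRochSpace (n • E - H) ∧ (u : F) ∈ riemannRochSpace E ∧
      S.red a * S.red m0 + S.red g0 * S.red b - (n : Fb) * S.red u0 ^ (n - 1) * S.red u =
        S.red (w i)) :
    ∃ g m u : S.O, (g : F) ∈ riemannRochSpace H ∧ (m : F) ∈ riemannRochSpace (n • E - H) ∧
      (u : F) ∈ riemannRochSpace E ∧ S.red g = S.red g0 ∧ S.red m = S.red m0 ∧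
      g * m = u ^ n := by
  choose da db du hda hdb hdu hdw using hdec
  obtain ⟨G, hG⟩ : ∃ G : MvPolynomial (Fin N) S.O, G = C g0 + ∑ i, C (da i) * X i := ⟨_, rfl⟩
  obtain ⟨Mp, hM⟩ : ∃ G : MvPolynomial (Fin N) S.O, G = C m0 + ∑ i, C (db i) * X i := ⟨_, rfl⟩
  obtain ⟨U, hU⟩ : ∃ G : MvPolynomial (Fin N) S.O, G = C u0 + ∑ i, C (du i) * X i := ⟨_, rfl⟩
  have hGc : CoeffIn S H G := hG ▸
    (coeffIn_C hg0).add (CoeffIn.sum _ fun i _ => coeffIn_C_mul_X (hda i) i)
  have hMc : CoeffIn S (n • E - H) Mp := hM ▸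
    (coeffIn_C hm0).add (CoeffIn.sum _ fun i _ => coeffIn_C_mul_X (hdb i) i)
  have hUc : CoeffIn S E U := hU ▸
    (coeffIn_C hu0).add (CoeffIn.sum _ fun i _ => coeffIn_C_mul_X (hdu i) i)
  have hval : ∀ (g : S.O) (c : Fin N → S.O) (P : MvPolynomial (Fin N) S.O),
      P = C g + ∑ i, C (c i) * X i → eval 0 P = g := by
    rintro g c _ rfl; simp
  have hder : ∀ (g : S.O) (c : Fin N → S.O) (P : MvPolynomial (Fin N) S.O) (j : Fin N),
      P = C g + ∑ i, C (c i) * X i → eval 0 (pderiv j P) = c j := by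
    rintro g c _ j rfl
    simp [Pi.single_apply]
  obtain ⟨z, hz, hzero⟩ := S.exists_zero_polyMap (Φ := G * Mp - U ^ n) hw hwi hN
    ((add_sub_cancel H (n • E) ▸ hGc.mul hMc).sub (hUc.pow n))
    (by rw [map_sub, map_mul, map_pow, hval _ _ _ hG, hval _ _ _ hM, hval _ _ _ hU, map_sub,
      map_mul, map_pow, h0, sub_self])
    (fun j => by
      rw [map_sub, pderiv_mul, pderiv_pow, map_sub, map_add, map_mul, map_mul, map_mul, map_mul,
        map_pow, map_natCast, hval _ _ _ hG, hval _ _ _ hM, hval _ _ _ hU, hder _ _ _ j hG,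
        hder _ _ _ j hM, hder _ _ _ j hU, map_sub, map_add, map_mul, map_mul, map_mul, map_mul,
        map_pow, map_natCast]
      exact hdw j)
  have hred : ∀ (g : S.O) (c : Fin N → S.O) (P : MvPolynomial (Fin N) S.O),
      P = C g + ∑ i, C (c i) * X i → S.red (eval (fun i => S.cst (z i)) P) = S.red g := by
    rintro g c _ rfl
    simp [red_cst, hz]
  rw [map_sub, map_mul, map_pow, sub_eq_zero] at hzero
  exact ⟨_, _, _, hGc.eval_mem z, hMc.eval_mem z, hUc.eval_mem z, hred _ _ _ hG, hred _ _ _ hM,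
    hzero⟩

omit [IsAlgClosed K] [IsAlgClosed k] in
/-- The divisor of a solution. -/
theorem ord_of_solution {n : ℕ} {H E : Divisor K F} {Hb Jb : Divisor k Fb} {Q0 : Place k Fb}
    {gb : Fb} (hgb : gb ≠ 0) (hrH : Finsupp.mapDomain S.r H = Hb)
    (hrJ : Finsupp.mapDomain S.r (n • E - H) = Jb) {g m u : S.O}
    (hgm : (g : F) ∈ riemannRochSpace H) (hmm : (m : F) ∈ riemannRochSpace (n • E - H))
    (hgr : S.red g = gb) (hmr : S.red m = gb⁻¹) (hgu : g * m = u ^ n)
    (hgz : ∀ Q, Q ≠ Q0 → (divisorOf gb + Hb : Divisor k Fb) Q = 0)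
    (hmz : (divisorOf gb⁻¹ + Jb : Divisor k Fb) Q0 = 0)
    (hHn : ∀ P, (n : ℤ) ∣ H P) :
    (∀ P : Place K F, (n : ℤ) ∣ P.ord (g : F)) ∧
      ∀ P, S.r P ≠ Q0 → P.ord (g : F) = -H P := by
  have hsupp : ∀ (f : S.O) (D : Divisor K F), (f : F) ∈ riemannRochSpace D → S.red f ≠ 0 →
      ∀ P, (divisorOf (S.red f) + Finsupp.mapDomain S.r D : Divisor k Fb) (S.r P) = 0 →
        P.ord (f : F) = -D P := by
    intro f D hf hne P hz
    have hf0 : (f : F) ≠ 0 := fun h => hne (by rw [show f = 0 from Subtype.ext h, map_zero])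
    have h0 : (0 : Divisor K F) ≤ divisorOf (f : F) + D := fun v => by
      have := (mem_riemannRochSpace_iff_ne_zero hf0).1 hf v
      rw [Finsupp.add_apply, Finsupp.zero_apply, divisorOf_apply]
      linarith
    have h1 := eq_zero_of_mapDomain_eq_zero S.r h0 P
      (by rw [Finsupp.mapDomain_add, S.mapDomain_r f hne]; exact hz)
    rw [Finsupp.add_apply, divisorOf_apply] at h1
    linarith
  have hg : ∀ P, S.r P ≠ Q0 → P.ord (g : F) = -H P := fun P hP =>
    hsupp g H hgm (hgr ▸ hgb) P (by rw [hgr, hrH]; exact hgz _ hP)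
  refine ⟨fun P => ?_, hg⟩
  by_cases hP : S.r P = Q0
  · have hg0 : (g : F) ≠ 0 := fun h => hgb (by
      rw [← hgr, show g = 0 from Subtype.ext h, map_zero])
    have hm0 : (m : F) ≠ 0 := fun h => inv_ne_zero hgb (by
      rw [← hmr, show m = 0 from Subtype.ext h, map_zero])
    have h1 := congrArg (fun x : S.O => P.ord (x : F)) hgu
    simp only [MulMemClass.coe_mul, SubmonoidClass.coe_pow] at h1
    rw [P.ord_mul hg0 hm0, ord_pow, hsupp m (n • E - H) hmm (hmr ▸ inv_ne_zero hgb) P
      (by rw [hmr, hrJ, hP]; exact hmz), Finsupp.sub_apply, Finsupp.smul_apply, nsmul_eq_mul] at h1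
    rw [show P.ord (g : F) = n * P.ord (u : F) + (n * E P - H P) by linarith]
    exact dvd_add (dvd_mul_right _ _) (dvd_sub (dvd_mul_right _ _) (hHn P))
  · rw [hg P hP]; exact (hHn P).neg_right

/-- **Residual functions with divisible divisor lift**, with divisor supported on a section of
the map of places, away from one place. -/
theorem exists_lift_torsion_section (hgen : rGenus K F ≤ rGenus k Fb) {n : ℕ} (hn : (n : k) ≠ 0)
    {gb : Fb} (hgb : gb ≠ 0) (hdiv : ∀ Q : Place k Fb, (n : ℤ) ∣ Q.ord gb)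
    {s : Place k Fb → Place K F} (hs : ∀ Q, S.r (s Q) = Q) {Q0 Q1 : Place k Fb} (hQ : Q0 ≠ Q1) :
    ∃ g : S.O, S.red g = gb ∧ (∀ P : Place K F, (n : ℤ) ∣ P.ord (g : F)) ∧
      ∀ P : Place K F, s (S.r P) ≠ P → S.r P ≠ Q0 → P.ord (g : F) = 0 := by
  classical
  have hn0 : n ≠ 0 := fun h => hn (by rw [h, Nat.cast_zero])
  obtain ⟨c0, hc⟩ := S.exists_threshold hgen
  obtain ⟨c1, hcb⟩ := exists_rrDim_eq (K := k) (F := Fb)
  obtain ⟨d, hd1, hd0, hdb⟩ : ∃ d : ℤ, 1 ≤ d ∧ c0 ≤ d ∧ c1 ≤ d :=
    ⟨max (max c0 c1) 1, le_max_right _ _, (le_max_left _ _).trans (le_max_left _ _),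
      (le_max_right _ _).trans (le_max_left _ _)⟩
  have hn1 : (1 : ℤ) ≤ n := by exact_mod_cast Nat.one_le_iff_ne_zero.2 hn0
  have hdn : d ≤ n * d := le_mul_of_one_le_left (by omega) hn1
  set Db : Divisor k Fb := Finsupp.mapRange (fun x : ℤ => x / n) (by simp) (divisorOf gb)
  have hDb : ∀ Q, (n : ℤ) * Db Q = Q.ord gb := fun Q => by
    rw [Finsupp.mapRange_apply, divisorOf_apply, Int.mul_ediv_cancel' (hdiv Q)]
  have hDdeg : Divisor.degree Db = 0 := by
    have h : (n : ℤ) • Db = divisorOf gb := Finsupp.ext fun Q => by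
      rw [Finsupp.smul_apply, smul_eq_mul, hDb, divisorOf_apply]
    have h2 := congrArg Divisor.degree h
    rw [map_zsmul, degree_divisorOf, smul_eq_mul, mul_eq_zero] at h2
    exact h2.resolve_left (by omega)
  have hrs : ∀ D : Divisor k Fb, Finsupp.mapDomain S.r (Finsupp.mapDomain s D) = D := fun D => by
    rw [← Finsupp.mapDomain_comp, show S.r ∘ s = id from funext hs, Finsupp.mapDomain_id]
  set Hb : Divisor k Fb := n • (Finsupp.single Q0 d - Db) with hHb
  set Eb : Divisor k Fb := Finsupp.single Q0 d + Finsupp.single Q1 d with hEb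
  set Tb : Divisor k Fb := n • Eb with hTb
  set H : Divisor K F := Finsupp.mapDomain s Hb
  set E : Divisor K F := Finsupp.mapDomain s Eb
  set T : Divisor K F := n • E
  set J : Divisor K F := T - H
  have hrH : Finsupp.mapDomain S.r H = Hb := hrs _
  have hrE : Finsupp.mapDomain S.r E = Eb := hrs _
  have hrT : Finsupp.mapDomain S.r T = Tb := by
    rw [← Finsupp.mapDomain.addMonoidHom_apply, map_nsmul, Finsupp.mapDomain.addMonoidHom_apply,
      hrE]
  have hrJ : Finsupp.mapDomain S.r J = Tb - Hb := by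
    rw [← Finsupp.mapDomain.addMonoidHom_apply, map_sub, Finsupp.mapDomain.addMonoidHom_apply,
      Finsupp.mapDomain.addMonoidHom_apply, hrT, hrH]
  have hdH : Divisor.degree H = n * d := by
    rw [← S.degree_mapDomain, hrH, hHb, map_nsmul, map_sub, hDdeg, Divisor.degree_single,
      deg_eq_one]
    simp
  have hdE : Divisor.degree E = 2 * d := by
    rw [← S.degree_mapDomain, hrE, hEb, map_add, Divisor.degree_single, Divisor.degree_single,
      deg_eq_one, deg_eq_one]
    ring
  have hdT : Divisor.degree T = 2 * (n * d) := by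
    rw [map_nsmul, hdE, nsmul_eq_mul]; ring
  have hdJ : Divisor.degree J = n * d := by rw [map_sub, hdT, hdH]; ring
  have hlH := (hc H (by omega)).2
  have hlJ := (hc J (by omega)).2
  have hlE := (hc E (by omega)).2
  have hlT := (hc T (by omega)).2
  -- the residual solution
  obtain ⟨hgbH, hgbJ, h1E⟩ := mem_riemannRochSpace_residual (Q0 := Q0) (Q1 := Q1) hgb hDb
    (show 0 ≤ d by omega)
  rw [← hHb, ← hrH] at hgbH
  rw [← hHb, ← hEb, ← hTb, ← hrJ] at hgbJ
  rw [← hEb, ← hrE] at h1E
  obtain ⟨g0, hg0, hg0r⟩ := S.exists_lift hlH hgbH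
  obtain ⟨m0, hm0, hm0r⟩ := S.exists_lift hlJ hgbJ
  obtain ⟨u0, hu0, hu0r⟩ := S.exists_lift hlE h1E
  -- the residual differential is onto
  obtain ⟨w, hw, hwi⟩ := S.lattice (riemannRochSpace T) inferInstance
  have hdec : ∀ i, ∃ a b u : S.O, (a : F) ∈ riemannRochSpace H ∧ (b : F) ∈ riemannRochSpace J ∧
      (u : F) ∈ riemannRochSpace E ∧
      S.red a * gb⁻¹ + gb * S.red b - (n : Fb) * S.red u = S.red (w i) := fun i => by
    obtain ⟨a, b, u, ha, hb, hu, he⟩ := exists_residual_decomp hcb hn hgb hDb hQ hdb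
      (show 0 ≤ d by omega) (hrT ▸ S.red_mem (hw i))
    obtain ⟨a', ha', rfl⟩ := S.exists_lift hlH (show a ∈ _ by rw [hrH]; exact ha)
    obtain ⟨b', hb', rfl⟩ := S.exists_lift hlJ (show b ∈ _ by rw [hrJ]; exact hb)
    obtain ⟨u', hu', rfl⟩ := S.exists_lift hlE (show u ∈ _ by rw [hrE]; exact hu)
    exact ⟨a', b', u', ha', hb', hu', he⟩
  obtain ⟨g, m, u, hgm, hmm, -, hgr, hmr, hgu⟩ := S.exists_solution (n := n) hw hwi rfl hg0 hm0 hu0
    (by rw [hg0r, hm0r, hu0r, mul_inv_cancel₀ hgb, one_pow])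
    (fun i => by rw [hg0r, hm0r, hu0r, one_pow, mul_one]; exact hdec i)
  rw [hg0r] at hgr
  rw [hm0r] at hmr
  have hHn : ∀ P, (n : ℤ) ∣ H P := fun P => by
    have : H = n • Finsupp.mapDomain s (Finsupp.single Q0 d - Db) := by
      rw [← Finsupp.mapDomain.addMonoidHom_apply, ← map_nsmul]; rfl
    rw [this, Finsupp.smul_apply, nsmul_eq_mul]
    exact dvd_mul_right _ _
  have hgz : ∀ Q, Q ≠ Q0 → (divisorOf gb + Hb : Divisor k Fb) Q = 0 := fun Q hQ' => by
    have := hDb Q
    rw [hHb, Finsupp.add_apply, divisorOf_apply, Finsupp.smul_apply, Finsupp.sub_apply,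
      nsmul_eq_mul, Finsupp.single_eq_of_ne' (Ne.symm hQ')]
    linarith
  have hmz : (divisorOf gb⁻¹ + (Tb - Hb) : Divisor k Fb) Q0 = 0 := by
    have := hDb Q0
    rw [hTb, hHb, hEb, Finsupp.add_apply, divisorOf_apply, Finsupp.sub_apply, Finsupp.smul_apply,
      Finsupp.smul_apply, Finsupp.sub_apply, Finsupp.add_apply, nsmul_eq_mul, nsmul_eq_mul,
      Finsupp.single_eq_same, Finsupp.single_eq_of_ne' (Ne.symm hQ), Place.ord_inv]
    linarith
  obtain ⟨h1, h2⟩ := S.ord_of_solution hgb hrH hrJ hgm hmm hgr hmr hgu hgz hmz hHn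
  refine ⟨g, hgr, h1, fun P hP hPQ => ?_⟩
  have : P ∉ H.support := fun h => by
    obtain ⟨Q, -, rfl⟩ := Finset.mem_image.1 (Finsupp.mapDomain_support h)
    exact hP (by rw [hs])
  rw [h2 P hPQ, Finsupp.notMem_support_iff.1 this, neg_zero]

end ConstRed

end FermatAgent.Curve
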