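import Fermat.Agent.Curve.Lift.Poles
import Fermat.Agent.Curve.Lift.Torsion
import Fermat.Prelude.Def_ModularCurve_LaurentCoeff

/-!
# Lifting residual functions with divisible divisor to integral series

With a distinguished place at infinity, where expansions of bounded functions are integral, that
place reduces to the one at infinity (`ConstRed.r_infinity`).  A residual function `ḡ` with
divisor divisible by `n` lifts to `g` with the same property; clearing the finite poles of `g` by
a product of `x - c`, its expansion is integral, with the order of `ḡ` and a unit in that degree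
(`ConstRed.exists_lift_series`).
-/

set_option autoImplicit false

noncomputable section

open AlgebraicCurve Module
open ModularCurve (coeffMap coeffMap_coeff)

-- searched first: the other route ends in a long failing unification on the scalar towers
attribute [local instance 1100] SubalgebraClass.toAlgebra

namespace FermatAgent.Curve

/-- A series with a unit in lowest degree is invertible. -/
theorem isUnit_laurent_of_coeff {R : Type*} [CommRing R] {s : LaurentSeries R} (o : ℤ)
    (hlow : ∀ i < o, s.coeff i = 0) (hu : IsUnit (s.coeff o)) : IsUnit s := by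
  set p : PowerSeries R := PowerSeries.mk fun i => s.coeff (o + i)
  have hp : IsUnit p := PowerSeries.isUnit_iff_constantCoeff.mpr (by
    rw [← PowerSeries.coeff_zero_eq_constantCoeff, PowerSeries.coeff_mk, Nat.cast_zero, add_zero]
    exact hu)
  have hs : s = HahnSeries.single o 1 * HahnSeries.ofPowerSeries ℤ R p := by
    ext i
    rw [show i = (i - o) + o by ring, HahnSeries.coeff_single_mul_add, one_mul]
    by_cases hi : o ≤ i
    · obtain ⟨m, hm⟩ := Int.eq_ofNat_of_zero_le (sub_nonneg.2 hi)
      rw [hm, HahnSeries.ofPowerSeries_apply_coeff, PowerSeries.coeff_mk, add_comm]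
    · rw [hlow _ (by omega)]
      rw [PowerSeries.coeff_coe, if_pos (by omega)]
  rw [hs]
  refine IsUnit.mul (isUnit_iff_exists_inv.2 ⟨HahnSeries.single (-o) 1, ?_⟩) (hp.map _)
  rw [HahnSeries.single_mul_single, add_neg_cancel, one_mul]
  rfl

theorem coeff_pow_of_order {L : Type*} [Field L] {w : LaurentSeries L} {o : ℤ} (ho : w.order = o)
    (h1 : w.coeff o = 1) (m : ℕ) : (w ^ m).coeff (m * o) = 1 := by
  subst ho
  induction m with
  | zero => simp
  | succ m ih =>
    have hw : w ≠ 0 := fun h => by simp [h] at h1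
    rw [pow_succ, show ((m + 1 : ℕ) : ℤ) * w.order = (w ^ m).order + w.order by
      rw [order_pow]; push_cast; ring]
    rw [← order_pow] at ih
    rw [HahnSeries.coeff_mul_order_add_order, HahnSeries.leadingCoeff_eq,
      HahnSeries.leadingCoeff_eq,
      ih, h1, mul_one]

/-- For `f ∈ L(N H)` with a pole of order `< N` at `P`, the image has one of order `< N H'` at
`r P`. -/
theorem ord_gt_of_mapDomain_eq {K K' F F' : Type*} [Field K] [Field K'] [Field F] [Field F']
    [Algebra K F] [Algebra K' F'] [IsAlgClosed K] [IsAlgClosed K'] [IsFF K F] [IsFF K' F']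
    (r : Place K F → Place K' F') {f : F} {g : F'}
    (hfg : Finsupp.mapDomain r (divisorOf f) = divisorOf g) {H : Divisor K F} {H' : Divisor K' F'}
    (hH : Finsupp.mapDomain r H = H') {N : ℕ} (hf0 : f ≠ 0)
    (hf : f ∈ riemannRochSpace ((N : ℤ) • H)) {P : Place K F} (hP : H P = 1)
    (h : -(N : ℤ) < P.ord f) : -((N : ℤ) * H' (r P)) < (r P).ord g := by
  classical
  set D : Divisor K F := divisorOf f + (N : ℤ) • H with hD
  have hmem : 0 ≤ D := fun v => by
    have h0 := ((mem_riemannRochSpace.1 hf) v).resolve_left hf0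
    rw [Finsupp.smul_apply, smul_eq_mul] at h0
    rw [hD, Finsupp.add_apply, divisorOf_apply, Finsupp.smul_apply, smul_eq_mul, Finsupp.zero_apply]
    omega
  by_contra hcon
  have hge := Finsupp.mapDomain_nonneg (f := r) hmem (r P)
  have hmap : Finsupp.mapDomain r D = divisorOf g + (N : ℤ) • H' := by
    rw [hD, Finsupp.mapDomain_add, hfg, Finsupp.mapDomain_smul, hH]
  rw [hmap, Finsupp.zero_apply, Finsupp.add_apply, divisorOf_apply, Finsupp.smul_apply,
    smul_eq_mul] at hge
  have h0 := ConstRed.eq_zero_of_mapDomain_eq_zero r hmem P (by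
    rw [hmap, Finsupp.add_apply, divisorOf_apply, Finsupp.smul_apply, smul_eq_mul]
    omega)
  rw [hD, Finsupp.add_apply, divisorOf_apply, Finsupp.smul_apply, hP, smul_eq_mul, mul_one] at h0
  omega

section Pole

variable {K F : Type*} [Field K] [Field F] [Algebra K F] [IsAlgClosed K] [IsFF K F]

omit [IsAlgClosed K] in
theorem pow_mem_riemannRochSpace_poleDivisor (x : F) (N : ℕ) :
    x ^ N ∈ riemannRochSpace ((N : ℤ) • (poleDivisor x : Divisor K F)) := by
  rw [mem_riemannRochSpace]
  intro v
  rw [Finsupp.smul_apply, poleDivisor_apply, smul_eq_mul]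
  refine (ordGE_self _).mono ?_
  rw [ord_pow]
  nlinarith [le_max_left (-v.ord x) 0]

theorem one_le_degree_poleDivisor {x : F} {Q0 : Place K F} (hQ0 : Q0.ord x = -1) :
    1 ≤ Divisor.degree (poleDivisor x : Divisor K F) := by
  classical
  have h1 : Finsupp.single Q0 (1 : ℤ) ≤ (poleDivisor x : Divisor K F) := fun v => by
    rw [Finsupp.single_apply]
    split_ifs with hv
    · subst hv; rw [poleDivisor_apply, hQ0]; norm_num
    · exact poleDivisor_nonneg _ v
  have h2 := degree_mono h1
  simpa [deg_eq_one Q0] using h2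

theorem exists_ord_pos_of_pole {x : F} {Q0 : Place K F} (hQ0 : Q0.ord x = -1) :
    ∃ Q : Place K F, 0 < Q.ord x := by
  classical
  by_contra h
  push Not at h
  have h1 : divisorOf x ≤ -Finsupp.single Q0 (1 : ℤ) := fun v => by
    rw [divisorOf_apply, Finsupp.neg_apply, Finsupp.single_apply]
    split_ifs with hv
    · subst hv; rw [hQ0]
    · simpa using h v
  have h2 := degree_mono h1
  rw [degree_divisorOf, map_neg, Divisor.degree_single, deg_eq_one] at h2
  norm_num at h2

/-- By Riemann–Roch some function of `L(N H)` has poles of smaller order at `Q0` and of full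
order at `Q ≠ Q0`. -/
theorem false_of_ord_gt {H : Divisor K F} {Q0 Q : Place K F} (hne : Q ≠ Q0) (hQ0 : H Q0 = 1)
    (N : ℕ) {c : ℤ} (hc : ∀ D : Divisor K F, c ≤ Divisor.degree D →
      (rrDim D : ℤ) = Divisor.degree D + 1 - (rGenus K F : ℤ))
    (hN : c + 2 ≤ (N : ℤ) * Divisor.degree H)
    (h : ∀ z : F, z ≠ 0 → z ∈ riemannRochSpace ((N : ℤ) • H) → -(N : ℤ) < Q0.ord z →
      -((N : ℤ) * H Q) < Q.ord z) : False := by
  classical
  set D1 : Divisor K F := (N : ℤ) • H - Finsupp.single Q0 1
  set D2 : Divisor K F := (N : ℤ) • H - Finsupp.single Q0 1 - Finsupp.single Q 1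
  have hle : riemannRochSpace D1 ≤ riemannRochSpace D2 := by
    intro z hz
    rw [mem_riemannRochSpace] at hz ⊢
    rcases eq_or_ne z 0 with rfl | hz0
    · exact fun v => OrdGE.zero
    have h1 : ∀ v, -((N : ℤ) * H v) + (if Q0 = v then 1 else 0) ≤ v.ord z := fun v => by
      have h := (ordGE_iff_le hz0).1 (hz v)
      simp only [D1, Finsupp.sub_apply, Finsupp.smul_apply, Finsupp.single_apply, smul_eq_mul] at h
      omega
    have hzH : z ∈ riemannRochSpace ((N : ℤ) • H) := mem_riemannRochSpace.2 fun v => Or.inr (by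
      have := h1 v
      rw [Finsupp.smul_apply, smul_eq_mul]
      split_ifs at this <;> omega)
    have hlt : -(N : ℤ) < Q0.ord z := by
      have := h1 Q0
      rw [if_pos rfl, hQ0] at this
      omega
    have hQz := h z hz0 hzH hlt
    intro v
    refine Or.inr ?_
    have h2 := h1 v
    simp only [D2, Finsupp.sub_apply, Finsupp.smul_apply, Finsupp.single_apply, smul_eq_mul]
    by_cases hv : Q = v
    · subst hv
      rw [if_neg (fun h => hne h.symm), if_pos rfl]
      omega
    · rw [if_neg hv]; omega
  have h1 := hc D1 (by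
    simp only [D1, map_sub, map_zsmul, Divisor.degree_single, deg_eq_one, smul_eq_mul]
    omega)
  have h2 := hc D2 (by
    simp only [D2, map_sub, map_zsmul, Divisor.degree_single, deg_eq_one, smul_eq_mul]
    omega)
  have h3 : rrDim D1 ≤ rrDim D2 := Submodule.finrank_mono hle
  simp only [D1, D2, map_sub, map_zsmul, Divisor.degree_single, deg_eq_one, smul_eq_mul] at h1 h2 h3
  omega

omit [IsAlgClosed K] in
theorem self_mem_riemannRochSpace_poleDivisor (x : F) :
    x ∈ riemannRochSpace (((1 : ℕ) : ℤ) • (poleDivisor x : Divisor K F)) := by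
  simpa using pow_mem_riemannRochSpace_poleDivisor (K := K) x 1

end Pole

theorem coeffMap_prod_sub_C {R : Type*} [CommRing R] {L : Type*} [Field L] (f : R →+* L)
    {sx : LaurentSeries R} {w : LaurentSeries L} (h : coeffMap f sx = w) (m : Multiset R) :
    coeffMap f (m.map fun c => sx - HahnSeries.C c).prod =
      (m.map fun c => w - HahnSeries.C (f c)).prod := by
  rw [map_multiset_prod, Multiset.map_map]
  refine congrArg Multiset.prod (Multiset.map_congr rfl fun c _ => ?_)
  simp only [Function.comp_apply, map_sub, h]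
  congr 1
  simp [HahnSeries.C_apply]

theorem coe_multiset_prod_sub_algebraMap {R L : Type*} [Field L] (g : R → L)
    {E : IntermediateField L (LaurentSeries L)} (x : E) (m : Multiset R) :
    (((m.map fun c => x - algebraMap L E (g c)).prod : E) : LaurentSeries L) =
      (m.map fun c => (x : LaurentSeries L) - HahnSeries.C (g c)).prod := by
  rw [← IntermediateField.coe_val, map_multiset_prod, Multiset.map_map]
  refine congrArg Multiset.prod (Multiset.map_congr rfl fun c _ => ?_)
  simp only [Function.comp_apply, IntermediateField.coe_val, AddSubgroupClass.coe_sub,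
    IntermediateField.coe_algebraMap_apply, ModularCurve.algebraMap_laurentSeries_eq_single,
    HahnSeries.C_apply]

namespace ConstRed

variable {K : Type} [Field K] [IsAlgClosed K] {A : ValuationSubring K} {k : Type} [Field k]
  [IsAlgClosed k] {ρ : A →+* k} {E : IntermediateField K (LaurentSeries K)}
  {Fb : IntermediateField k (LaurentSeries k)} [IsFF K E] [IsFF k Fb] (S : ConstRed A ρ E Fb)

/-- Functions with poles only at the poles of `x` have integral expansions compatible with
reduction. -/
def SeriesAt (x : S.O) : Prop :=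
  ∀ (f : S.O) (n : ℕ), (f : E) ∈ riemannRochSpace ((n : ℤ) • (poleDivisor (x : E) : Divisor K E)) →
    ∃ s : LaurentSeries A, coeffMap A.subtype s = ((f : E) : LaurentSeries K) ∧
      coeffMap ρ s = (S.red f : LaurentSeries k)

variable {x : S.O} (hgen : rGenus K E ≤ rGenus k Fb)
  (hm : Finsupp.mapDomain S.r (poleDivisor (x : E)) = poleDivisor (S.red x))
  (hser : S.SeriesAt x) {P0 : Place K E} (hP0 : ∀ f : E, P0.ord f = (f : LaurentSeries K).order)
  {Q0 : Place k Fb} (hQ0 : ∀ f : Fb, Q0.ord f = (f : LaurentSeries k).order)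
  (hx : ((x : E) : LaurentSeries K).order = -1) (hx1 : ((x : E) : LaurentSeries K).coeff (-1) = 1)
  (hxb : (S.red x : LaurentSeries k).order = -1)

include hm hP0 in
/-- An element with a pole of lower order at infinity reduces to one with the same property at the
reduction of infinity. -/
theorem ord_red_gt {N : ℕ} {f : S.O}
    (hf : (f : E) ∈ riemannRochSpace ((N : ℤ) • (poleDivisor (x : E) : Divisor K E)))
    (hne : S.red f ≠ 0) (hx : ((x : E) : LaurentSeries K).order = -1)
    (h : -(N : ℤ) < P0.ord (f : E)) :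
    -((N : ℤ) * (poleDivisor (S.red x) : Divisor k Fb) (S.r P0)) < (S.r P0).ord (S.red f) := by
  have hf0 : (f : E) ≠ 0 := fun h => hne (by rw [show f = 0 from Subtype.ext h, map_zero])
  exact ord_gt_of_mapDomain_eq S.r (S.mapDomain_r f hne) hm hf0 hf
    (by rw [poleDivisor_apply, hP0 (x : E), hx]; norm_num) h

omit [IsAlgClosed K] [IsAlgClosed k] in
include hm hser hP0 hQ0 hx hx1 in
/-- Residual sections of lower order at infinity lift to such sections. -/
theorem exists_lift_lower {N : ℕ} {z : Fb} (hz0 : z ≠ 0)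
    (hlift : rrDim (Finsupp.mapDomain S.r ((N : ℤ) • (poleDivisor (x : E) : Divisor K E))) =
      rrDim ((N : ℤ) • (poleDivisor (x : E) : Divisor K E)))
    (hz : z ∈ riemannRochSpace ((N : ℤ) • (poleDivisor (S.red x) : Divisor k Fb)))
    (hlt : -(N : ℤ) < Q0.ord z) :
    ∃ f : S.O, (f : E) ∈ riemannRochSpace ((N : ℤ) • (poleDivisor (x : E) : Divisor K E)) ∧
      S.red f = z ∧ -(N : ℤ) < P0.ord (f : E) := by
  classical
  have hmap : Finsupp.mapDomain S.r ((N : ℤ) • (poleDivisor (x : E) : Divisor K E)) =
      (N : ℤ) • (poleDivisor (S.red x) : Divisor k Fb) := by rw [Finsupp.mapDomain_smul, hm]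
  obtain ⟨f, hf, hfz⟩ := S.exists_lift hlift (z := z) (by rw [hmap]; exact hz)
  obtain ⟨s, hs, hsz⟩ := hser f N hf
  have hzN : (z : LaurentSeries k).coeff (-(N : ℤ)) = 0 :=
    HahnSeries.coeff_eq_zero_of_lt_order (hQ0 z ▸ hlt)
  set a : A := s.coeff (-(N : ℤ))
  have ha : ρ a = 0 := by rw [← coeffMap_coeff ρ, hsz, hfz, hzN]
  set f' : S.O := f - S.cst a * x ^ N
  have hf'z : S.red f' = z := by
    rw [map_sub, red_cst_mul, ha, Algebra.smul_def, map_zero, zero_mul, sub_zero, hfz]
  have hf'0 : (f' : E) ≠ 0 := fun h => hz0 (by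
    rw [← hf'z, show f' = 0 from Subtype.ext h, map_zero])
  have hxN : ((x : E) ^ N) ∈ riemannRochSpace ((N : ℤ) • (poleDivisor (x : E) : Divisor K E)) :=
    pow_mem_riemannRochSpace_poleDivisor _ _
  have hf'coe : (f' : E) = (f : E) - (a : K) • (x : E) ^ N := by
    rw [AddSubgroupClass.coe_sub, MulMemClass.coe_mul, coe_cst, SubmonoidClass.coe_pow,
      ← Algebra.smul_def]
  have hf' : (f' : E) ∈ riemannRochSpace ((N : ℤ) • (poleDivisor (x : E) : Divisor K E)) := by
    rw [hf'coe]
    exact Submodule.sub_mem _ hf (Submodule.smul_mem _ _ hxN)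
  refine ⟨f', hf', hf'z, ?_⟩
  have h0 := ((mem_riemannRochSpace.1 hf') P0).resolve_left hf'0
  rw [Finsupp.smul_apply, poleDivisor_apply, hP0 (x : E), hx, smul_eq_mul] at h0
  norm_num at h0
  refine lt_of_le_of_ne h0 fun he => ?_
  rw [hP0] at he
  have hxN1 : (((x : E) : LaurentSeries K) ^ N).coeff (-(N : ℤ)) = 1 := by
    rw [show -(N : ℤ) = (N : ℤ) * (-1) by ring]
    exact coeff_pow_of_order hx hx1 N
  have hcoe : ((f' : E) : LaurentSeries K) = ((f : E) : LaurentSeries K) -
      HahnSeries.single (0 : ℤ) (a : K) * ((x : E) : LaurentSeries K) ^ N := by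
    have h := congrArg (fun w : E => (w : LaurentSeries K))
      (show (f' : E) = (f : E) - algebraMap K E (a : K) * (x : E) ^ N from
        hf'coe.trans (by rw [Algebra.smul_def]))
    simp only [AddSubgroupClass.coe_sub, MulMemClass.coe_mul, SubmonoidClass.coe_pow] at h
    rw [h, IntermediateField.coe_algebraMap_apply, ModularCurve.algebraMap_laurentSeries_eq_single]
  have h2 : ((f' : E) : LaurentSeries K).coeff (-(N : ℤ)) = 0 := by
    rw [hcoe, HahnSeries.coeff_sub, HahnSeries.coeff_single_zero_mul, hxN1, mul_one, ← hs,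
      coeffMap_coeff]
    exact sub_self _
  rw [he] at h2
  exact (HahnSeries.coeff_order_eq_zero.not.mpr fun h => hf'0 (Subtype.ext h)) h2

omit [IsAlgClosed K] [IsAlgClosed k] in
/-- If `g` has order zero at the other places over `Q`, its order at `P` is that of its reduction
at `Q`. -/
theorem ord_eq_of_single {g : S.O} (hgne : S.red g ≠ 0) {P : Place K E} {Q : Place k Fb}
    (hr : S.r P = Q) (h : ∀ P', P' ≠ P → S.r P' = Q → P'.ord (g : E) = 0) :
    P.ord (g : E) = Q.ord (S.red g) := by
  classical
  have h1 := congrArg (fun D : Divisor k Fb => D Q) (S.mapDomain_r g hgne)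
  simp only [divisorOf_apply] at h1
  rw [mapDomain_apply_eq_sum S.r _ _ (Finset.Subset.refl _)] at h1
  rw [← h1, Finset.sum_eq_single P]
  · rfl
  · intro P' hP hne
    exact h P' hne (Finset.mem_filter.mp hP).2
  · intro hP
    rw [Finset.mem_filter, not_and] at hP
    by_contra h0
    exact hP (Finsupp.mem_support_iff.2 h0) hr

omit [IsAlgClosed K] [IsAlgClosed k] in
include hser hx hx1 in
/-- For constants `c` in `A`, the product of the `x - c` has an invertible integral expansion
compatible with reduction. -/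
theorem exists_unit_prod_sub (m : Multiset A) :
    ∃ v : (LaurentSeries A)ˣ,
      coeffMap A.subtype v = (((m.map fun c => x - S.cst c).prod : S.O) : E).val ∧
      coeffMap ρ v = (S.red (m.map fun c => x - S.cst c).prod : LaurentSeries k) := by
  classical
  set R : S.O := (m.map fun c => x - S.cst c).prod
  have hR : (R : E) = (m.map fun (c : A) => ((x : E) - algebraMap K E (c : K))).prod := by
    rw [SubmonoidClass.coe_multiset_prod, Multiset.map_map]
    rfl
  obtain ⟨sx, hsx, hsxr⟩ := hser x 1 (self_mem_riemannRochSpace_poleDivisor _)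
  set sR : LaurentSeries A := (m.map fun c => sx - HahnSeries.C c).prod
  have hsR : coeffMap A.subtype sR = ((R : E) : LaurentSeries K) := by
    rw [coeffMap_prod_sub_C _ hsx, hR, coe_multiset_prod_sub_algebraMap]
    rfl
  have hsRr : coeffMap ρ sR = (S.red R : LaurentSeries k) := by
    rw [coeffMap_prod_sub_C _ hsxr, map_multiset_prod, Multiset.map_map,
      ← coe_multiset_prod_sub_algebraMap]
    refine congrArg (fun w : Fb => (w : LaurentSeries k)) (congrArg Multiset.prod
      (Multiset.map_congr rfl fun c _ => ?_))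
    rw [Function.comp_apply, map_sub, red_cst]
  have hsRu : IsUnit sR := by
    refine Multiset.prod_induction (fun w => IsUnit w) _ (fun a b ha hb => ha.mul hb) isUnit_one ?_
    intro w hw
    obtain ⟨c, -, rfl⟩ := Multiset.mem_map.1 hw
    refine isUnit_laurent_of_coeff (-1) (fun i hi => Subtype.ext ?_) ?_
    · rw [HahnSeries.coeff_sub, HahnSeries.C_apply, HahnSeries.coeff_single_of_ne (by omega),
        sub_zero, ZeroMemClass.coe_zero]
      have := congrArg (fun w : LaurentSeries K => w.coeff i) hsx
      simp only [coeffMap_coeff, ValuationSubring.subtype_apply] at this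
      rw [this]
      exact HahnSeries.coeff_eq_zero_of_lt_order (by rw [hx]; exact hi)
    · rw [HahnSeries.coeff_sub, HahnSeries.C_apply, HahnSeries.coeff_single_of_ne (by norm_num),
        sub_zero]
      have := congrArg (fun w : LaurentSeries K => w.coeff (-1)) hsx
      simp only [coeffMap_coeff, ValuationSubring.subtype_apply, hx1] at this
      rw [show sx.coeff (-1) = 1 from Subtype.ext this]
      exact isUnit_one
  exact ⟨hsRu.unit, hsR, hsRr⟩

include hgen hm hser hP0 hQ0 hx hx1 hxb in
/-- The place at infinity reduces to the place at infinity. -/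
theorem r_infinity : S.r P0 = Q0 := by
  classical
  by_contra hne
  set Q := S.r P0
  have hP0x : P0.ord (x : E) = -1 := by rw [hP0, hx]
  have hQ0x : Q0.ord (S.red x) = -1 := by rw [hQ0, hxb]
  obtain ⟨c, hc⟩ := S.exists_threshold hgen
  obtain ⟨c', hc'⟩ := exists_rrDim_eq (K := k) (F := Fb)
  set Hb : Divisor k Fb := poleDivisor (S.red x) with hHb
  have hpos : 1 ≤ Divisor.degree Hb := one_le_degree_poleDivisor hQ0x
  set N : ℕ := (max c (c' + 2)).toNat
  have hN : max c (c' + 2) ≤ (N : ℤ) * Divisor.degree Hb :=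
    (Int.self_le_toNat _).trans (le_mul_of_one_le_right (Int.natCast_nonneg _) hpos)
  have hdegH : Divisor.degree ((N : ℤ) • (poleDivisor (x : E) : Divisor K E)) =
      (N : ℤ) * Divisor.degree Hb := by
    rw [← S.degree_mapDomain, Finsupp.mapDomain_smul, hm, map_zsmul, smul_eq_mul]
  have hlift := (hc _ (hdegH ▸ (le_max_left _ _).trans hN)).2
  refine false_of_ord_gt (H := Hb) hne (by rw [hHb, poleDivisor_apply, hQ0x]; norm_num) N hc'
    ((le_max_right _ _).trans hN) fun z hz0 hzH hlt => ?_
  obtain ⟨f, hf, hfz, hfP⟩ := S.exists_lift_lower hm hser hP0 hQ0 hx hx1 hz0 hlift hzH hlt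
  have hQz := S.ord_red_gt hm hP0 hf (hfz.symm ▸ hz0) hx hfP
  rwa [hfz] at hQz

include hgen hm hser hP0 hQ0 hx hx1 hxb in
/-- Residual functions with divisor divisible by `n` lift to integral series with invertible
lowest coefficient and divisor divisible by `n`. -/
theorem exists_lift_series {n : ℕ} (hn : (n : k) ≠ 0) {gb : Fb} (hgb : gb ≠ 0)
    (hdiv : ∀ Q : Place k Fb, (n : ℤ) ∣ Q.ord gb) :
    ∃ (s : LaurentSeries A) (g : E), coeffMap A.subtype s = (g : LaurentSeries K) ∧
      coeffMap ρ s = (gb : LaurentSeries k) ∧ IsUnit s ∧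
      (g : LaurentSeries K).order = (gb : LaurentSeries k).order ∧
      ∀ P : Place K E, (n : ℤ) ∣ P.ord g := by
  classical
  have hr0 : S.r P0 = Q0 := S.r_infinity hgen hm hser hP0 hQ0 hx hx1 hxb
  obtain ⟨Q1, hQ1⟩ := exists_ord_pos_of_pole (x := S.red x) (Q0 := Q0) (by rw [hQ0, hxb])
  choose t ht using S.r_surjective hgen
  choose u hu hu' using fun (Q : Place k Fb) (hQ : Q.ord (S.red x) < 0) => S.exists_pole_over hm hQ
  let sec : Place k Fb → Place K E := fun Q =>
    if Q = Q0 then P0 else if hQ : Q.ord (S.red x) < 0 then u Q hQ else t Q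
  have hsec : ∀ Q, S.r (sec Q) = Q := fun Q => by
    simp only [sec]; split_ifs with h1 h2
    · exact h1 ▸ hr0
    · exact hu Q h2
    · exact ht Q
  have hQ01 : Q1 ≠ Q0 := fun h => by rw [h, hQ0, hxb] at hQ1; omega
  obtain ⟨g, hg1, hg2, hg3⟩ := S.exists_lift_torsion_section hgen hn hgb hdiv hsec hQ01
  have hgne : S.red g ≠ 0 := hg1 ▸ hgb
  have hord0 : P0.ord (g : E) = Q0.ord gb := hg1 ▸ S.ord_eq_of_single hgne hr0 fun P hne hP =>
    hg3 P (by rw [hP]; simp only [sec, if_true]; exact Ne.symm hne) (hP.symm ▸ Ne.symm hQ01)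
  obtain ⟨m, N, hN⟩ := S.exists_mul_bounded (x := x) (g := (g : E)) fun P hP hPx => by
    refine S.exists_value_of_ord_nonneg hm ?_
    by_contra hneg
    push Not at hneg
    by_cases hs : sec (S.r P) = P
    · simp only [sec, dif_pos hneg] at hs
      split_ifs at hs with h1
      · rw [← hs, hP0, hx] at hPx; omega
      · have := hu' _ hneg
        rw [hs] at this
        omega
    · have h1 : S.r P ≠ Q1 := fun h => by rw [h] at hneg; omega
      rw [hg3 P hs h1] at hP
      omega
  set R : S.O := (m.map fun c => x - S.cst c).prod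
  have hR : (R : E) = (m.map fun (c : A) => ((x : E) - algebraMap K E (c : K))).prod := by
    rw [SubmonoidClass.coe_multiset_prod, Multiset.map_map]
    rfl
  obtain ⟨sg, hsg, hsgr⟩ := hser (g * R) N (by rw [MulMemClass.coe_mul, hR]; exact hN)
  obtain ⟨v, hsR, hsRr⟩ := S.exists_unit_prod_sub hser hx hx1 m
  set s : LaurentSeries A := sg * ((v⁻¹ : (LaurentSeries A)ˣ) : LaurentSeries A)
  have hsv : s * (v : LaurentSeries A) = sg := by rw [mul_assoc, Units.inv_mul, mul_one]
  have hR0 : ((R : E) : LaurentSeries K) ≠ 0 := by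
    rw [← hsR]; exact ((coeffMap A.subtype).isUnit_map v.isUnit).ne_zero
  have hRb0 : (S.red R : LaurentSeries k) ≠ 0 := by
    rw [← hsRr]; exact ((coeffMap ρ).isUnit_map v.isUnit).ne_zero
  have hsK : coeffMap A.subtype s = ((g : E) : LaurentSeries K) := mul_right_cancel₀ hR0 (by
    rw [← hsR, ← map_mul, hsv, hsg, hsR, MulMemClass.coe_mul, MulMemClass.coe_mul])
  have hsk : coeffMap ρ s = (gb : LaurentSeries k) := mul_right_cancel₀ hRb0 (by
    rw [← hsRr, ← map_mul, hsv, hsgr, hsRr, map_mul, hg1, MulMemClass.coe_mul])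
  have hord : ((g : E) : LaurentSeries K).order = (gb : LaurentSeries k).order := by
    rw [← hP0, ← hQ0, hord0]
  refine ⟨s, g, hsK, hsk, ?_, hord, hg2⟩
  refine isUnit_laurent_of_coeff (gb : LaurentSeries k).order (fun i hi => Subtype.ext ?_) ?_
  · have h1 := congrArg (fun w : LaurentSeries K => w.coeff i) hsK
    simp only [coeffMap_coeff, ValuationSubring.subtype_apply] at h1
    rw [h1, ZeroMemClass.coe_zero]
    exact HahnSeries.coeff_eq_zero_of_lt_order (hord.symm ▸ hi)
  · by_contra hnu
    have h1 := congrArg (fun w : LaurentSeries k => w.coeff (gb : LaurentSeries k).order) hsk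
    simp only [coeffMap_coeff, (S.ker_iff _).2 hnu] at h1
    exact HahnSeries.coeff_order_eq_zero.not.mpr (fun h => hgb (Subtype.ext h)) h1.symm

end ConstRed

end FermatAgent.Curve
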