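import Fermat.Agent.Curve.Red.Regular
import Fermat.Agent.ES.Local.Disc

/-!
# Residual Taylor series at the points with integral value of `j`

At a point `τ` with `j τ ∈ R` every element of `BRing M R` has its value and its Taylor series in
the Hauptmodul integral; the reduced Taylor series has the same kernel as the reduced expansion
at `∞`.
-/

set_option autoImplicit false

open UpperHalfPlane CongruenceSubgroup Polynomial
open scoped MatrixGroups
open ModularCurve (qExpand jqModC)

noncomputable section

namespace FermatAgent.Curve.Red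

open FermatAgent.ES

/-- The coefficient ring is integrally closed in `ℂ`. -/
def RedDatum.IntClosed {M : ℕ} {k : Type*} [Field k] (D : RedDatum M k) : Prop :=
  ∀ x : ℂ, (∃ F : D.R[X], F.Monic ∧ (F.map D.R.subtype).eval x = 0) → x ∈ D.R

variable {M m : ℕ} [NeZero M] {k : Type*} [Field k] (D : RedDatum M k) (haux : AuxLevel M m)

include haux in
/-- Values at points with integral `j` are integral. -/
theorem RedDatum.apply_mem (hint : D.IntClosed) {τ : ℍ} (hτ : jFun τ ∈ D.R) (x : BRing M D.R) :
    (x : ℍ → ℂ) τ ∈ D.R := by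
  classical
  set e : BRing M D.R →+* ℂ := (Pi.evalRingHom (fun _ : ℍ => ℂ) τ).comp (BRing M D.R).subtype
  have hmem : (D.symPoly haux ⊤ x).map e ∈ lifts D.R.subtype := by
    rw [lifts_iff_coeff_lifts]
    intro i
    obtain ⟨P, hP⟩ := D.exists_eq_evJB fun γ =>
      D.coeff_symPoly_mem haux ⊤ x i γ (Subgroup.mem_top γ)
    rw [coeff_map, hP]
    refine ⟨P.eval ⟨_, hτ⟩, ?_⟩
    show _ = ((D.evJB P : BRing M D.R) : ℍ → ℂ) τ
    rw [D.coe_evJB]
    exact (eval_map_apply (f := D.R.subtype) (p := P) (⟨_, hτ⟩ : D.R)).symm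
  have hmonic : (D.symPoly haux ⊤ x).Monic := monic_prod_of_monic _ _ fun _ _ => monic_X_sub_C _
  obtain ⟨F, hF, -, hFm⟩ := lifts_and_degree_eq_and_monic hmem (hmonic.map e)
  refine hint _ ⟨F, hFm, ?_⟩
  rw [hF, RedDatum.symPoly, Polynomial.map_prod, eval_prod]
  refine Finset.prod_eq_zero (Finset.mem_univ 1) ?_
  rw [D.actB_inv_eq_of_resAut_eq haux (b := 1) (by rw [D.resAut_resRep, map_one]; rfl), inv_one,
    D.actB_one]
  simp [e]

/-- Points with integral `j` are good. -/
theorem RedDatum.goodPoint (hint : D.IntClosed) {τ : ℍ} (hτ : jFun τ ∈ D.R) :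
    GoodPoint haux D.R τ := by
  set t := haupt haux.dvd τ
  have hv : ∀ {f : ℍ → ℂ}, f ∈ BRing M D.R → f τ ∈ D.R := fun {f} hf =>
    D.apply_mem haux hint hτ ⟨f, hf⟩
  have hunit : ∀ {a b : ℂ}, a ∈ D.R → b ∈ D.R → a * b = 1 → UnitIn D.R a := fun {a b} ha hb h =>
    ⟨left_ne_zero_of_mul_eq_one h, ha, by rw [inv_eq_of_mul_eq_one_right h]; exact hb⟩
  have ht : t ∈ D.R := hv (polFun_mem_BRing haux D.good (one_le haux))
  have h2 : UnitIn D.R t := hunit ht (hv (polFun_mem_BRing haux D.good (two_le haux))) (by
    rw [mul_comm]; exact congrFun (polFun_two_mul_haupt haux) τ)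
  have h0 : UnitIn D.R (t - 1) := hunit (D.R.sub_mem ht D.R.one_mem)
    (hv (polFun_mem_BRing haux D.good (Nat.zero_le _))) (by
      rw [mul_comm]; exact congrFun (polFun_zero_mul haux) τ)
  have h3 : UnitIn D.R (t - hauptRoot haux) := by
    by_cases hm : m = 3
    · obtain ⟨hr, -, -, α, hα, h⟩ := polFun_three haux hm D.good
      have hB : polFun haux.dvd 3 τ * α⁻¹ ∈ D.R :=
        D.R.mul_mem (hv (polFun_mem_BRing haux D.good (le_of_eq hm.symm))) hα.2.2
      refine hunit (D.R.sub_mem ht hr) hB ?_
      rw [← mul_assoc, mul_comm _ (polFun haux.dvd 3 τ)]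
      exact (congrArg (· * α⁻¹) (h τ)).trans (mul_inv_cancel₀ hα.1)
    · simpa [hauptRoot, hm] using h2
  exact GoodPoint.of_integrallyClosed haux D.good hint ⟨h2, h0, h3⟩

variable {τ : ℍ} (hg : GoodPoint haux D.R τ)

/-- The reduced Taylor series. -/
def RedDatum.resDisc : BRing M D.R →+* PowerSeries k :=
  (PowerSeries.map D.π).comp (discHom haux τ D.good hg)

/-- The reduced series of a constant. -/
theorem RedDatum.resDisc_constB (a : D.R) :
    D.resDisc haux hg (D.constB a) = PowerSeries.C (D.π a) := by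
  show PowerSeries.map D.π (discHom haux τ D.good hg ⟨_, const_mem_BRing a.2⟩) = _
  rw [discHom_const haux τ D.good hg a.2, PowerSeries.map_C]

/-- The reduced value of the Hauptmodul. -/
def RedDatum.tVal : k := D.π ⟨haupt haux.dvd τ, hg.val.mem⟩

/-- The reduced series of the Hauptmodul is its value plus `X`. -/
theorem RedDatum.resDisc_tB :
    D.resDisc haux hg (D.tB haux) = PowerSeries.C (D.tVal haux hg) + PowerSeries.X := by
  show PowerSeries.map D.π (discHom haux τ D.good hg
    ⟨_, polRing_le_BRing haux D.good (haupt_mem_polRing haux D.R)⟩) = _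
  rw [discHom_haupt, map_add, PowerSeries.map_C, PowerSeries.map_X]
  rfl

/-- The reduced series of a polynomial in the Hauptmodul is its Taylor polynomial. -/
theorem RedDatum.resDisc_evT (F : D.R[X]) :
    D.resDisc haux hg (D.evT haux F) =
      ((taylor (D.tVal haux hg) (F.map D.π) : k[X]) : PowerSeries k) := by
  have h : (D.resDisc haux hg).comp (D.evT haux) = ((Polynomial.coeToPowerSeries.ringHom).comp
      ((taylorAlgHom (D.tVal haux hg)).toRingHom.comp (mapRingHom D.π))) :=
    Polynomial.ringHom_ext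
      (fun a => by simp [RedDatum.evT, D.resDisc_constB, taylorAlgHom_apply])
      (by simp [RedDatum.evT, D.resDisc_tB, taylorAlgHom_apply, add_comm])
  exact DFunLike.congr_fun h F

/-- The reduced series starts with the reduced value. -/
theorem RedDatum.constantCoeff_resDisc (x : BRing M D.R) (hx : (x : ℍ → ℂ) τ ∈ D.R) :
    PowerSeries.constantCoeff (D.resDisc haux hg x) = D.π ⟨_, hx⟩ := by
  show PowerSeries.constantCoeff (PowerSeries.map D.π (discHom haux τ D.good hg x)) = _
  rw [← PowerSeries.coeff_zero_eq_constantCoeff_apply, PowerSeries.coeff_map,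
    PowerSeries.coeff_zero_eq_constantCoeff_apply]
  exact congrArg D.π (Subtype.ext (constantCoeff_discHom haux τ D.good hg x))

/-- A homomorphism to a domain with the kernel of `redHom 1` on the invariant ring has that kernel
everywhere. -/
theorem RedDatum.eq_zero_iff_of_polRing {L : Type*} [CommRing L] [IsDomain L]
    (Φ : BRing M D.R →+* L)
    (h : ∀ a : BRing M D.R, (a : ℍ → ℂ) ∈ polRing haux D.R → (Φ a = 0 ↔ D.redHom 1 a = 0))
    (f : BRing M D.R) : Φ f = 0 ↔ D.redHom 1 f = 0 := by
  classical
  set P : (BRing M D.R)[X] := ∏ g : GalGrp M m, (X - C (D.actB (repG M m g) f)) with hP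
  obtain ⟨hm, hcoe, hPf⟩ := D.charPol_spec haux f P hP
  constructor
  · intro hf
    by_contra hne
    have h1 := congrArg (fun Q : (BRing M D.R)[X] => Q.eval f) P.X_mul_divX_add
    simp only [eval_add, eval_mul, eval_X, eval_C, hPf] at h1
    have h0 : Φ (P.coeff 0) = 0 := by
      have := congrArg Φ h1
      rwa [map_add, map_mul, hf, zero_mul, zero_add, map_zero] at this
    have h2 := (h _ (hcoe 0)).1 h0
    rw [coeff_zero_eq_eval_zero, hP, eval_prod, map_prod, Finset.prod_eq_zero_iff] at h2
    obtain ⟨g, -, hg0⟩ := h2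
    rw [eval_sub, eval_X, eval_C, zero_sub, map_neg, neg_eq_zero, D.redHom_actB, mul_one] at hg0
    exact hne ((D.redHom_eq_zero_iff haux _ 1).1 hg0)
  · intro hf
    have hz : ∀ g : GalGrp M m, D.redHom 1 (D.actB (repG M m g) f) = 0 := fun g => by
      rw [D.redHom_actB, mul_one]
      exact (D.redHom_eq_zero_iff haux 1 _).1 hf
    have hX : P.map (D.redHom 1) = X ^ Fintype.card (GalGrp M m) := by
      simp [hP, Polynomial.map_prod, hz, Finset.prod_const]
    have hX' : P.map Φ = X ^ Fintype.card (GalGrp M m) := by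
      ext i
      have hi := congrArg (fun Q : (LaurentSeries k)[X] => Q.coeff i) hX
      simp only [coeff_map, coeff_X_pow] at hi
      rw [coeff_map, coeff_X_pow]
      split_ifs at hi ⊢ with hd
      · have hdeg : P.natDegree = i := by
          rw [hd, hP, natDegree_prod_of_monic _ _ fun _ _ => monic_X_sub_C _]
          simp
        rw [← hdeg, hm.coeff_natDegree, map_one]
      · exact (h _ (hcoe i)).2 hi
    have h1 : (P.map Φ).eval (Φ f) = 0 := by rw [eval_map_apply, hPf, map_zero]
    rw [hX', eval_pow, eval_X] at h1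
    exact (pow_eq_zero_iff Fintype.card_ne_zero).1 h1

include haux in
/-- The reduced Taylor series vanishes exactly when the reduced expansion at `∞` does. -/
theorem RedDatum.resDisc_eq_zero_iff (f : BRing M D.R) :
    D.resDisc haux hg f = 0 ↔ D.redHom 1 f = 0 := by
  refine D.eq_zero_iff_of_polRing haux _ (fun a ha => ?_) f
  obtain ⟨e, F, hF⟩ := D.exists_evT_of_mem haux ha
  obtain ⟨v, -, hv⟩ := D.inv_sPol_mem haux
  have hs : D.resDisc haux hg (D.evT haux (D.sPol haux)) ≠ 0 := fun h0 => by
    have := congrArg (D.resDisc haux hg) hv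
    rw [map_mul, h0, zero_mul, map_one] at this
    exact zero_ne_one this
  have h1 : D.resDisc haux hg a = 0 ↔ F.map D.π = 0 := by
    have := congrArg (D.resDisc haux hg) hF
    rw [map_mul, map_pow, D.resDisc_evT haux hg F] at this
    refine ⟨fun h0 => ?_, fun h0 => ?_⟩
    · rw [h0, zero_mul, eq_comm, Polynomial.coe_eq_zero_iff] at this
      exact (taylor_injective _) (this.trans (map_zero _).symm)
    · rw [h0, map_zero, Polynomial.coe_zero] at this
      exact (mul_eq_zero.1 this).resolve_right (pow_ne_zero _ hs)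
  have h2 : D.redHom 1 a = 0 ↔ F.map D.π = 0 := by
    have := congrArg (D.redHom 1) hF
    rw [map_mul, map_pow, D.redHom_evT, D.redHom_evT] at this
    refine ⟨fun h0 => ?_, fun h0 => ?_⟩
    · rw [h0, zero_mul] at this
      exact D.redEv_injective haux 1 (this.symm.trans (map_zero _).symm)
    · rw [h0, map_zero] at this
      exact (mul_eq_zero.1 this).resolve_right (pow_ne_zero _ (D.redEv_sPol_ne_zero haux 1))
  rw [h1, h2]

end FermatAgent.Curve.Red
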