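import Fermat.Agent.Curve.Lift.Twelve

/-!
# An elliptic element of order three on the Hauptmodul of level three

The conjugate `γ₀ = T² (S T) T⁻²` fixes the cusp at which the Hauptmodul has its pole, so it acts
on it by an affine map `t ↦ ζ t + β` with `1 - ζ` a unit. Hence at a residual point fixed by this
map the residual value of `j` is that at the fixed point `T² ρ`, that is zero.
-/

set_option autoImplicit false

open UpperHalfPlane CongruenceSubgroup Polynomial
open scoped MatrixGroups

noncomputable section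

namespace FermatAgent.Curve.Red

open FermatAgent.ES

/-- The element of order three fixing `T² ρ`. -/
def ellThree : SL(2, ℤ) :=
  ModularGroup.T ^ 2 * (ModularGroup.S * ModularGroup.T) * (ModularGroup.T ^ 2)⁻¹

theorem ellThree_smul : ellThree • ((ModularGroup.T ^ 2 : SL(2, ℤ)) • rhoPt) =
    (ModularGroup.T ^ 2 : SL(2, ℤ)) • rhoPt := by
  rw [ellThree, mul_smul, inv_smul_smul, mul_smul, S_T_smul_rhoPt]

variable {M : ℕ} [NeZero M]

/-- On functions of level three it acts as a translation at the pole of the Hauptmodul. -/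
theorem lexp_ellThree (haux : AuxLevel M 3) :
    lexp M (cuspRep 1) (act ellThree (haupt haux.dvd)) =
      twistSer (zetaC M) (lexp M (cuspRep 1) (haupt haux.dvd)) := by
  have e : ellThree * cuspRep 1 =
      -((ModularGroup.T ^ 3 : SL(2, ℤ)) * (cuspRep 1 * ModularGroup.T ^ 1)) := by decide
  have hT : (ModularGroup.T ^ 3 : SL(2, ℤ)) ∈ Gamma 3 := by
    rw [Gamma_mem, T_pow_coe]
    simp
    rfl
  rw [lexp_act, e, lexp_neg, ← lexp_act, haupt, act_polFun haux hT,
    lexp_mul_T_pow (polFun_mem_BSub haux 1 (one_le haux)), pow_one]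

/-- The exponents of the translated Hauptmodul at the cusps. -/
theorem leadUnit_ellThree (haux : AuxLevel M 3) {A : Subring ℂ} (hA : GoodRoot M A (zetaC M))
    (l : ℕ) :
    LeadUnit A (lexp M (cuspRep l) (act ellThree (haupt haux.dvd))) ((M / 3 : ℕ) *
      (pairIdx (vmul 3 (baseVec 3 0) (ellThree * cuspRep l))
          (vmul 3 (baseVec 3 1) (ellThree * cuspRep l)) -
        pairIdx (vmul 3 (baseVec 3 0) (ellThree * cuspRep l))
          (vmul 3 (baseVec 3 2) (ellThree * cuspRep l)))) := by
  have := haux.neZero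
  rw [lexp_act]
  have h := leadUnit_lexp_ratio hA (adm_num haux (one_le haux)) (adm_den haux (one_le haux))
    (ellThree * cuspRep l)
  simp only [← embVec_vmul] at h
  convert h using 1
  · rfl
  simp only [polNum, polDen, pairIdx, leadIdx_embVec, Nat.mul_min_mul_left, Nat.cast_mul, mul_sub]

/-- The transform of the Hauptmodul less `ζ` times itself is regular at the cusps. -/
theorem nonnegSer_ellThree (haux : AuxLevel M 3) {A : Subring ℂ} (hA : GoodRoot M A (zetaC M))
    {l : ℕ} (hl : l ≤ 3) :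
    NonnegSer (lexp M (cuspRep l) (act ellThree (haupt haux.dvd)) -
      HahnSeries.C (zetaC M ^ (2 * (M / 3))) * lexp M (cuspRep l) (haupt haux.dvd)) := by
  set w : ℕ := M / 3 with hw
  have hM : M = 3 * w := (Nat.mul_div_cancel' haux.dvd).symm
  have hw0 : 0 < w := Nat.pos_of_ne_zero fun h => NeZero.ne M (by rw [hM, h, mul_zero])
  have hzw : zetaC M ^ (-(w : ℤ)) = zetaC M ^ (2 * w) := by
    rw [zpow_neg, zpow_natCast]
    refine inv_eq_of_mul_eq_one_right ?_
    rw [← pow_add, show w + 2 * w = M by omega, hA.prim.pow_eq_one]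
  set t := haupt haux.dvd with ht
  set t' := act ellThree t with ht'
  have htB : t ∈ BRing M A := polFun_mem_BRing haux hA (one_le haux)
  have htab : ∀ l : ℕ, l ≤ 3 → l ≠ 1 →
      0 ≤ pairIdx (vmul 3 (baseVec 3 0) (ellThree * cuspRep l))
          (vmul 3 (baseVec 3 1) (ellThree * cuspRep l)) -
        pairIdx (vmul 3 (baseVec 3 0) (ellThree * cuspRep l))
          (vmul 3 (baseVec 3 2) (ellThree * cuspRep l)) := by decide
  intro n hn
  simp only [HahnSeries.coeff_sub, HahnSeries.C_apply, HahnSeries.coeff_single_mul, sub_zero]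
  have hlt := leadUnit_polFun haux hA 1 l (one_le haux)
  rw [← hw] at hlt
  rcases eq_or_ne l 1 with rfl | hl1
  · rw [(polOrd_table haux.small 1 (one_le haux) 1 hl).1 rfl] at hlt
    rcases lt_trichotomy n (-(w : ℤ)) with h | h | h
    · have : (lexp M (cuspRep 1) t).coeff n = 0 := hlt.coeff_of_lt (by omega)
      rw [ht', ht, lexp_ellThree haux, coeff_twistSer, ← ht, this]
      simp
    · rw [ht', ht, lexp_ellThree haux, coeff_twistSer, h, hzw]
      show _ * zetaC M ^ (2 * w) - zetaC M ^ (2 * w) * _ = 0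
      ring
    · have hnd : ¬ ((M / 3 : ℕ) : ℤ) ∣ n := by
        rintro ⟨q, rfl⟩
        rw [← hw] at h hn
        have h1 : q < 0 := by nlinarith
        have h2 : -1 < q := by nlinarith
        omega
      have : (lexp M (cuspRep 1) t).coeff n = 0 :=
        coeff_eq_zero_of_not_dvd haux htB.1 (fun δ hδ => act_polFun haux hδ 1) _ hnd
      rw [ht', ht, lexp_ellThree haux, coeff_twistSer, ← ht, this]
      simp
  · have h1 := (polOrd_table haux.small 1 (one_le haux) l hl).2 hl1
    have h2 := htab l hl hl1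
    rw [(leadUnit_ellThree haux hA l).coeff_of_lt (n := n) (by rw [← hw]; nlinarith),
      show (lexp M (cuspRep l) t).coeff n = 0 from hlt.coeff_of_lt (by nlinarith), mul_zero,
      sub_zero]

/-- **The affine action**: `t (γ₀ τ) = ζ t(τ) + β` with `ζ ^ 3 = 1` and `1 - ζ` a unit. -/
theorem exists_affine_ellThree (haux : AuxLevel M 3) {A : Subring ℂ}
    (hA : GoodRoot M A (zetaC M)) :
    ∃ ζ β : A, UnitIn A (1 - (ζ : ℂ)) ∧ ζ ^ 3 = 1 ∧
      ∀ τ, haupt haux.dvd (ellThree • τ) = (ζ : ℂ) * haupt haux.dvd τ + β := by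
  set w : ℕ := M / 3 with hw
  have hM : M = 3 * w := (Nat.mul_div_cancel' haux.dvd).symm
  have hw0 : 0 < w := Nat.pos_of_ne_zero fun h => NeZero.ne M (by rw [hM, h, mul_zero])
  have hz1 : zetaC M ^ (2 * w) ∈ A := A.pow_mem hA.mem _
  set ζ : A := ⟨_, hz1⟩
  have hz3 : zetaC M ^ M = 1 := hA.prim.pow_eq_one
  set t := haupt haux.dvd with ht
  set t' := act ellThree t with ht'
  have htB : t ∈ BRing M A := polFun_mem_BRing haux hA (one_le haux)
  have ht'B : t' ∈ BRing M A := by
    rw [ht', ht, haupt]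
    simp only [polFun, act_ratio]
    exact ratio_mem_BRing hA ((adm_num haux (one_le haux)).mul _).left
      ((adm_num haux (one_le haux)).mul _).right ((adm_den haux (one_le haux)).mul _)
  set g := t' - (fun _ => (ζ : ℂ)) * t with hg
  have hgB : g ∈ BRing M A := sub_mem ht'B (mul_mem (const_mem_BRing ζ.2) htB)
  have hexp : ∀ γ, lexp M γ g = lexp M γ t' - HahnSeries.C (ζ : ℂ) * lexp M γ t := fun γ => by
    refine lexp_eq ?_
    rw [hg, act_sub, act_mulFun, act_const]
    exact (hasLExp_lexp ht'B.1 γ).sub ((HasLExp.const _).mul (hasLExp_lexp htB.1 γ))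
  have hinv : ∀ δ ∈ Gamma 3, act δ g = g := fun δ hδ => by
    have h1 : act δ t = t := act_polFun haux hδ 1
    have h2 : act δ t' = t' := by
      rw [ht', ← act_mul, show ellThree * δ = (ellThree * δ * ellThree⁻¹) * ellThree by group,
        act_mul]
      exact congrArg (act ellThree)
        (act_polFun haux ((Gamma_normal 3).conj_mem δ hδ ellThree) 1)
    rw [hg, act_sub, act_mulFun, act_const, h1, h2]
  have hz : ∀ l ≤ 3, NonnegSer (lexp M (cuspRep l) g) := fun l hl => by
    rw [hexp]; exact nonnegSer_ellThree haux hA hl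
  obtain ⟨c, hc⟩ := eq_const_of_bounded hgB.1 fun γ => by
    refine isBounded_of_nonneg (hasLExp_lexp hgB.1 γ) fun n hn => ?_
    obtain ⟨δ, hδ, j, hj, k, hγ⟩ := exists_cusp_decomp haux.small γ
    have e : lexp M γ g = lexp M (δ * (cuspRep j * ModularGroup.T ^ k)) g := by
      rcases hγ with h | h
      · rw [← h]
      · rw [← h, lexp_neg]
    rw [e, ← lexp_act, hinv δ hδ, lexp_mul_T_pow hgB.1, coeff_twistSer, hz j hj n hn, zero_mul]
  have hcA : c ∈ A := by
    have h := hgB.2 1 0
    rw [hc, lexp_eq (HasLExp.const c)] at h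
    simpa using h
  refine ⟨ζ, ⟨c, hcA⟩, hA.unit_one_sub (2 * w) fun h => ?_, Subtype.ext ?_, fun τ => ?_⟩
  · have := Nat.le_of_dvd (by omega) h
    omega
  · show (zetaC M ^ (2 * w)) ^ 3 = 1
    rw [← pow_mul, show 2 * w * 3 = M * 2 by omega, pow_mul, hz3, one_pow]
  · have h := congrFun hc τ
    simp only [hg, ht', ht, Pi.sub_apply, Pi.mul_apply, act_apply] at h
    show _ = _ + c
    linear_combination h

/-- **Residual ramification divisible by three forces the residual value `0` of `j`.** -/
theorem RedDatum.pi_eq_zero_of_three_dvd {k : Type*} [Field k] [IsAlgClosed k] (D : RedDatum M k)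
    (haux : AuxLevel M 3) (hint : D.IntClosed) {τ : ℍ} (hτ : jFun τ ∈ D.R)
    (hg : GoodPoint haux D.R τ) {E : ℕ}
    (hE : (D.resDisc haux hg (D.jB - D.constB ⟨_, hτ⟩)).order = (E : ℕ∞)) (h3 : 3 ∣ E) :
    D.π ⟨_, hτ⟩ = 0 := by
  obtain ⟨ζ, β, hu, hζ3, haff⟩ := exists_affine_ellThree haux D.good
  set z := D.π ζ
  set b := D.π β
  have hz1 : 1 - z ≠ 0 := by
    rw [← map_one D.π, ← map_sub]
    exact (D.unit_iff _).2 hu
  have hz3 : z ^ 3 = 1 := by rw [← map_pow, hζ3, map_one]
  have hsum : z ^ 2 + z + 1 = 0 := (mul_eq_zero.1 (show (1 - z) * (z ^ 2 + z + 1) = 0 by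
    linear_combination -hz3)).resolve_left hz1
  refine D.pi_eq_zero_of_order_three haux hint hτ hg hE h3 ellThree (fun u v => v = z * u + b)
    (fun σ hσ hσ' => ?_) ?_
    (fun u v hu' hv' => mul_left_cancel₀ hz1 (by linear_combination hu' - hv'))
    ellThree_smul (by rw [jFun_smul, jFun_rhoPt])
  · simp only [RedDatum.tVal, z, b, ← map_mul, ← map_add]
    exact congrArg D.π (Subtype.ext (haff σ))
  · rintro u _ _ _ rfl rfl rfl
    linear_combination u * hz3 + b * hsum

end FermatAgent.Curve.Red
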