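import Fermat.Agent.Curve.Lift.ResDiv
import Fermat.Agent.Curve.Lift.AffineThree

/-!
# Residual divisors when a prime `r ≡ 2 mod 3` divides the level

Over the residual value `0` of `j` an element of order three permutes without fixed point the
cosets centred at one place, so their number, the order of `j` there, is divisible by three. Over
the other values the residual ramification is prime to three. So the exponent `4` suffices.
-/

set_option autoImplicit false

open UpperHalfPlane CongruenceSubgroup AlgebraicCurve IntermediateField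
open scoped MatrixGroups
open ModularCurve (qExpand jqModC modularFunctionFieldFullC)

attribute [-instance] IsScalarTower.of_algHom RingHom.Finite.instFinite

noncomputable section

namespace FermatAgent.Curve

namespace Red

open FermatAgent.ES

variable {M N : ℕ} [NeZero M] [NeZero N] {k : Type*} [Field k] (D : RedDatum M k)

/-- Homomorphisms with equal orders give embeddings with equal orders. -/
theorem RedDatum.order_pullHom_congr {Φ Φ' : BRing M D.R →+* LaurentSeries k}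
    (hc : ∀ a, Φ (D.constB a) = algebraMap k _ (D.π a))
    (hker : ∀ f, Φ f = 0 ↔ D.redHom 1 f = 0)
    (hc' : ∀ a, Φ' (D.constB a) = algebraMap k _ (D.π a))
    (hker' : ∀ f, Φ' f = 0 ↔ D.redHom 1 f = 0) (hNM : N ∣ M)
    (h : ∀ f, (Φ f).order = (Φ' f).order) (z : modularFunctionFieldFullC k N) :
    (D.pullHom Φ hc hker hNM z).order = (D.pullHom Φ' hc' hker' hNM z).order := by
  rw [RedDatum.pullHom, RedDatum.pullHom, AlgHom.comp_apply, AlgHom.comp_apply]
  obtain ⟨b, r, hr, hz⟩ := D.exists_eq_div (D.incl hNM z)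
  rw [hz, map_div₀, map_div₀, D.liftHom_resMap, D.liftHom_resMap, D.liftHom_resMap,
    D.liftHom_resMap]
  by_cases hb : D.redHom 1 b = 0
  · rw [(hker b).2 hb, (hker' b).2 hb, zero_div, zero_div]
  have hr' : D.redHom 1 r ≠ 0 := fun h0 => hr (D.resMap_eq_zero.2 h0)
  have hb1 := mt (hker b).1 hb
  have hb2 := mt (hker' b).1 hb
  have hr1 := mt (hker r).1 hr'
  have hr2 := mt (hker' r).1 hr'
  have key : ∀ {u v : LaurentSeries k}, u ≠ 0 → v ≠ 0 → (u / v).order = u.order - v.order := by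
    intro u v hu hv
    have := HahnSeries.order_mul (div_ne_zero hu hv) hv
    rw [div_mul_cancel₀ u hv] at this
    omega
  rw [key hb1 hr1, key hb2 hr2, h, h]

variable {m : ℕ} (haux : AuxLevel M m)

include haux in
theorem RedDatum.discEmb_mul_left (hNM : N ∣ M) {τ : ℍ} (hg : GoodPoint haux D.R τ)
    {h : SL(2, ℤ)} (hh : h ∈ Gamma0 N) (δ : SL(2, ℤ)) :
    D.discEmb haux hNM hg (h * δ) = D.discEmb haux hNM hg δ :=
  algHom_ext_fullC fun d => by
    rw [D.discEmb_eq haux hNM hg _ (D.redHom_one_jGenB hNM d),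
      D.discEmb_eq haux hNM hg _ (D.redHom_one_jGenB hNM d), D.actB_mul, D.actB_jGenB hNM hh]

include haux in
/-- An element fixing `τ` preserves the orders along the disc of `τ`. -/
theorem RedDatum.order_discEmb_mul_of_fixed (hint : D.IntClosed) (hNM : N ∣ M) {τ : ℍ}
    (hτ : jFun τ ∈ D.R) (hg : GoodPoint haux D.R τ) {γ : SL(2, ℤ)} (hγ : γ • τ = τ)
    (δ : SL(2, ℤ)) (z : modularFunctionFieldFullC k N) :
    (D.discEmb haux hNM hg (δ * γ) z).order = (D.discEmb haux hNM hg δ z).order := by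
  refine D.order_pullHom_congr _ _ _ _ hNM (fun f => ?_) z
  simp only [RingHom.comp_apply, D.actB_mul]
  have key : ∀ σ (hσ : GoodPoint haux D.R σ), σ = τ →
      (D.resDisc haux hσ (D.actB δ f)).order = (D.resDisc haux hg (D.actB δ f)).order := by
    rintro σ hσ rfl; rfl
  have hg' : GoodPoint haux D.R (γ • τ) := by rwa [hγ]
  have h := (D.order_resDisc_actB haux hint hτ γ hg hg' (D.actB δ f)).trans (key _ hg' hγ)
  set u := D.resDisc haux hg (D.actB γ (D.actB δ f))
  set v := D.resDisc haux hg (D.actB δ f)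
  rcases eq_or_ne v 0 with hv | hv
  · rw [hv, PowerSeries.order_zero, PowerSeries.order_eq_top] at h
    rw [h, hv]
  · obtain ⟨o, ho⟩ := ENat.ne_top_iff_exists.1 (PowerSeries.order_eq_top.not.2 hv)
    rw [order_ofPowerSeries (h.trans ho.symm), order_ofPowerSeries ho.symm]

omit [NeZero N] in
/-- `Γ₀(r)` has no conjugate of an element of trace one for `r ≡ 2 mod 3`. -/
theorem not_mem_gamma0_of_trace_one {r : ℕ} (hr : r.Prime) (hr3 : r % 3 = 2) (hrN : r ∣ N)
    {g : SL(2, ℤ)} (hg : (g : Matrix (Fin 2) (Fin 2) ℤ).trace = 1) : g ∉ Gamma0 N := by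
  intro hmem
  have := Fact.mk hr
  rw [Gamma0_mem, ZMod.intCast_zmod_eq_zero_iff_dvd] at hmem
  have hc : ((g.1 1 0 : ℤ) : ZMod r) = 0 := (ZMod.intCast_zmod_eq_zero_iff_dvd _ _).2
    ((Int.natCast_dvd_natCast.2 hrN).trans hmem)
  have hdet := congrArg (Int.cast : ℤ → ZMod r) g.2
  have htr := congrArg (Int.cast : ℤ → ZMod r) hg
  rw [Matrix.det_fin_two] at hdet
  rw [Matrix.trace_fin_two] at htr
  push_cast at hdet htr
  rw [hc, mul_zero, sub_zero] at hdet
  set a : ZMod r := ((g.1 0 0 : ℤ) : ZMod r)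
  set d : ZMod r := ((g.1 1 1 : ℤ) : ZMod r)
  have ha : a * a - a + 1 = 0 := by linear_combination a * htr - hdet
  have h3 : (-a) ^ 3 = 1 := by linear_combination (-a - 1) * ha
  have hne : -a ≠ 1 := fun h => by
    have h0 : (3 : ZMod r) = 0 := by linear_combination ha + (a - 2) * h
    rw [show (3 : ZMod r) = ((3 : ℕ) : ZMod r) by norm_num,
      ZMod.natCast_eq_zero_iff] at h0
    have := (Nat.prime_dvd_prime_iff_eq hr Nat.prime_three).1 h0
    omega
  have := Fact.mk Nat.prime_three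
  have h1 := orderOf_eq_prime h3 hne
  have h2 := ZMod.orderOf_dvd_card_sub_one (show (-a) ≠ 0 from fun h => by simp [h] at h3)
  rw [h1] at h2
  omega

/-- A ramification index dividing twelve is prime to three or absorbed by one that is not. -/
theorem dvd_four_of_mul {E : ℕ} {k0 o : ℤ} (hE : E ∣ 12) (hEk : (E : ℤ) = k0 * o)
    (h3 : 3 ∣ E → (3 : ℤ) ∣ o) : k0 ∣ 4 := by
  by_cases h : 3 ∣ E
  · obtain ⟨e, he⟩ := h3 h
    have h12 : k0 * o ∣ 12 := hEk ▸ (by exact_mod_cast hE)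
    rw [he, show k0 * (3 * e) = 3 * (k0 * e) by ring, show (12 : ℤ) = 3 * 4 by norm_num] at h12
    exact (dvd_mul_right k0 e).trans (Int.dvd_of_mul_dvd_mul_left (by norm_num) h12)
  · have h4 : E ∣ 4 := (Nat.Coprime.dvd_mul_left (Nat.Coprime.symm
      ((Nat.Prime.coprime_iff_not_dvd Nat.prime_three).2 h))).1 (show E ∣ 3 * 4 from hE)
    exact (Dvd.intro _ hEk.symm).trans (by exact_mod_cast h4)

open Classical in
include haux in
/-- The element of order three at `ρ` permutes the cosets at one centre without fixed point. -/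
theorem RedDatum.three_dvd_card_centre [IsFF k (modularFunctionFieldFullC k N)]
    [Fintype (SL(2, ℤ) ⧸ Gamma0 N)] (hint : D.IntClosed) (hNM : N ∣ M) {τ : ℍ}
    (hτ : jFun τ ∈ D.R) (hg : GoodPoint haux D.R τ) (hρ : τ = rhoPt) {r : ℕ} (hr : r.Prime)
    (hr3 : r % 3 = 2) (hrN : r ∣ N) {x : modularFunctionFieldFullC k N}
    (hpos : ∀ i : SL(2, ℤ) ⧸ Gamma0 N, 0 < (D.discEmb haux hNM hg i.out⁻¹ x).order)
    (Q : Place k (modularFunctionFieldFullC k N)) :
    3 ∣ (Finset.univ.filter fun i : SL(2, ℤ) ⧸ Gamma0 N =>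
      centre (D.discEmb haux hNM hg i.out⁻¹) (hpos i) = Q).card := by
  set S := Finset.univ.filter fun i : SL(2, ℤ) ⧸ Gamma0 N =>
    centre (D.discEmb haux hNM hg i.out⁻¹) (hpos i) = Q with hS
  set w : SL(2, ℤ) := ModularGroup.S * ModularGroup.T
  have hw : w⁻¹ • τ = τ := by rw [hρ, inv_smul_eq_iff, S_T_smul_rhoPt]
  have hclosed : ∀ y ∈ S, w • y ∈ S := by
    intro y hy
    rw [hS, Finset.mem_filter] at hy ⊢
    refine ⟨Finset.mem_univ _, Eq.trans ?_ hy.2⟩
    refine centre_eq_of_forall _ _ _ fun z => ?_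
    obtain ⟨h0, hh⟩ := QuotientGroup.mk_out_eq_mul (Gamma0 N) (w * y.out)
    have : (w • y).out = w * y.out * h0 := by
      rw [← hh, show (QuotientGroup.mk (w * y.out) : SL(2, ℤ) ⧸ Gamma0 N) = w • y from
        congrArg (w • ·) (QuotientGroup.out_eq' y)]
    rw [this, mul_inv_rev, mul_inv_rev, D.discEmb_mul_left haux hNM hg (inv_mem h0.2),
      D.order_discEmb_mul_of_fixed haux hint hNM hτ hg hw]
  have hw3 : ∀ y : SL(2, ℤ) ⧸ Gamma0 N, w • w • w • y = y := fun y => by
    rw [← mul_smul, ← mul_smul]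
    induction y using QuotientGroup.induction_on with
    | _ g =>
      change QuotientGroup.mk (w * w * w * g) = QuotientGroup.mk g
      rw [QuotientGroup.eq,
        show w * w * w = -1 by decide]
      simp [Gamma0_mem]
  by_contra hcd
  obtain ⟨y, hy⟩ := Equiv.Perm.exists_fixed_point_of_prime (p := 3) (n := 1) (α := S)
    (by rwa [Fintype.card_coe])
    (σ := ⟨fun y => ⟨w • y.1, hclosed _ y.2⟩,
      fun y => ⟨w • w • y.1, hclosed _ (hclosed _ y.2)⟩,
      fun y => Subtype.ext (hw3 _), fun y => Subtype.ext (hw3 _)⟩)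
    (Equiv.ext fun y => Subtype.ext (by simpa [pow_succ] using hw3 y.1))
  have hfix : (QuotientGroup.mk (w * y.1.out) : SL(2, ℤ) ⧸ Gamma0 N) =
      QuotientGroup.mk y.1.out := by
    refine (congrArg (w • ·) (QuotientGroup.out_eq' y.1)).trans ?_
    exact (congrArg Subtype.val hy).trans (QuotientGroup.out_eq' y.1).symm
  refine not_mem_gamma0_of_trace_one hr hr3 hrN ?_ (QuotientGroup.eq.1 hfix.symm)
  rw [Matrix.SpecialLinearGroup.coe_mul, Matrix.SpecialLinearGroup.coe_mul, Matrix.trace_mul_comm,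
    Matrix.mul_assoc, ← Matrix.SpecialLinearGroup.coe_mul, ← Matrix.SpecialLinearGroup.coe_mul,
    mul_inv_cancel, mul_one]
  decide

variable [IsAlgClosed k] [IsFF k (modularFunctionFieldFullC k N)]
  (hidx : Module.finrank k⟮jFullC k N⟯ (modularFunctionFieldFullC k N) ≤ (Gamma0 N).index)
  {gb : modularFunctionFieldFullC k N} {f : BRing M D.R}

include hidx in
/-- **Residual divisors are divisible up to four**, given the residual value over the ramification
divisible by three. -/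
theorem RedDatum.dvd_four_ord_finite_of (haux : AuxLevel M m) (hint : D.IntClosed) (hNM : N ∣ M)
    (hthree : ∀ (τ : ℍ) (hτ : jFun τ ∈ D.R) (hg : GoodPoint haux D.R τ) (E : ℕ),
      (D.resDisc haux hg (D.jB - D.constB ⟨_, hτ⟩)).order = (E : ℕ∞) → 3 ∣ E → D.π ⟨_, hτ⟩ = 0)
    {r : ℕ} (hr : r.Prime) (hr3 : r % 3 = 2) (hrN : r ∣ N) {n : ℕ}
    (hgb : gb ≠ 0) (hf : D.redHom 1 f = qExpand k M (gb : LaurentSeries k))
    (hdisc : ∀ (τ : ℍ) (_ : jFun τ ∈ D.R) (hg : GoodPoint haux D.R τ) (i : ℕ),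
      (D.resDisc haux hg f).order = (i : ℕ∞) → n ∣ i)
    {Q : Place k (modularFunctionFieldFullC k N)} (hQ : 0 ≤ Q.ord (jFullC k N)) :
    (n : ℤ) ∣ 4 * Q.ord gb := by
  classical
  obtain ⟨c, hc⟩ := exists_sub_algebraMap (v := Q) (f := jFullC k N) (Or.inr hQ)
  obtain ⟨a, τ, hτa, rfl, hfixτ⟩ : ∃ (a : D.R) (τ : ℍ), jFun τ = a ∧ D.π a = c ∧
      (c = 0 → τ = rhoPt) := by
    rcases eq_or_ne c 0 with rfl | hc0
    · exact ⟨0, rhoPt, jFun_rhoPt, map_zero _, fun _ => rfl⟩
    · obtain ⟨a, rfl⟩ := D.surj c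
      obtain ⟨τ, hτ⟩ := exists_jFun_eq (a : ℂ)
      exact ⟨a, τ, hτ, rfl, fun h => absurd h hc0⟩
  have : Fintype (SL(2, ℤ) ⧸ Gamma0 N) := Fintype.ofFinite _
  obtain ⟨E, hg, hpos, k0, hE12, hE, hEk, hcard, hdvd⟩ :=
    D.exists_ramification haux hidx hint hNM hgb hf hdisc hτa hc
  refine hdvd 4 (dvd_four_of_mul hE12 hEk fun h3 => ?_)
  have hτ : jFun τ ∈ D.R := hτa ▸ a.2
  have ha : (⟨_, hτ⟩ : D.R) = a := Subtype.ext hτa
  have hρ : τ = rhoPt := hfixτ (by rw [← ha]; exact hthree τ hτ hg E (ha ▸ hE) h3)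
  rw [← hcard, show (3 : ℤ) = ((3 : ℕ) : ℤ) from rfl, Int.natCast_dvd_natCast]
  exact D.three_dvd_card_centre haux hint hNM hτ hg hρ hr hr3 hrN hpos Q

include hidx in
/-- **Residual divisors are divisible up to four.** -/
theorem RedDatum.dvd_four_ord (haux : AuxLevel M 3) (hint : D.IntClosed) (hNM : N ∣ M)
    {r : ℕ} (hr : r.Prime) (hr3 : r % 3 = 2) (hrN : r ∣ N) {n : ℕ}
    (hgb : gb ≠ 0) (hf : D.redHom 1 f = qExpand k M (gb : LaurentSeries k))
    (hcusp : ∀ (γ : SL(2, ℤ)) (w : ℕ), γ * ModularGroup.T ^ w * γ⁻¹ ∈ Gamma0 N →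
      ((n * M : ℕ) : ℤ) ∣ (w : ℤ) * (D.redHom γ f).order)
    (hdisc : ∀ (τ : ℍ) (_ : jFun τ ∈ D.R) (hg : GoodPoint haux D.R τ) (i : ℕ),
      (D.resDisc haux hg f).order = (i : ℕ∞) → n ∣ i)
    (Q : Place k (modularFunctionFieldFullC k N)) : (n : ℤ) ∣ 4 * Q.ord gb := by
  rcases le_or_gt 0 (Q.ord (jFullC k N)) with h | h
  · exact D.dvd_four_ord_finite_of hidx haux hint hNM
      (fun _ hτ hg _ hE h3 => D.pi_eq_zero_of_three_dvd haux hint hτ hg hE h3) hr hr3 hrN hgb hf
      hdisc h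
  · exact Dvd.dvd.mul_left (D.dvd_ord_cusp haux hidx hNM hf hcusp h) 4

end Red

end FermatAgent.Curve
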