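import Mathlib.RingTheory.Smooth.StandardSmoothCotangent
import Mathlib.RingTheory.Smooth.Flat
import Mathlib.RingTheory.Ideal.GoingDown
import Mathlib.RingTheory.Unramified.Field
import Mathlib.RingTheory.Valuation.LocalSubring
import Mathlib.RingTheory.Valuation.ValuationSubring
import Mathlib.FieldTheory.IsAlgClosed.Basic
import Fermat.Agent.GaloisBasic.ValuationRing

/-!
# Hensel's lemma in several variables for valuation rings of algebraically closed fields

A valuation ring `A` of an algebraically closed field is henselian: a residual point of an étale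
`A`-algebra lifts to a point with values in `A` (`exists_algHom_of_residual`,
`mem_and_residue_eq`), and so `M` equations in `M` unknowns with an approximate zero of unit
Jacobian have a zero with the same residue (`exists_zero_of_jacobian`).
-/

set_option autoImplicit false

open MvPolynomial

noncomputable section

namespace FermatAgent.Curve

variable {A : Type} [CommRing A] {M : ℕ} (f : Fin M → MvPolynomial (Fin M) A)

/-- The Jacobian. -/
def jacDet : MvPolynomial (Fin M) A :=
  (Matrix.of fun i j => pderiv j (f i)).det

/-- The equations with the Jacobian inverted by a new variable. -/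
def henselEqs : Option (Fin M) → MvPolynomial (Option (Fin M)) A
  | none => rename some (jacDet f) * X none - 1
  | some i => rename some (f i)

theorem pderiv_rename_some_none (p : MvPolynomial (Fin M) A) :
    pderiv none (rename some p) = 0 := by
  induction p using MvPolynomial.induction_on with
  | C a => simp
  | add p q hp hq => simp [hp, hq]
  | mul_X p i hp => simp [hp]

/-- The algebra of the equations with the Jacobian inverted. -/
abbrev HenselAlg : Type :=
  MvPolynomial (Option (Fin M)) A ⧸ Ideal.span (Set.range (henselEqs f))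

/-- The algebra is étale: the Jacobian of its equations is the square of that of `f`. -/
theorem isStandardSmooth_henselAlg :
    Algebra.IsStandardSmoothOfRelativeDimension 0 A (HenselAlg f) := by
  classical
  let P := Algebra.PreSubmersivePresentation.naive (R := A) (v := henselEqs f) id
    Function.injective_id
  have hJ : IsUnit P.jacobian := by
    rw [P.jacobian_eq_jacobiMatrix_det]
    have hdet : P.jacobiMatrix.det = rename some (jacDet f) * rename some (jacDet f) := by
      have e : P.jacobiMatrix =
          (Matrix.of fun i j => pderiv i (henselEqs f j)) := by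
        ext i j
        rw [Algebra.PreSubmersivePresentation.jacobiMatrix_naive]
        rfl
      rw [e, ← Matrix.det_submatrix_equiv_self (Equiv.optionEquivSumPUnit.{0, 0} (Fin M)).symm,
        ← Matrix.fromBlocks_toBlocks (Matrix.submatrix _ _ _)]
      rw [show (Matrix.submatrix (Matrix.of fun i j => pderiv i (henselEqs f j))
          (Equiv.optionEquivSumPUnit.{0, 0} (Fin M)).symm
          (Equiv.optionEquivSumPUnit.{0, 0} (Fin M)).symm).toBlocks₂₁ = 0 by
        ext i j
        simp [Matrix.toBlocks₂₁, henselEqs, pderiv_rename_some_none]]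
      rw [Matrix.det_fromBlocks_zero₂₁]
      congr 1
      · rw [jacDet, AlgHom.map_det, ← Matrix.det_transpose]
        congr 1
        ext i j
        simp [Matrix.toBlocks₁₁, henselEqs, pderiv_rename (Option.some_injective _)]
      · rw [Matrix.det_unique]
        simp [Matrix.toBlocks₂₂, henselEqs, pderiv_rename_some_none]
    rw [hdet, map_mul]
    have h1 : algebraMap P.Ring (HenselAlg f) (rename some (jacDet f)) *
        algebraMap P.Ring (HenselAlg f) (X none) = 1 := by
      rw [← map_mul, ← sub_eq_zero, ← map_one (algebraMap P.Ring (HenselAlg f)), ← map_sub]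
      exact Ideal.Quotient.eq_zero_iff_mem.mpr (Ideal.subset_span ⟨none, rfl⟩)
    exact (IsUnit.of_mul_eq_one _ h1).mul (IsUnit.of_mul_eq_one _ h1)
  exact Algebra.SubmersivePresentation.isStandardSmoothOfRelativeDimension ⟨P, hJ⟩
    (by simp [Algebra.Presentation.dimension])

end FermatAgent.Curve

namespace FermatAgent.Curve

variable {K : Type} [Field K] [IsAlgClosed K] (A : ValuationSubring K)

/-- A residual point of an étale `A`-algebra is the specialisation of a `K`-point. -/
theorem exists_algHom_of_residual {B : Type} [CommRing B] [Algebra A B] [Algebra.Etale A B]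
    (χ : B →ₐ[A] IsLocalRing.ResidueField A) : ∃ φ : B →ₐ[A] K, ∀ b, φ b = 0 → χ b = 0 := by
  set Q : Ideal B := RingHom.ker χ
  have : Q.IsPrime := RingHom.ker_isPrime _
  have : Q.LiesOver (IsLocalRing.maximalIdeal A) := ⟨by
    ext a
    simp only [Q, Ideal.under_def, Ideal.mem_comap, RingHom.mem_ker, AlgHom.commutes]
    exact (IsLocalRing.residue_eq_zero_iff a).symm⟩
  obtain ⟨P, hPQ, hP, hPo⟩ := Q.exists_ideal_le_liesOver_of_le (p := (⊥ : Ideal A))
    (q := IsLocalRing.maximalIdeal A) bot_le
  have := hP
  -- the fraction field of `B ⧸ P` is `K`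
  let C := B ⧸ P
  let L := FractionRing C
  have : Algebra.FormallyUnramified A C :=
    Algebra.FormallyUnramified.of_surjective (Ideal.Quotient.mkₐ A P) Ideal.Quotient.mk_surjective
  have : Algebra.FormallyUnramified C L :=
    Algebra.FormallyUnramified.of_isLocalization (nonZeroDivisors C)
  have : Algebra.FormallyUnramified A L := Algebra.FormallyUnramified.comp A C L
  have : Algebra.EssFiniteType C L := Algebra.EssFiniteType.of_isLocalization L (nonZeroDivisors C)
  have : Algebra.EssFiniteType A C := inferInstance
  have : Algebra.EssFiniteType A L := Algebra.EssFiniteType.comp A C L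
  have hinj : Function.Injective (algebraMap A L) := by
    rw [IsScalarTower.algebraMap_eq A C L, RingHom.coe_comp]
    refine (IsFractionRing.injective C L).comp ((injective_iff_map_eq_zero _).2 fun a ha => ?_)
    have h1 : algebraMap A B a ∈ P := Ideal.Quotient.eq_zero_iff_mem.mp ha
    have h2 : a ∈ P.under A := h1
    rw [← hPo.over] at h2
    exact h2
  let : Algebra K L := (IsFractionRing.lift (A := A) (K := K) hinj).toAlgebra
  have : IsScalarTower A K L := IsScalarTower.of_algebraMap_eq fun a =>
    (IsFractionRing.lift_algebraMap hinj a).symm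
  have : Algebra.FormallyUnramified K L := Algebra.FormallyUnramified.of_restrictScalars A K L
  have : Algebra.EssFiniteType K L := Algebra.EssFiniteType.of_comp A K L
  have hbij : Function.Bijective (algebraMap K L) :=
    Algebra.FormallyUnramified.bijective_of_isAlgClosed_of_isLocalRing K L
  let e : K ≃ₐ[A] L := AlgEquiv.ofBijective (IsScalarTower.toAlgHom A K L) hbij
  let φ : B →ₐ[A] K :=
    (e.symm.toAlgHom.comp (IsScalarTower.toAlgHom A C L)).comp (Ideal.Quotient.mkₐ A P)
  have hφ : ∀ b, φ b = 0 → b ∈ Q := fun b hb => by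
    refine hPQ (Ideal.Quotient.eq_zero_iff_mem.mp ?_)
    have h1 : algebraMap C L (Ideal.Quotient.mk P b) = 0 :=
      e.symm.injective (hb.trans (map_zero _).symm)
    exact IsFractionRing.injective C L (h1.trans (map_zero _).symm)
  exact ⟨φ, hφ⟩

omit [IsAlgClosed K] in
/-- A `K`-point with kernel inside that of a residual point has values in `A`, reducing to the
residual ones: a valuation ring dominating the image dominates `A`, so equals it. -/
theorem mem_and_residue_eq {B : Type} [CommRing B] [Algebra A B]
    (χ : B →ₐ[A] IsLocalRing.ResidueField A) {φ : B →ₐ[A] K} (hφ0 : ∀ b, φ b = 0 → χ b = 0)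
    (b : B) : ∃ h : φ b ∈ A, IsLocalRing.residue A ⟨φ b, h⟩ = χ b := by
  set Q : Ideal B := RingHom.ker χ
  have : Q.IsPrime := RingHom.ker_isPrime _
  have hφ : ∀ b, φ b = 0 → b ∈ Q := hφ0
  -- a valuation ring over the image dominates `A`
  let I : Ideal φ.range.toSubring := Ideal.map φ.toRingHom.rangeRestrict Q
  have hI : I ≠ ⊤ := by
    intro htop
    obtain ⟨b, hb, hb1⟩ := (Ideal.mem_map_iff_of_surjective φ.toRingHom.rangeRestrict
      φ.toRingHom.rangeRestrict_surjective).mp
        ((Ideal.eq_top_iff_one (I : Ideal φ.toRingHom.range)).mp htop)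
    refine (inferInstance : Q.IsPrime).ne_top ((Ideal.eq_top_iff_one Q).mpr ?_)
    have h := hφ (b - 1) (by rw [map_sub, map_one, sub_eq_zero]; exact congrArg Subtype.val hb1)
    have := sub_mem hb h
    rwa [sub_sub_cancel] at this
  obtain ⟨V, hV, hVI⟩ := Ideal.image_subset_nonunits_valuationSubring I hI
  have hAV : ∀ a : A, (a : K) ∈ V := fun a => hV ⟨algebraMap A B a, φ.commutes a⟩
  have hQV : ∀ b ∈ Q, φ b ∈ V.nonunits := fun b hb =>
    hVI ⟨φ.toRingHom.rangeRestrict b, Ideal.mem_map_of_mem _ hb, rfl⟩
  have hmem : ∀ z ∈ V, z ∈ A := by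
    intro z hz
    by_contra hzA
    have hz0 : z ≠ 0 := fun h => hzA (h ▸ A.zero_mem)
    obtain ⟨a, hza, ha⟩ := exists_inv_eq_zero (π := IsLocalRing.residue A) (fun x => by
      rw [IsLocalRing.residue_eq_zero_iff, IsLocalRing.mem_maximalIdeal, mem_nonunits_iff]) hzA
    have h1 := hQV (algebraMap A B a) (by
      rw [RingHom.mem_ker, AlgHom.commutes]; exact ha)
    rw [AlgHom.commutes, show algebraMap A K a = z⁻¹ from hza] at h1
    have h2 := V.mem_nonunits_iff.mp h1
    have h3 : V.valuation (z⁻¹) * V.valuation z = 1 := by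
      rw [← map_mul, inv_mul_cancel₀ hz0, map_one]
    exact (mul_lt_one_of_nonneg_of_lt_one_left zero_le h2
      ((V.valuation_le_one_iff z).mpr hz)).ne h3
  have hbA : φ b ∈ A := hmem _ (hV ⟨b, rfl⟩)
  refine ⟨hbA, ?_⟩
  obtain ⟨a, ha⟩ := IsLocalRing.residue_surjective (χ b)
  rw [← ha, ← sub_eq_zero, ← map_sub, IsLocalRing.residue_eq_zero_iff, IsLocalRing.mem_maximalIdeal]
  intro hu'
  have hb : b - algebraMap A B a ∈ Q := by
    rw [RingHom.mem_ker, map_sub, AlgHom.commutes, sub_eq_zero]
    exact ha.symm
  have h1 := V.mem_nonunits_iff.mp (hQV _ hb)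
  obtain ⟨v, hv⟩ := hu'
  have e1 : φ (b - algebraMap A B a) = (((v : Aˣ) : A) : K) := by
    rw [map_sub, AlgHom.commutes, hv]; rfl
  have h3 : (((v : Aˣ) : A) : K) * (((v⁻¹ : Aˣ) : A) : K) = 1 := congrArg Subtype.val v.mul_inv
  have h4 := congrArg V.valuation h3
  rw [map_one, map_mul, ← e1] at h4
  exact (mul_lt_one_of_nonneg_of_lt_one_left zero_le h1
    ((V.valuation_le_one_iff _).mpr (hAV _))).ne h4

/-- **Hensel's lemma in several variables**: an approximate zero with unit Jacobian lifts to a
zero with the same residue.  The equations with the Jacobian inverted define an étale algebra, so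
the residual point lifts to a `K`-point with values in `A`. -/
theorem exists_zero_of_jacobian {M : ℕ} (f : Fin M → MvPolynomial (Fin M) A) (x0 : Fin M → A)
    (h0 : ∀ i, IsLocalRing.residue A (eval x0 (f i)) = 0) (hJ : IsUnit (eval x0 (jacDet f))) :
    ∃ x : Fin M → A, (∀ i, IsLocalRing.residue A (x i) = IsLocalRing.residue A (x0 i)) ∧
      ∀ i, eval x (f i) = 0 := by
  classical
  obtain ⟨u, hu⟩ := hJ
  set B := HenselAlg f
  have : Algebra.IsStandardSmoothOfRelativeDimension 0 A B := isStandardSmooth_henselAlg f
  let z0 : Option (Fin M) → A := fun o => o.elim ((u⁻¹ : Aˣ) : A) x0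
  let ψ : MvPolynomial (Option (Fin M)) A →ₐ[A] IsLocalRing.ResidueField A :=
    aeval fun o => IsLocalRing.residue A (z0 o)
  have hψ : ∀ p, ψ p = IsLocalRing.residue A (eval z0 p) := fun p =>
    (aeval_def _ p).trans (eval₂_comp (IsLocalRing.residue A) z0 p).symm
  have hψr : ∀ p : MvPolynomial (Fin M) A,
      ψ (rename some p) = IsLocalRing.residue A (eval x0 p) := fun p => by
    rw [hψ, eval_rename]; rfl
  have hker : ∀ p ∈ Ideal.span (Set.range (henselEqs f)), ψ p = 0 := by
    suffices Ideal.span (Set.range (henselEqs f)) ≤ RingHom.ker ψ from fun p hp => this hp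
    rw [Ideal.span_le]
    rintro _ ⟨o, rfl⟩
    rw [SetLike.mem_coe, RingHom.mem_ker]
    cases o with
    | none =>
      simp only [henselEqs, map_sub, map_mul, map_one, hψr, ← hu]
      rw [hψ, eval_X, ← map_mul]
      simp [z0]
    | some i => exact (hψr (f i)).trans (h0 i)
  let χ : B →ₐ[A] IsLocalRing.ResidueField A := Ideal.Quotient.liftₐ _ ψ hker
  have : Algebra.Etale A B := inferInstance
  obtain ⟨φ, hφ⟩ := exists_algHom_of_residual A χ
  let xk : Fin M → K := fun i => φ (Ideal.Quotient.mk _ (X (some i)))
  have hx := fun i => mem_and_residue_eq A χ hφ (Ideal.Quotient.mk _ (X (some i)))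
  choose hxV hxr using hx
  refine ⟨fun i => ⟨xk i, hxV i⟩, fun i => (hxr i).trans ((aeval_X _ _).trans rfl), fun i => ?_⟩
  refine Subtype.ext ?_
  have h1 : (((eval fun j => (⟨xk j, hxV j⟩ : A)) (f i) : A) : K) = aeval xk (f i) := by
    rw [aeval_def]
    exact eval₂_comp A.subtype (fun j => (⟨xk j, hxV j⟩ : A)) (f i)
  have h2 : aeval xk (f i) = φ (Ideal.Quotient.mk _ (rename some (f i))) := by
    have h := DFunLike.congr_fun (aeval_unique ((φ.comp (Ideal.Quotient.mkₐ A _)).comp
      (rename some : MvPolynomial (Fin M) A →ₐ[A] _))) (f i)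
    refine Eq.trans ?_ h.symm
    congr 1
    exact congrArg aeval (funext fun j => by simp [xk]; rfl)
  rw [h1, h2]
  refine (congrArg φ ?_).trans (map_zero φ)
  exact Ideal.Quotient.eq_zero_iff_mem.mpr (Ideal.subset_span ⟨some i, rfl⟩)

end FermatAgent.Curve
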