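import Fermat.Agent.Curve.Lift.Span
import Fermat.Agent.Curve.Embeddings
import Fermat.Agent.Curve.Regular.PlaceVal
import Fermat.Agent.Curve.Red.TwoCharts

/-!
# Poles of a coordinate under a constant reduction

When a coordinate `x` and its reduction have equally many poles, the poles of `x` specialise onto
those of the reduction, at every other place `x` has an integral value, and a product of factors
`x - c` clears the poles of a function at such places (`ConstRed.exists_mul_bounded`).
-/

set_option autoImplicit false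

noncomputable section

open AlgebraicCurve Module

namespace FermatAgent.Curve

/-- The place at infinity of a field of Laurent series with a coordinate of order `-1`. -/
theorem exists_place_order {K : Type*} [Field K] {E : IntermediateField K (LaurentSeries K)}
    [IsFF K E] {x : E} (hx : (x : LaurentSeries K).order = -1) :
    ∃ P : Place K E, ∀ f : E, P.ord f = (f : LaurentSeries K).order := by
  have hx0 : (x : LaurentSeries K) ≠ 0 := fun h => by simp [h] at hx
  have h1 : (E.val x⁻¹).order = 1 := by
    rw [map_inv₀]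
    show ((x : LaurentSeries K)⁻¹).order = 1
    rw [order_inv hx0, hx, neg_neg]
  have hpos : 0 < (E.val x⁻¹).order := by omega
  set P := centre E.val hpos
  obtain ⟨t, -, ht⟩ := exists_ord_eq_one P
  have h2 := order_apply E.val hpos ht x⁻¹
  rw [h1] at h2
  have h3 : 0 < (E.val t).order := order_uniformizer_pos E.val hpos ht
  have h4 : (E.val t).order = 1 := Int.eq_one_of_mul_eq_one_right h3.le h2.symm
  refine ⟨P, fun f => ?_⟩
  have h5 := order_apply E.val hpos ht f
  rw [h4, one_mul] at h5
  exact h5.symm

namespace ConstRed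

variable {K : Type*} [Field K] [IsAlgClosed K] {A : ValuationSubring K} {k : Type*} [Field k]
  [IsAlgClosed k] {ρ : A →+* k} {F Fb : Type*} [Field F] [Algebra K F] [Field Fb] [Algebra k Fb]
  [IsFF K F] [IsFF k Fb] (S : ConstRed A ρ F Fb)

/-- The pole divisor of a coordinate reduces to the pole divisor of its reduction. -/
theorem mapDomain_poleDivisor {x : S.O} (hx : S.red x ≠ 0)
    (hdeg : Divisor.degree (poleDivisor (x : F) : Divisor K F) =
      Divisor.degree (poleDivisor (S.red x) : Divisor k Fb)) :
    Finsupp.mapDomain S.r (poleDivisor (x : F)) = poleDivisor (S.red x) := by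
  classical
  refine (eq_of_le_of_degree_eq (fun v => ?_) ?_).symm
  · have hle : -divisorOf (x : F) ≤ (poleDivisor (x : F) : Divisor K F) := fun w => by
      rw [poleDivisor_apply, Finsupp.neg_apply, divisorOf_apply]
      exact le_max_left _ _
    have h1 := mapDomain_mono S.r hle v
    have h2 := Finsupp.mapDomain_nonneg (f := S.r) (poleDivisor_nonneg (K := K) (x : F)) v
    have h3 := congrArg (fun D : Divisor k Fb => D v) (S.mapDomain_r x hx)
    simp only [divisorOf_apply] at h3
    rw [← Finsupp.mapDomain.addMonoidHom_apply, map_neg, Finsupp.mapDomain.addMonoidHom_apply,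
      Finsupp.neg_apply, h3] at h1
    rw [poleDivisor_apply]
    exact max_le h1 h2
  · rw [S.degree_mapDomain, hdeg]

variable {x : S.O} (hm : Finsupp.mapDomain S.r (poleDivisor (x : F)) = poleDivisor (S.red x))

omit [IsAlgClosed K] [IsAlgClosed k] in
include hm in
/-- A pole of the coordinate reduces to a pole of its reduction. -/
theorem ord_red_neg {P : Place K F} (hP : P.ord (x : F) < 0) : (S.r P).ord (S.red x) < 0 := by
  by_contra h
  have h1 := eq_zero_of_mapDomain_eq_zero S.r (poleDivisor_nonneg (K := K) (x : F)) P (by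
    rw [hm, poleDivisor_apply]; omega)
  rw [poleDivisor_apply] at h1
  omega

omit [IsAlgClosed K] [IsAlgClosed k] in
include hm in
/-- Every pole of the reduced coordinate comes from a pole. -/
theorem exists_pole_over {Q : Place k Fb} (hQ : Q.ord (S.red x) < 0) :
    ∃ P : Place K F, S.r P = Q ∧ P.ord (x : F) < 0 := by
  classical
  have h1 : (Finsupp.mapDomain S.r (poleDivisor (x : F))) Q ≠ 0 := by
    rw [hm, poleDivisor_apply]; omega
  obtain ⟨P, hP, hPQ⟩ := Finset.mem_image.1
    (Finsupp.mapDomain_support (Finsupp.mem_support_iff.2 h1))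
  refine ⟨P, hPQ, ?_⟩
  rw [Finsupp.mem_support_iff, poleDivisor_apply] at hP
  omega

omit [IsAlgClosed k] in
include hm in
/-- Where the reduced coordinate is finite, the coordinate has integral value. -/
theorem exists_value_of_ord_nonneg {P : Place K F} (hP : 0 ≤ (S.r P).ord (S.red x)) :
    ∃ c : A, OrdGE P 1 ((x : F) - algebraMap K F (c : K)) := by
  have hPx : 0 ≤ P.ord (x : F) := not_lt.1 fun h => not_lt.2 hP (S.ord_red_neg hm h)
  obtain ⟨a, ha⟩ : ∃ a : K, OrdGE P 1 ((x : F) - algebraMap K F a) :=
    ⟨placeVal P (x : F), placeVal_spec (Or.inr hPx)⟩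
  by_cases haA : a ∈ A
  · exact ⟨⟨a, haA⟩, ha⟩
  exfalso
  obtain ⟨μ, hμ, hμ0⟩ := exists_inv_eq_zero S.ker_iff haA
  have ha0 : a ≠ 0 := fun h => haA (h ▸ A.zero_mem)
  set w : S.O := 1 - S.cst μ * x with hw
  have hwred : S.red w = 1 := by
    rw [hw, map_sub, map_one, red_cst_mul, hμ0, zero_smul, sub_zero]
  have hw1 : (w : F) = 1 - algebraMap K F a⁻¹ * (x : F) := by
    rw [hw, AddSubgroupClass.coe_sub, OneMemClass.coe_one, MulMemClass.coe_mul, coe_cst, hμ]
  have hwP : OrdGE P 1 (w : F) := by
    have e : (w : F) = -(algebraMap K F a⁻¹ * ((x : F) - algebraMap K F a)) := by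
      rw [hw1, mul_sub, ← map_mul, inv_mul_cancel₀ ha0, map_one]; ring
    rw [e]
    exact (((ordGE_algebraMap _).mul ha).mono (by omega)).neg
  have hw0 : (w : F) ≠ 0 := fun h => by
    rw [show w = 0 from Subtype.ext h, map_zero] at hwred; exact zero_ne_one hwred
  -- the poles of `w` are those of `x`
  have hpole : ∀ v : Place K F, -v.ord (w : F) ≤ max (-v.ord (x : F)) 0 := fun v => by
    have h1 : OrdGE v (min 0 (v.ord (x : F))) (w : F) := by
      rw [hw1]
      refine OrdGE.sub ?_ (((ordGE_algebraMap _).mul (ordGE_self _)).mono (by omega))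
      rw [← map_one (algebraMap K F)]
      exact (ordGE_algebraMap _).mono (by omega)
    rcases h1 with h1 | h1
    · exact absurd h1 hw0
    · omega
  have hle : ∀ v : Place K F, 0 ≤ (divisorOf (w : F) + poleDivisor (x : F) : Divisor K F) v :=
    fun v => by
      rw [Finsupp.add_apply, divisorOf_apply, poleDivisor_apply]
      have := hpole v
      omega
  have h0 := eq_zero_of_mapDomain_eq_zero S.r
    (show (0 : Divisor K F) ≤ divisorOf (w : F) + poleDivisor (x : F) from fun v => hle v) P (by
      rw [Finsupp.mapDomain_add, S.mapDomain_r w (by rw [hwred]; exact one_ne_zero), hm, hwred,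
        Finsupp.add_apply, divisorOf_apply, poleDivisor_apply, Place.ord_one]
      omega)
  rw [Finsupp.add_apply, divisorOf_apply, poleDivisor_apply] at h0
  have := (ordGE_iff_le hw0).1 hwP
  omega

omit [IsAlgClosed K] [IsAlgClosed k] in
/-- Clearing the finite poles by a product of `x - c`. -/
theorem exists_mul_bounded {g : F} (hg : ∀ P : Place K F, P.ord g < 0 → 0 ≤ P.ord (x : F) →
    ∃ c : A, OrdGE P 1 ((x : F) - algebraMap K F (c : K))) :
    ∃ (m : Multiset A) (N : ℕ), g * (m.map fun (c : A) => ((x : F) - algebraMap K F (c : K))).prod ∈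
      riemannRochSpace ((N : ℤ) • (poleDivisor (x : F) : Divisor K F)) := by
  classical
  set T := (finite_ord_ne_zero (K := K) g).toFinset.filter
    (fun P => P.ord g < 0 ∧ 0 ≤ P.ord (x : F))
  have hT : ∀ P, P ∈ T ↔ P.ord g < 0 ∧ 0 ≤ P.ord (x : F) := fun P => by
    simp only [T, Finset.mem_filter, Set.Finite.mem_toFinset, Set.mem_ofPred_eq]
    exact ⟨fun h => h.2, fun h => ⟨by omega, h⟩⟩
  choose c hc using fun P : T => hg P.1 ((hT P.1).1 P.2).1 ((hT P.1).1 P.2).2
  set m : Multiset A := ∑ P : T, Multiset.replicate ((-P.1.ord g).toNat) (c P)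
  set R : F := (m.map fun (c : A) => ((x : F) - algebraMap K F (c : K))).prod
  have hR : R = ∏ P : T, ((x : F) - algebraMap K F (c P : K)) ^ (-P.1.ord g).toNat := by
    show (Multiset.map _ m).prod = _
    simp only [m]
    rw [← Multiset.coe_mapAddMonoidHom, map_sum, Multiset.prod_sum]
    simp only [Multiset.coe_mapAddMonoidHom, Multiset.map_replicate, Multiset.prod_replicate]
  have hRnn : ∀ v : Place K F, 0 ≤ v.ord (x : F) → OrdGE v 0 R := fun v hv => by
    rw [hR]
    refine Finset.prod_induction _ (fun f => OrdGE v 0 f) (fun a b ha hb => ?_) ?_ (fun P _ => ?_)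
    · exact (ha.mul hb).mono le_rfl
    · exact Or.inr (by rw [Place.ord_one])
    · have h1 := ((OrdGE.sub (Or.inr hv) (ordGE_algebraMap (c P : K))).pow (-P.1.ord g).toNat)
      exact h1.mono (by simp)
  set G : F := g * R
  have hGfin : ∀ v : Place K F, 0 ≤ v.ord (x : F) → OrdGE v 0 G := fun v hv => by
    by_cases hgv : 0 ≤ v.ord g
    · exact ((ordGE_self g).mono hgv).mul (hRnn v hv)
    push Not at hgv
    set P : T := ⟨v, (hT v).2 ⟨hgv, hv⟩⟩
    have h1 : OrdGE v ((-v.ord g).toNat : ℤ) R := by
      rw [hR, ← Finset.mul_prod_erase _ _ (Finset.mem_univ P)]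
      refine ((hc P).pow (-v.ord g).toNat).mul (m := 0) ?_ |>.mono (by simp)
      refine Finset.prod_induction _ (fun f => OrdGE v 0 f) (fun a b ha hb => ?_) ?_
        (fun P' _ => ?_)
      · exact (ha.mul hb).mono le_rfl
      · exact Or.inr (by rw [Place.ord_one])
      · exact ((OrdGE.sub (Or.inr hv) (ordGE_algebraMap (c P' : K))).pow (-P'.1.ord g).toNat).mono
          (by simp)
    exact ((ordGE_self g).mul h1).mono (by omega)
  refine ⟨m, ∑ v ∈ (finite_ord_ne_zero (K := K) G).toFinset, (-v.ord G).toNat, ?_⟩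
  rw [mem_riemannRochSpace]
  intro v
  rw [Finsupp.smul_apply, poleDivisor_apply, smul_eq_mul]
  by_cases hv : 0 ≤ v.ord (x : F)
  · rw [max_eq_right (by omega), mul_zero, neg_zero]
    exact hGfin v hv
  rw [max_eq_left (by omega)]
  by_cases hG : v.ord G = 0
  · exact (ordGE_self G).mono (by rw [hG]; nlinarith)
  refine (ordGE_self G).mono ?_
  have h2 : (-v.ord G).toNat ≤ ∑ v ∈ (finite_ord_ne_zero (K := K) G).toFinset, (-v.ord G).toNat :=
    Finset.single_le_sum (f := fun v : Place K F => (-v.ord G).toNat) (fun _ _ => Nat.zero_le _)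
      ((Set.Finite.mem_toFinset _).2 hG)
  have h3 : ((-v.ord G).toNat : ℤ) ≤
      ((∑ v ∈ (finite_ord_ne_zero (K := K) G).toFinset, (-v.ord G).toNat : ℕ) : ℤ) := by
    exact_mod_cast h2
  have h4 : -v.ord G ≤ ((-v.ord G).toNat : ℤ) := Int.self_le_toNat _
  nlinarith

end ConstRed

end FermatAgent.Curve
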