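import Fermat.Agent.Curve.Lift.Disc

/-!
# Embeddings of the residual field of `X₀(N)` from homomorphisms of `BRing M R`

A homomorphism from `BRing M R` to a field over `k` with the kernel of the reduced expansion at
`∞` factors through the residual field of level `M`, so embeds the function field of the reduced
`X₀(N)`, `N ∣ M` (`RedDatum.pullHom`).
-/

set_option autoImplicit false

open UpperHalfPlane CongruenceSubgroup Polynomial
open scoped MatrixGroups
open ModularCurve (qExpand qExpandAlgHomC jqModC modularFunctionFieldFullC)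

noncomputable section

namespace FermatAgent.Curve.Red

open FermatAgent.ES

variable {M m N : ℕ} [NeZero M] [NeZero N] {k : Type*} [Field k] (D : RedDatum M k)

theorem RedDatum.qExpand_mem_fieldRange (hNM : N ∣ M) (z : modularFunctionFieldFullC k N) :
    qExpandAlgHomC k M (z : LaurentSeries k) ∈ (D.resEmb (M := M)).fieldRange := by
  have h : (modularFunctionFieldFullC k N).map (qExpandAlgHomC k M) ≤
      (D.resEmb (M := M)).fieldRange := by
    rw [modularFunctionFieldFullC, IntermediateField.adjoin_map, IntermediateField.adjoin_le_iff]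
    rintro _ ⟨_, ⟨d, hd0, hd, rfl⟩, rfl⟩
    refine ⟨D.resMap (D.jGenB hNM ⟨d, Nat.mem_divisors.mpr ⟨hd, NeZero.ne N⟩⟩), ?_⟩
    show D.resEmb _ = _
    rw [D.resEmb_resMap, D.redHom_one_jGenB]
    rfl
  exact h ⟨z, z.2, rfl⟩

/-- The residual field of level `N` inside that of level `M`. -/
def RedDatum.incl (hNM : N ∣ M) : modularFunctionFieldFullC k N →ₐ[k] D.ResField (M := M) :=
  (AlgEquiv.ofInjectiveField (D.resEmb (M := M))).symm.toAlgHom.comp
    (AlgHom.codRestrict ((qExpandAlgHomC k M).comp (modularFunctionFieldFullC k N).val)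
      (D.resEmb (M := M)).range fun z => D.qExpand_mem_fieldRange hNM z)

theorem RedDatum.resEmb_incl (hNM : N ∣ M) (z : modularFunctionFieldFullC k N) :
    D.resEmb (D.incl hNM z) = qExpand k M (z : LaurentSeries k) := by
  set e := AlgEquiv.ofInjectiveField (D.resEmb (M := M))
  show D.resEmb (e.symm _) = _
  exact congrArg Subtype.val (e.apply_symm_apply _)

/-- If `z` is the reduction of `f` at `∞` then it maps to `f`. -/
theorem RedDatum.incl_eq (hNM : N ∣ M) {z : modularFunctionFieldFullC k N} {f : BRing M D.R}
    (h : D.redHom 1 f = qExpand k M (z : LaurentSeries k)) : D.incl hNM z = D.resMap f :=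
  D.resEmb.toRingHom.injective
    ((D.resEmb_incl hNM z).trans (h.symm.trans (D.resEmb_resMap f).symm))

section Hom

variable {L : Type*} [Field L] [Algebra k L] (Φ : BRing M D.R →+* L)
  (hc : ∀ a, Φ (D.constB a) = algebraMap k L (D.π a))
  (hker : ∀ f, Φ f = 0 ↔ D.redHom 1 f = 0)

/-- A homomorphism with the kernel of the reduction, on the reductions. -/
def RedDatum.subHom : D.resSub (M := M) →ₐ[k] L :=
  have key : ∀ {y : D.resSub (M := M)} {f : BRing M D.R}, D.toSub f = y →
      Φ (Function.surjInv D.toSub_surjective y) = Φ f := fun {y f} h => by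
    rw [← sub_eq_zero, ← map_sub, hker, map_sub, sub_eq_zero]
    exact congrArg Subtype.val ((Function.surjInv_eq D.toSub_surjective y).trans h.symm)
  { toFun := fun y => Φ (Function.surjInv D.toSub_surjective y)
    map_one' := (key (map_one _)).trans (map_one Φ)
    map_zero' := (key (map_zero _)).trans (map_zero Φ)
    map_mul' := fun a b => (key (f := Function.surjInv D.toSub_surjective a *
      Function.surjInv D.toSub_surjective b)
        (by simp [Function.surjInv_eq D.toSub_surjective])).trans (map_mul Φ _ _)
    map_add' := fun a b => (key (f := Function.surjInv D.toSub_surjective a +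
      Function.surjInv D.toSub_surjective b)
        (by simp [Function.surjInv_eq D.toSub_surjective])).trans (map_add Φ _ _)
    commutes' := fun a => by
      obtain ⟨r, rfl⟩ := D.surj a
      refine (key (f := D.constB r) (Subtype.ext ?_)).trans (hc r)
      show D.redHom 1 (D.constB r) = algebraMap k (LaurentSeries k) (D.π r)
      rw [D.redHom_constB, HahnSeries.C_apply, ModularCurve.algebraMap_laurentSeries_eq_single] }

theorem RedDatum.subHom_toSub (f : BRing M D.R) : D.subHom Φ hc hker (D.toSub f) = Φ f := by
  show Φ (Function.surjInv D.toSub_surjective _) = Φ f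
  rw [← sub_eq_zero, ← map_sub, hker, map_sub, sub_eq_zero]
  exact congrArg Subtype.val (Function.surjInv_eq D.toSub_surjective (D.toSub f))

theorem RedDatum.subHom_injective : Function.Injective (D.subHom Φ hc hker) := by
  rw [injective_iff_map_eq_zero]
  intro y hy
  obtain ⟨f, rfl⟩ := D.toSub_surjective y
  rw [D.subHom_toSub, hker] at hy
  exact Subtype.ext hy

/-- The embedding of the residual field of level `M`. -/
def RedDatum.liftHom : D.ResField (M := M) →ₐ[k] L :=
  IsFractionRing.liftAlgHom (D.subHom_injective Φ hc hker)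

/-- The embedding of level `M` on a reduction. -/
theorem RedDatum.liftHom_resMap (f : BRing M D.R) :
    D.liftHom Φ hc hker (D.resMap f) = Φ f := by
  show IsFractionRing.liftAlgHom _ (algebraMap D.resSub D.ResField (D.toSub f)) = _
  rw [IsFractionRing.liftAlgHom_apply, IsFractionRing.lift_algebraMap]
  exact D.subHom_toSub Φ hc hker f

/-- The embedding of the residual field of level `N`. -/
def RedDatum.pullHom (hNM : N ∣ M) : modularFunctionFieldFullC k N →ₐ[k] L :=
  (D.liftHom Φ hc hker).comp (D.incl hNM)

/-- The embedding of level `N` on a reduction. -/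
theorem RedDatum.pullHom_eq (hNM : N ∣ M) {z : modularFunctionFieldFullC k N} {f : BRing M D.R}
    (h : D.redHom 1 f = qExpand k M (z : LaurentSeries k)) :
    D.pullHom Φ hc hker hNM z = Φ f := by
  rw [RedDatum.pullHom, AlgHom.comp_apply, D.incl_eq hNM h, D.liftHom_resMap]

/-- The generator `j (d τ)`. -/
def genFullC (k : Type*) [Field k] {N : ℕ} [NeZero N] (d : JIdx N) :
    modularFunctionFieldFullC k N :=
  ⟨qExpand k (d : ℕ) (jqModC k),
    IntermediateField.subset_adjoin _ _ ⟨d, inferInstance, Nat.dvd_of_mem_divisors d.2, rfl⟩⟩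

/-- The embedding of level `N` on a generator. -/
theorem RedDatum.pullHom_gen (hNM : N ∣ M) (d : JIdx N) :
    D.pullHom Φ hc hker hNM (genFullC k d) = Φ (D.jGenB hNM d) :=
  D.pullHom_eq Φ hc hker hNM (D.redHom_one_jGenB hNM d)

end Hom

/-- Homomorphisms from the residual field agree if they do on the generators. -/
theorem algHom_ext_fullC {L : Type*} [Field L] [Algebra k L]
    {σ σ' : modularFunctionFieldFullC k N →ₐ[k] L}
    (h : ∀ d : JIdx N, σ (genFullC k d) = σ' (genFullC k d)) : σ = σ' := by
  suffices H : σ.toRingHom.eqLocusField σ'.toRingHom = ⊤ by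
    exact AlgHom.ext fun z =>
      (H.ge (Subfield.mem_top z) : z ∈ σ.toRingHom.eqLocusField σ'.toRingHom)
  let E : IntermediateField k (modularFunctionFieldFullC k N) :=
    (σ.toRingHom.eqLocusField σ'.toRingHom).toIntermediateField
      fun a => (σ.commutes a).trans (σ'.commutes a).symm
  have hle : modularFunctionFieldFullC k N ≤ IntermediateField.lift E := by
    refine IntermediateField.adjoin_le_iff.2 ?_
    rintro _ ⟨d, hd0, hd, rfl⟩
    exact ⟨genFullC k ⟨d, Nat.mem_divisors.mpr ⟨hd, NeZero.ne N⟩⟩, h _, rfl⟩
  refine eq_top_iff.2 fun z _ => ?_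
  obtain ⟨w, hw, hwz⟩ := hle z.2
  exact Subtype.ext hwz ▸ hw

end FermatAgent.Curve.Red
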