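import Fermat.Agent.Curve.Lift.ResHom
import Fermat.Agent.Curve.Rotation

/-!
# Rotations of the residual expansions at a cusp

The expansion at `δ∞` embeds the residual field of `X₀(N)` in Laurent series (`cuspHom`); it
depends on the coset of `δ` by `Γ₀(N)`, and `δ ↦ δ T ^ l` rotates it by `ζ̄ ^ l`.
-/

set_option autoImplicit false

open UpperHalfPlane CongruenceSubgroup Polynomial
open scoped MatrixGroups
open ModularCurve (qExpand jqModC modularFunctionFieldFullC)

noncomputable section

namespace FermatAgent.Curve.Red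

open FermatAgent.ES

variable {M m N : ℕ} [NeZero M] [NeZero N] {k : Type*} [Field k] (D : RedDatum M k)
  (haux : AuxLevel M m)

/-- The residual root of unity. -/
def RedDatum.zetaRes : k := D.π ⟨zetaC M, D.good.unit_root.2.1⟩

theorem RedDatum.zetaRes_ne_zero : D.zetaRes ≠ 0 := (D.unit_iff _).2 D.good.unit_root

/-- The residual root of unity is primitive. -/
theorem RedDatum.isPrimitiveRoot_zetaRes : IsPrimitiveRoot D.zetaRes M := by
  refine ⟨?_, fun i hi => ?_⟩
  · rw [RedDatum.zetaRes, ← map_pow, ← map_one D.π]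
    exact congrArg D.π (Subtype.ext (by simp [(zetaC_isPrimitiveRoot M).pow_eq_one]))
  · by_contra hne
    have h := (D.unit_iff (1 - (⟨zetaC M, D.good.unit_root.2.1⟩ : D.R) ^ i)).2
      (by simpa using D.good.unit_one_sub i hne)
    rw [map_sub, map_pow, map_one, show D.π _ = D.zetaRes from rfl, hi, sub_self] at h
    exact h rfl

/-- Translation by `T ^ l` rotates a reduced expansion by `ζ̄ ^ l`. -/
theorem RedDatum.redHom_mul_T_pow (γ : SL(2, ℤ)) (l : ℕ) (f : BRing M D.R) :
    D.redHom (γ * ModularGroup.T ^ l) f =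
      rotate (pow_ne_zero l D.zetaRes_ne_zero) (D.redHom γ f) := by
  have hz : UnitIn D.R (zetaC M ^ l) := D.good.unit_root.pow l
  ext i
  rw [coeff_rotate, D.coeff_redHom, D.coeff_redHom]
  have hmem : (zetaC M ^ l) ^ i ∈ D.R := by
    rcases Int.eq_nat_or_neg i with ⟨j, rfl | rfl⟩
    · rw [zpow_natCast]; exact (hz.pow j).2.1
    · rw [zpow_neg, zpow_natCast]; exact (hz.pow j).2.2
  have e : D.π ⟨_, hmem⟩ = (D.zetaRes ^ l) ^ i := by
    set u : D.R := ⟨zetaC M, D.good.unit_root.2.1⟩
    rcases Int.eq_nat_or_neg i with ⟨j, rfl | rfl⟩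
    · simp only [zpow_natCast, RedDatum.zetaRes, ← map_pow]
      exact congrArg D.π (Subtype.ext (by simp))
    · simp only [zpow_neg, zpow_natCast]
      refine eq_inv_of_mul_eq_one_left ?_
      simp only [RedDatum.zetaRes, ← map_pow, ← map_mul]
      rw [← map_one D.π]
      refine congrArg D.π (Subtype.ext ?_)
      simp only [Subring.coe_mul, SubmonoidClass.coe_pow, OneMemClass.coe_one]
      exact inv_mul_cancel₀ (pow_ne_zero _ hz.1)
  rw [← e, ← map_mul]
  refine congrArg D.π (Subtype.ext ?_)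
  simp only [Subring.coe_mul]
  rw [lexp_mul_T_pow f.2.1, coeff_twistSer, mul_comm]

include haux in
/-- The expansion at `δ ∞` of the residual field of `X₀(N)`. -/
def RedDatum.cuspHom (hNM : N ∣ M) (δ : SL(2, ℤ)) :
    modularFunctionFieldFullC k N →ₐ[k] LaurentSeries k :=
  D.pullHom (D.redHom δ) (fun a => by
      rw [D.redHom_constB, HahnSeries.C_apply, ModularCurve.algebraMap_laurentSeries_eq_single])
    (fun _ => D.redHom_eq_zero_iff haux δ 1) hNM

/-- The expansion at `δ ∞` on the reduction of an integral function. -/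
theorem RedDatum.cuspHom_eq (hNM : N ∣ M) (δ : SL(2, ℤ)) {z : modularFunctionFieldFullC k N}
    {f : BRing M D.R} (h : D.redHom 1 f = qExpand k M (z : LaurentSeries k)) :
    D.cuspHom haux hNM δ z = D.redHom δ f :=
  D.pullHom_eq _ _ _ hNM h

/-- The expansion at `δ ∞` of a generator. -/
theorem RedDatum.cuspHom_gen (hNM : N ∣ M) (δ : SL(2, ℤ)) (d : JIdx N) :
    D.cuspHom haux hNM δ (genFullC k d) = D.redHom δ (D.jGenB hNM d) :=
  D.pullHom_gen _ _ _ hNM d

/-- The generators are fixed by `Γ₀(N)`. -/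
theorem RedDatum.actB_jGenB (hNM : N ∣ M) {h : SL(2, ℤ)} (hh : h ∈ Gamma0 N) (d : JIdx N) :
    D.actB h (D.jGenB hNM d) = D.jGenB (M := M) hNM d :=
  Subtype.ext (funext fun τ => jGenF_gamma0 hh d τ)

/-- The expansion depends only on the coset. -/
theorem RedDatum.cuspHom_mul_left (hNM : N ∣ M) {h : SL(2, ℤ)} (hh : h ∈ Gamma0 N)
    (δ : SL(2, ℤ)) : D.cuspHom haux hNM (h * δ) = D.cuspHom haux hNM δ :=
  algHom_ext_fullC fun d => by
    rw [D.cuspHom_gen, D.cuspHom_gen, ← D.redHom_actB, D.actB_jGenB hNM hh]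

/-- `T` rotates the expansion. -/
theorem RedDatum.cuspHom_mul_T_pow (hNM : N ∣ M) (δ : SL(2, ℤ)) (l : ℕ)
    (z : modularFunctionFieldFullC k N) :
    D.cuspHom haux hNM (δ * ModularGroup.T ^ l) z =
      rotate (pow_ne_zero l D.zetaRes_ne_zero) (D.cuspHom haux hNM δ z) := by
  let r : LaurentSeries k →ₐ[k] LaurentSeries k :=
    { __ := rotate (pow_ne_zero l D.zetaRes_ne_zero)
      commutes' := fun a => by
        show rotate (pow_ne_zero l D.zetaRes_ne_zero) (algebraMap k (LaurentSeries k) a) = _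
        ext i
        rw [coeff_rotate, ModularCurve.algebraMap_laurentSeries_eq_single]
        rcases eq_or_ne i 0 with rfl | hi
        · simp
        · simp [HahnSeries.coeff_single_of_ne hi] }
  have : D.cuspHom haux hNM (δ * ModularGroup.T ^ l) = r.comp (D.cuspHom haux hNM δ) :=
    algHom_ext_fullC fun d => by
      rw [D.cuspHom_gen, AlgHom.comp_apply, D.cuspHom_gen, D.redHom_mul_T_pow]
      rfl
  rw [this]
  rfl

end FermatAgent.Curve.Red
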